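import Fermat.Agent.RT.InputBuild
import Mathlib.GroupTheory.PGroup
import Mathlib.LinearAlgebra.Determinant
import Mathlib.RingTheory.Jacobson.Ideal
import Mathlib.Algebra.Module.Projective

/-!
# Bases over local rings and over group rings of `p`-groups
-/

set_option autoImplicit false

noncomputable section

open IsLocalRing Matrix

namespace FA.RT

/-- Recursion along a chain of erasures. -/
theorem exists_erase_rec {Q : Type} [DecidableEq Q] {β : Finset Q → Type}
    (P : ∀ (U : Finset Q) (hU : U.Nonempty), β (U.erase hU.choose) → β U → Prop)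
    (h0 : Nonempty (β ∅)) (step : ∀ U hU prev, ∃ x, P U hU prev x) :
    ∃ f : ∀ U, β U, ∀ U hU, P U hU (f (U.erase hU.choose)) (f U) := by
  classical
  let F : ∀ U : Finset Q, (∀ V ⊂ U, β V) → β U := fun U ih =>
    if hU : U.Nonempty then
      (step U hU (ih _ (Finset.erase_ssubset hU.choose_spec))).choose
    else (Finset.not_nonempty_iff_eq_empty.mp hU) ▸ h0.some
  refine ⟨Finset.strongInduction F, fun U hU => ?_⟩
  conv =>
    enter [4]
    rw [Finset.strongInduction_eq]
  simp only [F, dif_pos hU]
  exact (step U hU _).choose_spec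

/-- A square family inverted modulo a local ring map is a basis. -/
theorem exists_basis_of_isUnit {R : Type*} [CommRing R] {M : Type*} [AddCommGroup M] [Module R M]
    {ι : Type*} [Fintype ι] [DecidableEq ι] (c : Module.Basis ι R M) (v : ι → M)
    (h : IsUnit (c.toMatrix v).det) : ∃ b : Module.Basis ι R M, ∀ i, b i = v i := by
  have h' : LinearIndependent R v ∧ Submodule.span R (Set.range v) = ⊤ :=
    c.is_basis_iff_det.mpr (by rwa [Module.Basis.det_apply])
  exact ⟨Module.Basis.mk h'.1 h'.2.ge, fun i => Module.Basis.mk_apply h'.1 h'.2.ge i⟩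

variable {O : Type} [CommRing O] [IsLocalRing O]

/-- Over a group ring of a `p`-group an element with unit augmentation is a unit. -/
theorem isUnit_of_isUnit_aug {p : ℕ} (hp : p.Prime) (hpO : (p : O) ∈ maximalIdeal O) {G : Type}
    [CommGroup G] [Finite G] (hG : IsPGroup p G) {x : MonoidAlgebra O G}
    (h : IsUnit (MonoidAlgebra.lift O O G 1 x)) : IsUnit x := by
  by_contra hx
  obtain ⟨m, hm, hxm⟩ := exists_max_ideal_of_mem_nonunits (mem_nonunits_iff.mpr hx)
  let φ := Ideal.Quotient.mk m
  let _ : Field (MonoidAlgebra O G ⧸ m) := Ideal.Quotient.field m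
  let ι : O →+* MonoidAlgebra O G ⧸ m := φ.comp (algebraMap O (MonoidAlgebra O G))
  have : Module.Finite O (MonoidAlgebra O G) := by
    have := Fintype.ofFinite G
    infer_instance
  have hker : maximalIdeal O ≤ RingHom.ker ι := by
    have : (m.comap (algebraMap O (MonoidAlgebra O G))).IsMaximal :=
      Ideal.isMaximal_comap_of_isIntegral_of_isMaximal m
    rw [eq_maximalIdeal this |>.symm]
    exact fun c hc => Ideal.Quotient.eq_zero_iff_mem.mpr hc
  have hpL : ((p : ℕ) : MonoidAlgebra O G ⧸ m) = 0 := by
    rw [← map_natCast ι]; exact hker hpO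
  have : Fact p.Prime := ⟨hp⟩
  have : CharP (MonoidAlgebra O G ⧸ m) p := (CharP.charP_iff_prime_eq_zero hp).mpr hpL
  have hg : ∀ g : G, φ (MonoidAlgebra.single g 1) = 1 := fun g => by
    obtain ⟨k, hk⟩ := hG g
    refine (frobenius_inj _ p).iterate k ?_
    rw [iterate_map_one, ← coe_iterateFrobenius, iterateFrobenius_def, ← map_pow,
      MonoidAlgebra.single_pow, hk, one_pow]
    exact map_one φ
  have key : φ = ι.comp (MonoidAlgebra.lift O O G 1 : MonoidAlgebra O G →ₐ[O] O).toRingHom := by
    refine MonoidAlgebra.ringHom_ext (fun c => ?_) fun g => ?_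
    · simp [ι]
    · simp [hg]
  have h0 : φ x = 0 := Ideal.Quotient.eq_zero_iff_mem.mpr hxm
  rw [key] at h0
  exact not_isUnit_zero (h0 ▸ h.map ι)

/-- **Lifting a basis through the augmentation.** -/
theorem exists_basis_of_aug {p : ℕ} (hp : p.Prime) (hpO : (p : O) ∈ maximalIdeal O) {G : Type}
    [CommGroup G] [Finite G] (hG : IsPGroup p G) {M M₀ : Type} [AddCommGroup M]
    [Module (MonoidAlgebra O G) M] [Module.Free (MonoidAlgebra O G) M]
    [Module.Finite (MonoidAlgebra O G) M] [AddCommGroup M₀] [Module O M₀] (red : M →+ M₀)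
    (hred : ∀ c z, red (c • z) = MonoidAlgebra.lift O O G 1 c • red z) {d : ℕ}
    (hd : Module.finrank (MonoidAlgebra O G) M = d) (b : Module.Basis (Fin d) O M₀)
    (v : Fin d → M) (hv : ∀ i, red (v i) = b i) :
    ∃ c : Module.Basis (Fin d) (MonoidAlgebra O G) M, ∀ i, c i = v i := by
  classical
  let aug : MonoidAlgebra O G →+* O :=
    (MonoidAlgebra.lift O O G 1 : MonoidAlgebra O G →ₐ[O] O).toRingHom
  let c₀ := Module.finBasisOfFinrankEq (MonoidAlgebra O G) M hd
  refine exists_basis_of_isUnit c₀ v (isUnit_of_isUnit_aug hp hpO hG ?_)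
  show IsUnit (aug (c₀.toMatrix v).det)
  rw [RingHom.map_det]
  have hRA : b.toMatrix (fun i => red (c₀ i)) * aug.mapMatrix (c₀.toMatrix v) = 1 := by
    refine Matrix.ext fun i j => ?_
    have h1 : b j = ∑ l, aug (c₀.toMatrix v l j) • red (c₀ l) := by
      rw [← hv j]
      conv_lhs => rw [← c₀.sum_toMatrix_smul_self v j, map_sum]
      exact Finset.sum_congr rfl fun l _ => hred _ _
    have h2 := congrArg (fun z => b.repr z i) h1
    simp only [Module.Basis.repr_self, map_sum, map_smul, Finsupp.coe_finsetSum, Finset.sum_apply,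
      Finsupp.smul_apply, smul_eq_mul] at h2
    rw [Matrix.mul_apply, Matrix.one_apply, ← show (Finsupp.single j (1 : O) i) = if i = j then 1 else 0 by
      rw [Finsupp.single_apply]; simp [eq_comm], h2]
    exact Finset.sum_congr rfl fun l _ => mul_comm _ _
  exact IsUnit.of_mul_eq_one_right _ ((Matrix.det_mul _ _).symm.trans
    ((congrArg Matrix.det hRA).trans Matrix.det_one))

/-- **An adapted basis for two residually independent copies.** -/
theorem exists_adapted_basis {M N : Type} [AddCommGroup M] [Module O M] [Module.Free O M]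
    [Module.Finite O M] [AddCommGroup N] [Module O N] (up : (N × N) →ₗ[O] M)
    (hup : ∀ z, up z ∈ maximalIdeal O • (⊤ : Submodule O M) →
      z ∈ maximalIdeal O • (⊤ : Submodule O (N × N))) {d' : ℕ} (b' : Module.Basis (Fin d') O N) :
    2 * d' ≤ Module.finrank O M ∧
      ∀ e : (Fin d' ⊕ Fin d') ⊕ Fin (Module.finrank O M - 2 * d') ≃ Fin (Module.finrank O M),
      ∃ b : Module.Basis (Fin (Module.finrank O M)) O M, ∀ u : Fin d',
        b (e (.inl (.inl u))) = up (b' u, 0) ∧ b (e (.inl (.inr u))) = up (0, b' u) := by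
  classical
  let d := Module.finrank O M
  let k := ResidueField O
  let c := Module.finBasisOfFinrankEq O M (rfl : Module.finrank O M = d)
  let w : Fin d' ⊕ Fin d' → M := Sum.elim (fun u => up (b' u, 0)) fun u => up (0, b' u)
  let ρ : M → (Fin d → k) := fun x i => residue O (c.repr x i)
  have hρ0 : ∀ x, ρ x = 0 → x ∈ maximalIdeal O • (⊤ : Submodule O M) := fun x hx => by
    rw [← c.sum_repr x]
    exact Submodule.sum_mem _ fun i _ => Submodule.smul_mem_smul
      ((residue_eq_zero_iff _).mp (congrFun hx i)) Submodule.mem_top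
  have hli : LinearIndependent k fun u => ρ (w u) := by
    rw [Fintype.linearIndependent_iff]
    intro g hg u
    let G : Fin d' ⊕ Fin d' → O := fun u => Function.surjInv residue_surjective (g u)
    have hG : ∀ u, residue O (G u) = g u := fun u => Function.surjInv_eq residue_surjective (g u)
    have h1 : ρ (∑ u, G u • w u) = 0 := funext fun i => by
      have h := congrFun hg i
      simp only [Finset.sum_apply, Pi.smul_apply, smul_eq_mul] at h
      show residue O (c.repr (∑ u, G u • w u) i) = 0
      simpa [map_sum, hG, ρ] using h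
    let z : N × N := (∑ u, G (.inl u) • b' u, ∑ u, G (.inr u) • b' u)
    have hz : up z = ∑ u, G u • w u := by
      rw [Fintype.sum_sum_type]
      have : z = ∑ u, G (.inl u) • ((b' u, 0) : N × N) + ∑ u, G (.inr u) • ((0, b' u) : N × N) := by
        refine Prod.ext ?_ ?_ <;> simp [z, Prod.fst_sum, Prod.snd_sum]
      rw [this, map_add, map_sum, map_sum]
      simp only [w, map_smul, Sum.elim_inl, Sum.elim_inr]
    have h2 := hup z (hz ▸ hρ0 _ h1)
    have hcoord : ∀ f : (N × N) →ₗ[O] O, f z ∈ maximalIdeal O := fun f => by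
      have h := Submodule.mem_map_of_mem (f := f) h2
      rw [Submodule.map_smul''] at h
      simpa using Submodule.smul_le.mpr (fun r hr y _ => (maximalIdeal O).mul_mem_right y hr) h
    rw [← hG u, residue_eq_zero_iff]
    rcases u with u | u
    · have h := hcoord ((Finsupp.lapply u).comp (b'.repr.toLinearMap.comp (LinearMap.fst O N N)))
      simpa [z, Finsupp.single_apply] using h
    · have h := hcoord ((Finsupp.lapply u).comp (b'.repr.toLinearMap.comp (LinearMap.snd O N N)))
      simpa [z, Finsupp.single_apply] using h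
  set V := Submodule.span k (Set.range fun u => ρ (w u)) with hV
  obtain ⟨X, hX⟩ := V.exists_isCompl
  have hdim : Module.finrank k ↥V + Module.finrank k ↥X = d := by
    rw [Submodule.finrank_add_eq_of_isCompl hX, Module.finrank_fin_fun]
  have hdV : Module.finrank k ↥V = 2 * d' := by
    rw [hV, finrank_span_eq_card hli]; simp [two_mul]
  refine ⟨by show 2 * d' ≤ d; omega, fun e => ?_⟩
  let bX : Module.Basis (Fin (d - 2 * d')) k ↥X := Module.finBasisOfFinrankEq k ↥X (by omega)
  let bk : Module.Basis ((Fin d' ⊕ Fin d') ⊕ Fin (d - 2 * d')) k (Fin d → k) :=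
    ((Module.Basis.span hli).prod bX).map (Submodule.prodEquivOfIsCompl V X hX)
  have hbk : ∀ u, bk (.inl u) = ρ (w u) := fun u => by
    simp [bk]
  let v : Fin d → M := fun i => match e.symm i with
    | .inl u => w u
    | .inr u => ∑ l, Function.surjInv residue_surjective (bk (.inr u) l) • c l
  have hv : ∀ i, ρ (v i) = bk (e.symm i) := fun i => by
    show ρ (v i) = _
    simp only [v]
    rcases e.symm i with u | u
    · exact (hbk u).symm
    · funext l
      show residue O (c.repr (∑ m, Function.surjInv residue_surjective (bk (.inr u) m) • c m) l) = _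
      rw [Module.Basis.repr_sum_self]
      exact Function.surjInv_eq residue_surjective _
  have hdet : IsUnit (c.toMatrix v).det := by
    refine (isUnit_map_iff (residue O) _).mp ?_
    rw [RingHom.map_det]
    have hm : (residue O).mapMatrix (c.toMatrix v) =
        (Pi.basisFun k (Fin d)).toMatrix (fun i => (bk.reindex e) i) := by
      refine Matrix.ext fun i j => ?_
      rw [RingHom.mapMatrix_apply, Matrix.map_apply, Module.Basis.toMatrix_apply,
        Module.Basis.toMatrix_apply, Pi.basisFun_repr, Module.Basis.reindex_apply, ← hv j]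
    rw [hm]
    exact (Matrix.isUnit_iff_isUnit_det _).mp
      (IsUnit.of_mul_eq_one _ ((Pi.basisFun k (Fin d)).toMatrix_mul_toMatrix_flip (bk.reindex e)))
  obtain ⟨b, hb⟩ := exists_basis_of_isUnit c v hdet
  exact ⟨b, fun u => ⟨by rw [hb]; simp [v, w], by rw [hb]; simp [v, w]⟩⟩

end FA.RT
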