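import Fermat.Agent.RT.Tower.Inputs
import Fermat.Agent.RT.Transfer

/-!
# Modularity lifting from a tower

A congruent lift which is an eigen system of one level of a tower forces every allowed lift to be an
eigen system of the level where it is ramified.
-/

set_option autoImplicit false
set_option linter.unusedSectionVars false

noncomputable section

open IsLocalRing Matrix FA.Deform FA.TW FA.LocalDef FA.Patch

namespace FA.RT

local notation "Qb" => AlgebraicClosure ℚ
local notation "GQ" => AlgebraicClosure ℚ ≃ₐ[ℚ] AlgebraicClosure ℚ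
local notation "M2" => Matrix (Fin 2) (Fin 2)

/-- The matrices of one level in a basis. -/
def basisAct {O Λ : Type} [CommRing O] [CommRing Λ] [Algebra O Λ] {Q : Type} [DecidableEq Q]
    {qn : Q → ℕ} {bad : Finset ℕ} (H : HeckeLevels O Λ Q qn bad) (U : Finset Q) {m : ℕ}
    (b : Module.Basis (Fin m) Λ (H.M U)) : H.A U →ₐ[O] Matrix (Fin m) (Fin m) Λ :=
  ((LinearMap.toMatrixAlgEquiv b).toAlgHom.restrictScalars O).comp (H.act U)

namespace Setup

variable {O : Type} [CommRing O] [IsDomain O] [IsDiscreteValuationRing O]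
  [IsAdicComplete (maximalIdeal O) O] [Finite (ResidueField O)]
  {S : Setup O} {Q : Type} [DecidableEq Q] [Fintype Q] {emb : Q → ↥S.Sig} {bad : Finset ℕ}
  {AtP : ∀ (B : Type) [CommRing B] [IsLocalRing B] [Algebra O B], (GQ →* M2 B) → Prop}

/-- The rank of inertia at a prime of the level, in two copies of the module of the level. -/
def MonoTower (base : BaseTower S Q emb bad AtP) : Prop :=
  ∀ (C₀ : Carried S.rb S.cyc) (U : Finset Q) (x : Q), x ∈ U → ∀ f : C₀.R →ₐ[O] base.A U,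
    (∀ ℓ : ℕ, ℓ.Prime → ℓ ∉ bad → ∀ P : ValuationSubring Qb, P.LiesOverPrime ℓ →
      ∀ σ : GQ, P.IsFrobeniusAt σ ℓ → f (C₀.rR σ).trace = base.T U ℓ) →
    ∀ (m : ℕ) (b : Module.Basis (Fin m) O (base.M U)),
      ((blockAct ((basisAct base.toHeckeLevels U b).comp f).toRingHom (C₀.rR (S.tame (emb x)) - 1)).map (residue O)).rank +
        2 * Module.finrank O (base.M (U.erase x)) = m

/-- A lift over the coefficient ring. -/
structure ZeroPoint (S : Setup O) where
  /-- the representation -/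
  r : GQ →* M2 O
  lift : mapRep (residue O) r = S.rb
  cont : IsContRep r
  det : ∀ σ, (r σ).det = S.cyc σ

/-- Two lifts as a family. -/
def twoPoints (a b : ZeroPoint S) : PointSet S.rb S.cyc where
  J := Bool
  B _ := O
  r j := cond j a.r b.r
  ε _ := residue O
  ε_algebraMap _ _ := rfl
  lift j := by cases j <;> [exact b.lift; exact a.lift]
  cont j := by cases j <;> [exact b.cont; exact a.cont]
  det j σ := by cases j <;> [exact b.det σ; exact a.det σ]

/-- **Modularity lifting along a tower.** -/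
theorem eigen_of_tower [CharZero O] [Fact (S.m = 4)] (base : BaseTower S Q emb bad AtP) (hmono : MonoTower base)
    (hemb : Function.Injective emb) (hres : ∀ x, S.rb (S.tame (emb x)) = 1)
    (haux : ∀ q : ↥S.Sig, q ∉ Set.range emb → S.rb (S.tame q) = 1 →
      (S.rb (S.Φ q)).trace * (S.rb (S.Φ q)).trace ≠
        ((q.1 : ResidueField O) + 1) * ((q.1 : ResidueField O) + 1))
    (hSig : S.Sig.Nonempty)
    (hcycΦ : ∀ q : ↥S.Sig, S.cyc (S.Φ q) = (q.1 : O))
    (hcycs : ∀ q : ↥S.Sig, S.cyc (S.tame q) = 1)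
    (hspan : Submodule.span (ResidueField O) (Set.range S.rb) = ⊤)
    (F : Frame O) (hF : F.Adapted S.rb) (hup : ∃ σ, S.rb σ 0 1 ≠ 0)
    (hAtP : ∀ (P : PointSet S.rb S.cyc) (M : P.Model), (∀ j, AtP (P.B j) (P.r j)) →
      ∀ t : ↥(tangent M.π O), S.Cp (tgVal M.rR S.rb t))
    (htw : ∃ r : ℕ, ∀ n : ℕ, ∃ (D : S.TWSet r n) (ab : Fin r → ResidueField O),
      (∀ i, ab i * ab i - (S.rb (D.φ i)).trace * ab i + (S.rb (D.φ i)).det = 0) ∧
      (∀ i, D.qv i ∉ S.T) ∧ Nonempty (DepthTower base D ab))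
    {Utop Utar : Finset Q} (w' w : ZeroPoint S)
    (hw' : S.BaseAllowed AtP O w'.r) (hw : S.BaseAllowed AtP O w.r)
    (hwunr : ∀ x, x ∉ Utar → w.r (S.tame (emb x)) = 1)
    (χ' : base.A Utop →ₐ[O] O)
    (hχ' : ∀ ℓ : ℕ, ℓ.Prime → ℓ ∉ bad → ∀ P : ValuationSubring Qb, P.LiesOverPrime ℓ →
      ∀ σ : GQ, P.IsFrobeniusAt σ ℓ → χ' (base.T Utop ℓ) = (w'.r σ).trace) :
    ∃ χ : Algebra.adjoin O {a : base.A Utar | ∃ ℓ : ℕ, ℓ.Prime ∧ ℓ ∉ bad ∧ a = base.T Utar ℓ}
        →ₐ[O] O,
      ∀ (ℓ : ℕ) (hℓ : ℓ.Prime) (hℓb : ℓ ∉ bad), ∀ P : ValuationSubring Qb, P.LiesOverPrime ℓ →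
        ∀ σ : GQ, P.IsFrobeniusAt σ ℓ →
          χ ⟨base.T Utar ℓ, Algebra.subset_adjoin ⟨ℓ, hℓ, hℓb, rfl⟩⟩ = (w.r σ).trace := by
  classical
  obtain ⟨rr, hr⟩ := htw
  have hE : ∀ j, S.BaseAllowed AtP ((twoPoints w' w).B j) ((twoPoints w' w).r j) := by
    rintro (_ | _)
    · exact hw
    · exact hw'
  have : Nonempty (twoPoints w' w).J := ⟨true⟩
  obtain ⟨B⟩ := nonempty_baseSide base (twoPoints w' w) F hF hup
  have hin : ∀ n, ∃ I : S.LevelInput B.M₀.toCarried (tdim base.rk) tsrc ttgt B.act₀ rr n,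
      (∀ U, StepFacts B I U) ∧ ∀ (U : Finset Q) (x : Q), x ∉ U → ∀ a b,
        I.act (.inl U) ((I.C.rR (S.tame (emb x)) - 1) a b) = 0 := fun n => by
    obtain ⟨D, ab, hab, hqv, ⟨dep⟩⟩ := hr n
    exact exists_input B hspan F hF hup hAtP hE D ab hab hqv dep
  choose inp hfacts hold using hin
  obtain ⟨g, hg⟩ : ∃ g, g + 1 = rr + S.Sig.card :=
    ⟨rr + S.Sig.card - 1, by have := hSig.card_pos; omega⟩
  let st : ∀ U : {U : Finset Q // U.Nonempty},
      Step inp (emb (pick U)) (U, true) (.inl (oldU U)) (.inr (U, true)) := fun U =>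
    stepOf B hfacts hold U (hres _) (by
      have h := hmono B.M₀.toCarried U.1 (pick U) (pick_mem U) (B.f₀ U.1)
        (fun ℓ hℓ hℓb P hP σ hσ => B.f₀_frob U.1 hℓ (Or.inl hℓb) hP hσ) _ (B.b U.1)
      change ((blockAct (B.act₀ (.inl U.1)).toRingHom _).map (residue O)).rank +
        2 * base.rk (oldU U) = base.rk U.1 at h
      show _ = base.rk U.1 - 2 * base.rk (oldU U)
      omega)
  have hdown : ∀ U : Finset Q, Down inp (.inl U) (.inl (∅ : Finset Q)) (U.image emb) := by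
    intro U
    induction U using Finset.strongInduction with
    | H U ih =>
      by_cases hU : U.Nonempty
      · have h := Down.step (st ⟨U, hU⟩) (ih _ (Finset.erase_ssubset (pick_mem ⟨U, hU⟩)))
          (by simp [hemb.eq_iff])
        rw [← Finset.image_insert, oldU, Finset.insert_erase (pick_mem ⟨U, hU⟩)] at h
        exact h
      · rw [Finset.not_nonempty_iff_eq_empty.mp hU, Finset.image_empty]
        exact Down.refl _
  -- the point of `w'`
  let f' : B.M₀.R →ₐ[O] O := B.pe true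
  let f : B.M₀.R →ₐ[O] O := B.pe false
  have hf'eq : f' = χ'.comp (B.f₀ Utop) := by
    refine AlgHom.ext fun z => ?_
    have hN : AlgHom.equalizer f' (χ'.comp (B.f₀ Utop)) = ⊤ :=
      B.M₀.eq_top_of_frobenius _ bad fun q hq hqb P hP σ hσ k => by
        rw [map_pow]
        refine trace_pow_mem _ _ ?_ ?_ k
        · rw [AlgHom.mem_equalizer, AlgHom.comp_apply, B.f₀_frob Utop hq (Or.inl hqb) hP hσ,
            hχ' q hq hqb P hP σ hσ]
          exact B.pe_trace true σ
        · rw [B.M₀.det]; exact Subalgebra.algebraMap_mem _ _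
    exact (hN ▸ Algebra.mem_top : z ∈ AlgHom.equalizer f' (χ'.comp (B.f₀ Utop)))
  have hf' : RingHom.ker (B.act₀ (.inl Utop)) ≤ RingHom.ker f'.toRingHom := fun z hz => by
    refine RingHom.mem_ker.mpr ?_
    have h0 : B.f₀ Utop z = 0 := base.act_injective Utop (by
      rw [map_zero]
      exact (LinearMap.toMatrixAlgEquiv (B.b Utop)).injective
        ((RingHom.mem_ker.mp hz).trans (map_zero _).symm))
    show f' z = 0
    rw [hf'eq, AlgHom.comp_apply, h0, map_zero]
  -- unramified places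
  have htop : ∀ q, S.rb (S.tame q) = 1 → q ∉ Utop.image emb →
      (∀ n a b, (inp n).act (.inl Utop) (((inp n).C.rR (S.tame q) - 1) a b) = 0) ∨
        (S.rb (S.Φ q)).trace * (S.rb (S.Φ q)).trace ≠
          ((q.1 : ResidueField O) + 1) * ((q.1 : ResidueField O) + 1) := fun q hq hqU => by
    by_cases hqr : q ∈ Set.range emb
    · obtain ⟨x, rfl⟩ := hqr
      exact Or.inl fun n => hold n Utop x fun hx => hqU (Finset.mem_image_of_mem _ hx)
    · exact Or.inr (haux q hqr hq)
  have htar : ∀ q, S.rb (S.tame q) = 1 → q ∉ Utar.image emb →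
      (∀ a b, f.toRingHom ((B.M₀.rR (S.tame q) - 1) a b) = 0) ∨
        (S.rb (S.Φ q)).trace * (S.rb (S.Φ q)).trace ≠
          ((q.1 : ResidueField O) + 1) * ((q.1 : ResidueField O) + 1) := fun q hq hqU => by
    by_cases hqr : q ∈ Set.range emb
    · obtain ⟨x, rfl⟩ := hqr
      refine Or.inl fun a b => ?_
      have h1 := B.M₀.toCarried.map_eq_one hspan (residue O) (fun _ => rfl) w.r w.lift f
        (fun σ => B.pe_trace false σ) (hwunr x fun hx => hqU (Finset.mem_image_of_mem _ hx))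
      show f ((B.M₀.rR (S.tame (emb x)) - 1) a b) = 0
      rw [Matrix.sub_apply, map_sub,
        show f (B.M₀.rR (S.tame (emb x)) a b) = _ from congrFun (congrFun h1 a) b]
      rcases eq_or_ne a b with rfl | hab <;> simp [*]
    · exact Or.inr (haux q hqr hq)
  have hker := transfer hg inp hcycΦ hcycs f'.toRingHom f.toRingHom (hdown Utop) (hdown Utar) hf'
    htop htar fun q hq => by
      rcases Finset.mem_union.mp hq with hq | hq <;>
        · obtain ⟨x, -, rfl⟩ := Finset.mem_image.mp hq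
          exact hres x
  -- the eigen system
  let N : Subalgebra O (base.A Utar) :=
    Algebra.adjoin O {a : base.A Utar | ∃ ℓ : ℕ, ℓ.Prime ∧ ℓ ∉ bad ∧ a = base.T Utar ℓ}
  have hmemN : ∀ z, B.f₀ Utar z ∈ N := fun z => by
    have hN : N.comap (B.f₀ Utar) = ⊤ :=
      B.M₀.eq_top_of_frobenius _ bad fun q hq hqb P hP σ hσ k => by
        rw [map_pow]
        refine trace_pow_mem _ _ ?_ ?_ k
        · show B.f₀ Utar (B.M₀.rR σ).trace ∈ N
          rw [B.f₀_frob Utar hq (Or.inl hqb) hP hσ]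
          exact Algebra.subset_adjoin ⟨q, hq, hqb, rfl⟩
        · rw [B.M₀.det]; exact Subalgebra.algebraMap_mem _ _
    exact (hN ▸ Algebra.mem_top : z ∈ N.comap (B.f₀ Utar))
  let gN : B.M₀.R →ₐ[O] N := (B.f₀ Utar).codRestrict N hmemN
  have hsurj : Function.Surjective gN := by
    rintro ⟨a, ha⟩
    suffices h : N ≤ (B.f₀ Utar).range by
      obtain ⟨z, hz⟩ := h ha
      exact ⟨z, Subtype.ext hz⟩
    refine Algebra.adjoin_le ?_
    rintro _ ⟨ℓ, hℓ, hℓb, rfl⟩
    obtain ⟨P, hP⟩ := Deform.exists_liesOverPrime hℓ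
    obtain ⟨σ, hσ⟩ := Deform.exists_isFrobeniusAt hℓ hP
    exact ⟨(B.M₀.rR σ).trace, B.f₀_frob Utar hℓ (Or.inl hℓb) hP hσ⟩
  have hle : RingHom.ker gN ≤ RingHom.ker f := fun z hz => by
    have h0 : B.f₀ Utar z = 0 := congrArg Subtype.val (RingHom.mem_ker.mp hz)
    refine RingHom.mem_ker.mpr (RingHom.mem_ker.mp (hker (RingHom.mem_ker.mpr ?_)))
    show levAct base.toHeckeLevels B.b Utar (B.f₀ Utar z) = 0
    rw [h0, map_zero]
  let χ : N →ₐ[O] O := (Ideal.Quotient.liftₐ (RingHom.ker gN) f fun z hz =>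
    RingHom.mem_ker.mp (hle hz)).comp
      (Ideal.quotientKerAlgEquivOfSurjective hsurj).symm.toAlgHom
  refine ⟨χ, fun ℓ hℓ hℓb P hP σ hσ => ?_⟩
  have hpre : (⟨base.T Utar ℓ, Algebra.subset_adjoin ⟨ℓ, hℓ, hℓb, rfl⟩⟩ : N) =
      gN (B.M₀.rR σ).trace := Subtype.ext (B.f₀_frob Utar hℓ (Or.inl hℓb) hP hσ).symm
  rw [hpre]
  refine Eq.trans ?_ (B.pe_trace false σ)
  have hsy : (Ideal.quotientKerAlgEquivOfSurjective hsurj).symm (gN (B.M₀.rR σ).trace) =
      Ideal.Quotient.mk (RingHom.ker gN) (B.M₀.rR σ).trace :=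
    (Ideal.quotientKerAlgEquivOfSurjective hsurj).injective (by
      rw [AlgEquiv.apply_symm_apply, Ideal.quotientKerAlgEquivOfSurjective_mk])
  simp only [χ, AlgHom.comp_apply, AlgEquiv.coe_toAlgHom]
  rw [hsy]
  rfl

end Setup

end FA.RT
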