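import Fermat.Agent.RT.Points
import Fermat.Agent.ModField.Semistable.Mono.RankTwo
import Fermat.Agent.Density.Traces

/-!
# A Galois module with the traces of a carried lift

A finite module with an action of a carried algebra and a commuting Galois action, satisfying the
quadratic relation of the lift at almost all Frobenius elements, doubles the ranks on two copies.
-/

set_option autoImplicit false
set_option linter.unusedSectionVars false

noncomputable section

open IsLocalRing Matrix FA.Deform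

namespace FA.RT

local notation "GQ" => AlgebraicClosure ℚ ≃ₐ[ℚ] AlgebraicClosure ℚ
local notation "M2" => Matrix (Fin 2) (Fin 2)

variable {O : Type} [CommRing O] [IsDomain O] [IsDiscreteValuationRing O]
  [IsAdicComplete (maximalIdeal O) O] {rb : GQ →* M2 (ResidueField O)} {cyc : GQ → O}

/-- A lift of a spanning representation spans. -/
theorem Carried.span_eq_top (C : Carried rb cyc)
    (hspan : Submodule.span (ResidueField O) (Set.range rb) = ⊤) :
    Submodule.span C.R (Set.range C.rR) = ⊤ := by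
  rw [← IsLocalRing.map_mkQ_eq_top, eq_top_iff]
  rintro x -
  obtain ⟨M, rfl⟩ := Submodule.mkQ_surjective _ x
  have hres : ∀ Y : M2 (ResidueField O), ∃ Z ∈ Submodule.span C.R (Set.range C.rR),
      Z.map C.π = Y := by
    intro Y
    have hY : Y ∈ Submodule.span (ResidueField O) (Set.range rb) := hspan ▸ Submodule.mem_top
    induction hY using Submodule.span_induction with
    | mem y hy =>
      obtain ⟨g, rfl⟩ := hy
      exact ⟨C.rR g, Submodule.subset_span ⟨g, rfl⟩, DFunLike.congr_fun C.lift g⟩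
    | zero => exact ⟨0, zero_mem _, Matrix.map_zero _ (map_zero _)⟩
    | add a b _ _ ha hb =>
      obtain ⟨A, hA, rfl⟩ := ha
      obtain ⟨B, hB, rfl⟩ := hb
      exact ⟨A + B, add_mem hA hB, Matrix.map_add _ (map_add _) _ _⟩
    | smul r a _ ha =>
      obtain ⟨A, hA, rfl⟩ := ha
      obtain ⟨r', rfl⟩ := C.π_surjective r
      exact ⟨r' • A, Submodule.smul_mem _ _ hA, Matrix.map_smul' _ _ _ (map_mul _)⟩
  obtain ⟨Z, hZ, hZM⟩ := hres (M.map C.π)
  refine ⟨Z, hZ, (Submodule.Quotient.eq _).2 ?_⟩
  have hker : RingHom.ker C.π = maximalIdeal C.R :=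
    IsLocalRing.eq_maximalIdeal (RingHom.ker_isMaximal_of_surjective _ C.π_surjective)
  have e : Z - M = ∑ i, ∑ l, (Z - M) i l • Matrix.single i l (1 : C.R) := by
    conv_lhs => rw [Matrix.matrix_eq_sum_single (Z - M)]
    simp_rw [Matrix.smul_single, smul_eq_mul, mul_one]
  rw [e]
  refine Submodule.sum_mem _ fun i _ => Submodule.sum_mem _ fun l _ => ?_
  refine Submodule.smul_mem_smul ?_ Submodule.mem_top
  rw [← hker, RingHom.mem_ker, Matrix.sub_apply, map_sub, sub_eq_zero]
  exact congrFun (congrFun hZM i) l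

/-- The reduction of a carried lift to a finite quotient has open kernel. -/
theorem Carried.isOpen_ker_quotient (C : Carried rb cyc) (I : Ideal C.R) [Finite (C.R ⧸ I)] :
    IsOpen ((mapRep (Ideal.Quotient.mk I) C.rR).ker : Set GQ) := by
  obtain ⟨n, hn⟩ := IsLocalRing.exists_maximalIdeal_pow_le_of_isArtinianRing_quotient I
  obtain ⟨L, hL, h⟩ := C.cont n
  refine Subgroup.isOpen_mono (H₁ := L.fixingSubgroup) (fun τ hτ => ?_)
    (IntermediateField.fixingSubgroup_isOpen L)
  rw [MonoidHom.mem_ker]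
  show (Ideal.Quotient.mk I).mapMatrix (C.rR τ) = 1
  rw [← map_one (Ideal.Quotient.mk I).mapMatrix]
  ext i l
  exact Ideal.Quotient.eq.2 (hn (h τ ((IntermediateField.mem_fixingSubgroup_iff L τ).mp hτ) i l))

theorem quad_rec {R : Type*} [Ring R] {P Q A : R} (hPQ : P * Q = 1) (hQP : Q * P = 1)
    (hA : ∀ x, A * x = x * A) (n : ℕ) :
    P ^ (n + 2) + A ^ (n + 2) * Q ^ (n + 2) =
      (P + A * Q) * (P ^ (n + 1) + A ^ (n + 1) * Q ^ (n + 1)) - A * (P ^ n + A ^ n * Q ^ n) := by
  have h1 : A * Q * P ^ (n + 1) = A * P ^ n := by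
    rw [mul_assoc, pow_succ', ← mul_assoc Q, hQP, one_mul]
  have h2 : P * (A ^ (n + 1) * Q ^ (n + 1)) = A ^ (n + 1) * Q ^ n := by
    rw [← mul_assoc, ← (Commute.pow_left (hA P) (n + 1)).eq, mul_assoc, pow_succ' Q, ← mul_assoc P,
      hPQ, one_mul]
  have h3 : A * Q * (A ^ (n + 1) * Q ^ (n + 1)) = A ^ (n + 2) * Q ^ (n + 2) := by
    rw [mul_assoc, ← mul_assoc Q, ← (Commute.pow_left (hA Q) (n + 1)).eq, mul_assoc, ← mul_assoc A,
      ← pow_succ', ← pow_succ']
  rw [add_mul, mul_add, mul_add, h1, h2, h3, mul_add, ← mul_assoc, ← pow_succ', ← pow_succ']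
  abel

variable {k : Type} [Field k] [Finite k] {d : ℕ}

/-- A module with an action of the plane has even dimension. -/
theorem even_of_matrixHom {R : Type} [CommRing R] (D : M2 R →+* Matrix (Fin d) (Fin d) k) :
    Even d := by
  classical
  have hm : ∀ i j l, D (Matrix.single i j 1) * D (Matrix.single j l 1) = D (Matrix.single i l 1) :=
    fun i j l => by rw [← map_mul, Matrix.single_mul_single_same, one_mul]
  have h0 : D (Matrix.single 0 0 1) * D (Matrix.single 1 0 1) = 0 := by
    rw [← map_mul, Matrix.single_mul_single_of_ne _ _ _ _ (by decide), map_zero]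
  have h1 : D (Matrix.single 0 1 1) * D (Matrix.single 0 0 1) = 0 := by
    rw [← map_mul, Matrix.single_mul_single_of_ne _ _ _ _ (by decide), map_zero]
  have hsum : D (Matrix.single 0 0 1) + D (Matrix.single 1 1 1) = 1 := by
    rw [← map_add, show Matrix.single (0 : Fin 2) (0 : Fin 2) (1 : R) + Matrix.single 1 1 1 = 1 from by
      ext i j; fin_cases i <;> fin_cases j <;> simp [Matrix.single], map_one]
  let E := (D (Matrix.single 0 0 1)).mulVecLin
  let W := LinearMap.range E
  have hE : ∀ a ∈ W, D (Matrix.single 0 0 1) *ᵥ a = a := by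
    rintro _ ⟨v, rfl⟩
    show _ *ᵥ (_ *ᵥ v) = _ *ᵥ v
    rw [Matrix.mulVec_mulVec, hm]
  let e : (Fin d → k) ≃ₗ[k] ↥W × ↥W :=
    { toFun := fun v => (⟨_, LinearMap.mem_range_self E v⟩,
        ⟨D (Matrix.single 0 1 1) *ᵥ v, _, show E (D (Matrix.single 0 1 1) *ᵥ v) = _ by
          rw [Matrix.mulVecLin_apply, Matrix.mulVec_mulVec, hm]⟩)
      map_add' := fun u v => Prod.ext (Subtype.ext (map_add E u v))
        (Subtype.ext (Matrix.mulVec_add _ u v))
      map_smul' := fun r v => Prod.ext (Subtype.ext (map_smul E r v))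
        (Subtype.ext (Matrix.mulVec_smul _ r v))
      invFun := fun a => a.1.1 + D (Matrix.single 1 0 1) *ᵥ a.2.1
      left_inv := fun v => by
        show D _ *ᵥ v + D _ *ᵥ (D _ *ᵥ v) = v
        rw [Matrix.mulVec_mulVec, hm, ← Matrix.add_mulVec, hsum, Matrix.one_mulVec]
      right_inv := fun a => Prod.ext
        (Subtype.ext (show D _ *ᵥ (a.1.1 + _) = a.1.1 by
          rw [Matrix.mulVec_add, hE _ a.1.2, Matrix.mulVec_mulVec, h0, Matrix.zero_mulVec,
            add_zero]))
        (Subtype.ext (show D _ *ᵥ (a.1.1 + _) = a.2.1 by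
          rw [Matrix.mulVec_add, Matrix.mulVec_mulVec, hm, hE _ a.2.2, ← hE _ a.1.2,
            Matrix.mulVec_mulVec, h1, Matrix.zero_mulVec, zero_add])) }
  refine ⟨Module.finrank k ↥W, ?_⟩
  have h := e.finrank_eq
  rwa [Module.finrank_fin_fun, Module.finrank_prod] at h

/-- The trace relation at almost all Frobenius elements gives it everywhere. -/
theorem rel_of_frobenius (C : Carried rb cyc)
    (act : C.R →+* Matrix (Fin d) (Fin d) k) (κ : O →+* k)
    (hκ : ∀ o, act (algebraMap O C.R o) = Matrix.scalar (Fin d) (κ o))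
    (π : GQ →* Matrix (Fin d) (Fin d) k) (hπ : IsOpen (π.ker : Set GQ)) (bad : Finset ℕ)
    (hfrob : ∀ ℓ : ℕ, ℓ.Prime → ℓ ∉ bad → ∀ A : ValuationSubring (AlgebraicClosure ℚ),
      A.LiesOverPrime ℓ → ∀ σ : GQ, A.IsFrobeniusAt σ ℓ →
        (∀ g, Commute (act (C.rR σ).trace) (π g)) ∧
        π σ + Matrix.scalar (Fin d) (κ (cyc σ)) * π σ⁻¹ = act (C.rR σ).trace) :
    (∀ r g, Commute (act r) (π g)) ∧
      ∀ g, π g + act (C.rR g).det * π g⁻¹ = act (C.rR g).trace := by
  classical
  set K := RingHom.ker act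
  haveI : Finite (C.R ⧸ K) := Finite.of_injective _ act.kerLift_injective
  let ρK : GQ →* M2 (C.R ⧸ K) := mapRep (Ideal.Quotient.mk K) C.rR
  have hdet : ∀ σ, act (C.rR σ).det = Matrix.scalar (Fin d) (κ (cyc σ)) := fun σ => by
    rw [C.det, hκ]
  let Φ : GQ → Prop := fun σ => (∀ g, Commute (act (C.rR σ).trace) (π g)) ∧
    π σ + act (C.rR σ).det * π σ⁻¹ = act (C.rR σ).trace
  have hall : ∀ σ, Φ σ := by
    refine FA.Density.forall_of_frobenius_pow (π.ker ⊓ ρK.ker)
      (by rw [Subgroup.coe_inf]; exact hπ.inter (C.isOpen_ker_quotient K)) Φ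
      (fun σ n hn hσ => ?_) bad (fun ℓ hℓ hb A hA σ hσ => ?_)
    · have hn1 : π n = 1 := MonoidHom.mem_ker.1 hn.1
      have hn2 : ρK n = 1 := MonoidHom.mem_ker.1 hn.2
      have hρ : ρK (σ * n) = ρK σ := by rw [map_mul, hn2, mul_one]
      have htr : act (C.rR (σ * n)).trace = act (C.rR σ).trace := by
        refine congrArg act.kerLift (?_ : Ideal.Quotient.mk K (C.rR (σ * n)).trace =
          Ideal.Quotient.mk K (C.rR σ).trace)
        rw [AddMonoidHom.map_trace (Ideal.Quotient.mk K), AddMonoidHom.map_trace (Ideal.Quotient.mk K)]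
        exact congrArg Matrix.trace hρ
      have hd : act (C.rR (σ * n)).det = act (C.rR σ).det := by
        refine congrArg act.kerLift (?_ : Ideal.Quotient.mk K (C.rR (σ * n)).det =
          Ideal.Quotient.mk K (C.rR σ).det)
        rw [RingHom.map_det, RingHom.map_det]
        exact congrArg Matrix.det hρ
      have hinv : π (σ * n)⁻¹ = π σ⁻¹ := by
        rw [_root_.mul_inv_rev, map_mul,
          show π n⁻¹ = 1 from MonoidHom.mem_ker.1 (inv_mem hn.1), one_mul]
      refine ⟨fun g => by rw [htr]; exact hσ.1 g, ?_⟩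
      rw [htr, hd, hinv, map_mul, hn1, mul_one]
      exact hσ.2
    · obtain ⟨hcm, hrel⟩ := hfrob ℓ hℓ hb A hA σ hσ
      rw [← hdet] at hrel
      set t := (C.rR σ).trace with ht
      set D := (C.rR σ).det with hD
      set P := π σ with hP
      set Q := π σ⁻¹ with hQ
      have hPQ : P * Q = 1 := by rw [hP, hQ, ← map_mul, mul_inv_cancel, map_one]
      have hQP : Q * P = 1 := by rw [hP, hQ, ← map_mul, inv_mul_cancel, map_one]
      have hDc : ∀ X : Matrix (Fin d) (Fin d) k, act D * X = X * act D := fun X => by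
        rw [hD, hdet]; exact (Matrix.scalar_commute _ (Commute.all _) X).eq
      intro k₀
      induction k₀ using Nat.twoStepInduction with
      | zero =>
        refine ⟨fun g => ?_, ?_⟩
        · rw [pow_zero, map_one, Matrix.trace_one, map_natCast]
          exact Nat.cast_commute _ _
        · simp only [pow_zero, inv_one, map_one, Matrix.det_one, one_mul, Matrix.trace_one,
            Fintype.card_fin, map_natCast]
          norm_num
      | one =>
        refine ⟨fun g => by rw [pow_one]; exact hcm g, ?_⟩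
        rw [pow_one]
        exact hrel
      | more n ih₁ ih₂ =>
        have hrec : (C.rR (σ ^ (n + 2))).trace =
            t * (C.rR (σ ^ (n + 1))).trace - D * (C.rR (σ ^ n)).trace := by
          rw [map_pow, map_pow, map_pow, ht, hD]
          have hsq : C.rR σ * C.rR σ = (C.rR σ).trace • C.rR σ - (C.rR σ).det • (1 : M2 C.R) := by
            ext i j
            fin_cases i <;> fin_cases j <;>
              simp [Matrix.mul_apply, Fin.sum_univ_two, Matrix.trace_fin_two, Matrix.det_fin_two] <;>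
              ring
          have h2 : C.rR σ ^ (n + 2) = C.rR σ ^ n * (C.rR σ * C.rR σ) := by rw [pow_add, pow_two]
          rw [h2, hsq, mul_sub, mul_smul_comm, mul_smul_comm, mul_one, ← pow_succ, Matrix.trace_sub,
            Matrix.trace_smul, Matrix.trace_smul, smul_eq_mul, smul_eq_mul]
        refine ⟨fun g => ?_, ?_⟩
        · rw [hrec, map_sub, map_mul, map_mul]
          exact ((hcm g).mul_left (ih₂.1 g)).sub_left
            ((show Commute (act D) (π g) from hDc _).mul_left (ih₁.1 g))
        · have e1 := ih₂.2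
          have e0 := ih₁.2
          rw [hrec, map_sub, map_mul, map_mul, ← hrel, ← e1, ← e0]
          simp only [← inv_pow, map_pow, Matrix.det_pow, ← hD, ← hP, ← hQ]
          exact quad_rec hPQ hQP hDc n
  have hcomm : ∀ r g, Commute (act r) (π g) := by
    intro r g
    have hr : r ∈ Algebra.adjoin O (Set.range fun σ => (C.rR σ).trace) :=
      C.generated ▸ Algebra.mem_top
    induction hr using Algebra.adjoin_induction with
    | mem y hy => obtain ⟨σ, rfl⟩ := hy; exact (hall σ).1 g
    | algebraMap o => rw [hκ]; exact Matrix.scalar_commute _ (Commute.all _) _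
    | add x y _ _ hx hy => rw [map_add]; exact hx.add_left hy
    | mul x y _ _ hx hy => rw [map_mul]; exact hx.mul_left hy
  exact ⟨hcomm, fun g => (hall g).2⟩

/-- **The rank on two copies.** -/
theorem rank_blockAct_of_frobenius (C : Carried rb cyc)
    (hspan : Submodule.span (ResidueField O) (Set.range rb) = ⊤)
    (act : C.R →+* Matrix (Fin d) (Fin d) k) (κ : O →+* k)
    (hκ : ∀ o, act (algebraMap O C.R o) = Matrix.scalar (Fin d) (κ o))
    (π : GQ →* Matrix (Fin d) (Fin d) k) (hπ : IsOpen (π.ker : Set GQ)) (bad : Finset ℕ)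
    (hfrob : ∀ ℓ : ℕ, ℓ.Prime → ℓ ∉ bad → ∀ A : ValuationSubring (AlgebraicClosure ℚ),
      A.LiesOverPrime ℓ → ∀ σ : GQ, A.IsFrobeniusAt σ ℓ →
        (∀ g, Commute (act (C.rR σ).trace) (π g)) ∧
        π σ + Matrix.scalar (Fin d) (κ (cyc σ)) * π σ⁻¹ = act (C.rR σ).trace)
    (s : GQ) : Even d ∧ (blockAct act (C.rR s - 1)).rank = 2 * (π s - 1).rank := by
  obtain ⟨hcomm, hrel⟩ := rel_of_frobenius C act κ hκ π hπ bad hfrob
  exact ⟨even_of_matrixHom
      (FA.ModField.RankTwo.desc act π hcomm C.rR hrel (C.span_eq_top hspan)),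
    FA.ModField.RankTwo.rank_blockAct act π hcomm C.rR hrel (C.span_eq_top hspan) s⟩

end FA.RT

end
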