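import Fermat.Agent.HeckeH1.MonoPiece
import Fermat.Agent.RT.Tower.MonoRank
import Fermat.Agent.RT.Tower.Lift

/-!
# The rank of inertia on the modules of a base tower

The rank statement on the torsion of `J₀(M q)` gives the hypothesis of the lifting theorems on the
tower of a level set.
-/

set_option autoImplicit false
set_option linter.style.haveILetI false
set_option linter.unusedSectionVars false
set_option synthInstance.maxHeartbeats 200000
set_option maxHeartbeats 800000

noncomputable section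

open IsLocalRing Matrix FA.Deform FA.TW FA.HeckeH1
open scoped TensorProduct

namespace FA.RT

local notation "Qb" => AlgebraicClosure ℚ
local notation "GQ" => AlgebraicClosure ℚ ≃ₐ[ℚ] AlgebraicClosure ℚ
local notation "M2" => Matrix (Fin 2) (Fin 2)

section galois

variable [Algebra Qb ℂ] (N : ℕ) [NeZero N] (p : ℕ) [NeZero p] (k : Type) [Field k]

theorem galK_one : FA.ModField.galK N p k 1 = 1 := by
  refine TensorProduct.AlgebraTensorModule.ext fun c v => ?_
  rw [FA.ModField.galK, LinearMap.baseChange_tmul, map_one]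
  rfl

theorem galK_mul (g h : GQ) :
    FA.ModField.galK N p k (g * h) = FA.ModField.galK N p k g * FA.ModField.galK N p k h := by
  refine TensorProduct.AlgebraTensorModule.ext fun c v => ?_
  simp only [FA.ModField.galK, LinearMap.baseChange_tmul, Module.End.mul_apply, map_mul]
  rfl

theorem galK_comm_heckeK (g : GQ) (t : FA.ModField.HFull N) :
    Commute (FA.ModField.galK N p k g) (FA.ModField.heckeK N p k t) := by
  refine TensorProduct.AlgebraTensorModule.ext fun c v => ?_
  simp only [FA.ModField.galK, FA.ModField.heckeK, LinearMap.baseChange_tmul, Module.End.mul_apply]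
  exact congrArg (fun w => c ⊗ₜ[ℤ] w) ((FA.JTorsion.galMod N (∅ : Set ℕ) p g).map_smul t v)

theorem galK_mem_eigenPart (S : Finset ℕ) (χ : ℕ → k) (g : GQ) {x : FA.ModField.ModK N p k}
    (hx : x ∈ FA.ModField.eigenPart N p k S χ) :
    FA.ModField.galK N p k g x ∈ FA.ModField.eigenPart N p k S χ := by
  simp only [FA.ModField.eigenPart, Submodule.mem_iInf] at hx ⊢
  intro ℓ hℓ hℓN hℓS
  exact Module.End.mapsTo_maxGenEigenspace_of_comm (galK_comm_heckeK N p k g _).symm (χ ℓ)
    (hx ℓ hℓ hℓN hℓS)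

theorem galK_frobenius [Fact p.Prime] {ℓ : ℕ} (hℓ : ℓ.Prime) (hℓN : ¬ ℓ ∣ N) (hℓp : ℓ ≠ p)
    {A : ValuationSubring Qb} (hA : A.LiesOverPrime ℓ) {σ : GQ} (hσ : A.IsFrobeniusAt σ ℓ)
    (x : FA.ModField.ModK N p k) :
    FA.ModField.galK N p k σ x + (ℓ : k) • FA.ModField.galK N p k σ⁻¹ x =
      FA.ModField.heckeK N p k (CuspForm.heckeAlgebra.T (k := 2) hℓ hℓN (Set.notMem_empty ℓ)) x := by
  induction x using TensorProduct.induction_on with
  | zero => simp
  | tmul c v =>
    simp only [FA.ModField.galK, FA.ModField.heckeK, LinearMap.baseChange_tmul]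
    rw [Nat.cast_smul_eq_nsmul, ← TensorProduct.tmul_smul, ← TensorProduct.tmul_add]
    exact congrArg (fun w => c ⊗ₜ[ℤ] w) (FA.JTorsion.galMod_frobenius N (∅ : Set ℕ) p
      (FA.JTorsion.goodRed_all N) hℓ hℓN
      (fun h => hℓp ((Nat.prime_dvd_prime_iff_eq hℓ Fact.out).1 h)) hA (Set.notMem_empty ℓ) hσ v)
  | add x y hx hy =>
    rw [map_add, map_add, map_add, smul_add, ← hx, ← hy]
    abel

theorem finrank_eigenPart_congr {N' : ℕ} [NeZero N'] (h : N = N') (S : Finset ℕ) (χ : ℕ → k) :
    Module.finrank k ↥(FA.ModField.eigenPart N p k S χ) =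
      Module.finrank k ↥(FA.ModField.eigenPart N' p k S χ) := by
  subst h; rfl

theorem finrank_map_galK_congr {N' : ℕ} [NeZero N'] (h : N = N') (S : Finset ℕ) (χ : ℕ → k)
    (g : GQ) :
    Module.finrank k ↥((FA.ModField.eigenPart N p k S χ).map (FA.ModField.galK N p k g - 1)) =
      Module.finrank k ↥((FA.ModField.eigenPart N' p k S χ).map (FA.ModField.galK N' p k g - 1)) := by
  subst h; rfl

end galois

namespace Setup

variable {O : Type} [CommRing O] [IsDomain O] [IsDiscreteValuationRing O]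
  [IsAdicComplete (maximalIdeal O) O] [CharZero O] [Finite (ResidueField O)] [Algebra Qb ℂ]
  {S : Setup O} {Q : Type} [DecidableEq Q] {emb : Q → ↥S.Sig} {bad : Finset ℕ}
  (L : LevelSet (fun x => (emb x).1) bad) (c : Nat.Primes → ResidueField O)
  (hNE : ∀ N : ℕ, N ≠ 0 → ∃ ℓ : Nat.Primes, ¬ (ℓ : ℕ) ∣ N ∧
    ((ℓ : ℕ) : ZMod N) = 1 ∧ c ℓ ≠ ((ℓ : ℕ) : ResidueField O) + 1)
  (hL : ∀ ℓ : Nat.Primes, ℓ ∉ L.S → ¬ (ℓ : ℕ) ∣ L.L0) (hpb : S.p ∈ bad)
  (hcyc : ∀ ℓ : ℕ, ℓ.Prime → ℓ ∉ bad → ∀ P : ValuationSubring Qb, P.LiesOverPrime ℓ →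
    ∀ σ : GQ, P.IsFrobeniusAt σ ℓ → residue O (S.cyc σ) = (ℓ : ResidueField O))

include hL in
theorem not_dvd_lvl_of_notMem (U : Finset Q) (ℓ : Nat.Primes) (hℓ : ℓ ∉ L.S) :
    ¬ (ℓ : ℕ) ∣ L.lvl U := fun h => by
  rcases L.prime_dvd_lvl ℓ.2 h with h | ⟨x, -, e⟩
  · exact hL ℓ hℓ h
  · exact hℓ ((Subtype.ext e : ℓ = ⟨_, L.prime x⟩) ▸ L.mem_S x)

include hNE hL in
/-- The rank of a level is the dimension of the part of the system. -/
theorem finrank_eigenPart (U : Finset Q) [CharP (ResidueField O) S.p] [NeZero S.p] {m : ℕ}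
    (b : Module.Basis (Fin m) O ((L.baseLevels c).M U)) :
    Module.finrank (ResidueField O) ↥(FA.ModField.eigenPart (L.lvl U) S.p (ResidueField O)
      (natSet L.S) (natSys c)) = m := by
  haveI : Fact S.p.Prime := ⟨S.hp⟩
  have h1 := congrArg (fun W : Submodule (ResidueField O) _ => Module.finrank (ResidueField O) W)
    (range_redBasis (L.lvl U) S.p L.S c (not_dvd_lvl_of_notMem L hL U)
      (sysIdem_mem_Par hNE (L.lvl U)) b)
  rw [LinearMap.finrank_range_of_inj (redBasis_injective _ _ _ b), Module.finrank_fin_fun] at h1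
  exact ((Submodule.equivMapOfInjective _ (torsFun_injective _ _ _) _).finrank_eq).trans h1.symm

include hNE hL hpb hcyc in
/-- **The parts have even dimension; the rank on two copies is twice the rank on the torsion.** -/
theorem rank_blockAct_level
    (hspan : Submodule.span (ResidueField O) (Set.range S.rb) = ⊤) (C₀ : Carried S.rb S.cyc)
    (U : Finset Q) (f : C₀.R →ₐ[O] (L.baseLevels c).A U)
    (hf : ∀ ℓ : ℕ, ℓ.Prime → ℓ ∉ bad → ∀ P : ValuationSubring Qb, P.LiesOverPrime ℓ →
      ∀ σ : GQ, P.IsFrobeniusAt σ ℓ → f (C₀.rR σ).trace = (L.baseLevels c).T U ℓ)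
    [CharP (ResidueField O) S.p] [NeZero S.p] {m : ℕ}
    (b : Module.Basis (Fin m) O ((L.baseLevels c).M U)) (s : GQ) :
    Even m ∧ ((blockAct ((basisAct (L.baseLevels c) U b).comp f).toRingHom
        (C₀.rR s - 1)).map (residue O)).rank =
      2 * Module.finrank (ResidueField O) ↥((FA.ModField.eigenPart (L.lvl U) S.p (ResidueField O)
        (natSet L.S) (natSys c)).map (FA.ModField.galK (L.lvl U) S.p (ResidueField O) s - 1)) := by
  classical
  haveI : Fact S.p.Prime := ⟨S.hp⟩
  let k := ResidueField O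
  let N := L.lvl U
  let W := FA.ModField.eigenPart N S.p k (natSet L.S) (natSys c)
  have hrange := range_redBasis N S.p L.S c (not_dvd_lvl_of_notMem L hL U)
    (sysIdem_mem_Par hNE N) b
  -- coordinates on the part of the system
  have hex : ∀ i, ∃ x ∈ W, torsFun N S.p k x = redBasis N L.S c b (Pi.single i 1) := fun i => by
    have h : redBasis N L.S c b (Pi.single i 1) ∈ LinearMap.range (redBasis N L.S c b) :=
      LinearMap.mem_range_self _ _
    rw [hrange] at h
    exact h
  choose xs hxs hxs' using hex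
  let ψ : (Fin m → k) →ₗ[k] FA.ModField.ModK N S.p k := Fintype.linearCombination k xs
  have hψ : ∀ v, torsFun N S.p k (ψ v) = redBasis N L.S c b v := by
    intro v
    conv_rhs => rw [pi_eq_sum_univ' v, map_sum]
    simp only [ψ, Fintype.linearCombination_apply, map_sum, map_smul, hxs']
  have hψinj : Function.Injective ψ := fun u v h =>
    redBasis_injective N L.S c b (by rw [← hψ, ← hψ, h])
  have hψrange : LinearMap.range ψ = W := by
    apply Submodule.map_injective_of_injective (torsFun_injective N S.p k)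
    rw [← hrange, ← LinearMap.range_comp]
    exact congrArg LinearMap.range (LinearMap.ext hψ)
  have hinv : ∀ g v, FA.ModField.galK N S.p k g (ψ v) ∈ LinearMap.range ψ := fun g v => by
    rw [hψrange]
    refine galK_mem_eigenPart N S.p k _ _ g (?_ : ψ v ∈ W)
    rw [← hψrange]
    exact LinearMap.mem_range_self ψ v
  choose g₀ hg₀ using hinv
  let G : GQ → Module.End k (Fin m → k) := fun g =>
    { toFun := g₀ g
      map_add' := fun u v => hψinj (by simp only [map_add, hg₀])
      map_smul' := fun r v => hψinj (by simp only [map_smul, RingHom.id_apply, hg₀]) }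
  have hG : ∀ g v, ψ (G g v) = FA.ModField.galK N S.p k g (ψ v) := hg₀
  let π : GQ →* Matrix (Fin m) (Fin m) k :=
    { toFun := fun g => LinearMap.toMatrix' (G g)
      map_one' := by
        rw [← LinearMap.toMatrix'_one]
        exact congrArg _ (LinearMap.ext fun v => hψinj (by rw [hG, galK_one]; rfl))
      map_mul' := fun g h => by
        rw [← LinearMap.toMatrix'_mul]
        exact congrArg _ (LinearMap.ext fun v => hψinj (by
          rw [hG, galK_mul, Module.End.mul_apply, Module.End.mul_apply, hG, hG])) }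
  have hπv : ∀ g v, ψ (π g *ᵥ v) = FA.ModField.galK N S.p k g (ψ v) := fun g v => by
    rw [← hG]
    exact congrArg ψ (LinearMap.toMatrix'_mulVec _ _)
  have hπ : IsOpen (π.ker : Set GQ) := by
    obtain ⟨F, hF, h⟩ := FA.JTorsion.exists_field_galMod N (∅ : Set ℕ) S.p
    refine Subgroup.isOpen_mono (H₁ := F.fixingSubgroup) (fun τ hτ => MonoidHom.mem_ker.2 ?_)
      (IntermediateField.fixingSubgroup_isOpen F)
    refine Matrix.ext_of_mulVec_single fun i => hψinj ?_
    rw [hπv, Matrix.one_mulVec, FA.ModField.galK,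
      h τ ((IntermediateField.mem_fixingSubgroup_iff F τ).mp hτ)]
    exact LinearMap.congr_fun (LinearMap.baseChange_id (R := ℤ) (A := k)) _
  let act : C₀.R →+* Matrix (Fin m) (Fin m) k :=
    (residue O).mapMatrix.comp ((basisAct (L.baseLevels c) U b).comp f).toRingHom
  -- the reduced action of the algebra
  have hact : ∀ (a : C₀.R) (i : Fin m),
      redBasis N L.S c b (act a *ᵥ Pi.single i 1) =
        redHom ((L.frame c U).emb ((L.baseLevels c).act U (f a) (b i))) := by
    intro a i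
    refine (congrArg (redBasis N L.S c b) (funext fun j => ?_)).trans
      (redBasis_residue N L.S c b ((L.baseLevels c).act U (f a) (b i)))
    rw [Matrix.mulVec_single_one, Matrix.col_apply]
    show residue O (LinearMap.toMatrixAlgEquiv b ((L.baseLevels c).act U (f a)) j i) = _
    rw [LinearMap.toMatrixAlgEquiv_apply]
    rfl
  have hκ : ∀ o, act (algebraMap O C₀.R o) = Matrix.scalar (Fin m) (residue O o) := fun o => by
    show (residue O).mapMatrix (((basisAct (L.baseLevels c) U b).comp f) (algebraMap O C₀.R o)) = _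
    rw [AlgHom.commutes, Matrix.algebraMap_eq_diagonal, RingHom.mapMatrix_apply,
      Matrix.diagonal_map (map_zero _)]
    rfl
  have hfrob : ∀ ℓ : ℕ, ℓ.Prime → ℓ ∉ bad → ∀ A : ValuationSubring Qb, A.LiesOverPrime ℓ →
      ∀ σ : GQ, A.IsFrobeniusAt σ ℓ → (∀ g, Commute (act (C₀.rR σ).trace) (π g)) ∧
        π σ + Matrix.scalar (Fin m) (residue O (S.cyc σ)) * π σ⁻¹ = act (C₀.rR σ).trace := by
    intro ℓ hℓ hb A hA σ hσ
    haveI : Fact ℓ.Prime := ⟨hℓ⟩
    have hℓN : ¬ ℓ ∣ N := L.not_dvd_of_not_bad hℓ hb U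
    have hT : ∀ v, ψ (act (C₀.rR σ).trace *ᵥ v) = FA.ModField.heckeK N S.p k
        (CuspForm.heckeAlgebra.T (k := 2) hℓ hℓN (Set.notMem_empty ℓ)) (ψ v) := by
      intro v
      refine LinearMap.congr_fun (f := ψ.comp (Matrix.mulVecLin (act (C₀.rR σ).trace)))
        (g := (FA.ModField.heckeK N S.p k (CuspForm.heckeAlgebra.T (k := 2) hℓ hℓN
          (Set.notMem_empty ℓ))).comp ψ)
        ((Pi.basisFun k (Fin m)).ext fun i => torsFun_injective N S.p k ?_) v
      rw [Pi.basisFun_apply, LinearMap.comp_apply, LinearMap.comp_apply, Matrix.mulVecLin_apply,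
        hψ, hact, torsFun_heckeK N S.p k hℓN, hψ, hf ℓ hℓ hb A hA σ hσ]
      have hbi : redBasis N L.S c b (Pi.single i 1) = redHom ((L.frame c U).emb (b i)) := by
        rw [redBasis, Fintype.linearCombination_apply_single, one_smul]
        rfl
      rw [hbi, ← redHom_act]
      refine congrArg redHom ?_
      show (L.frame c U).emb (L.actB c U (L.TB c U ℓ) (b i)) = _
      rw [L.actB_TB c U hℓN (L.core_of_not_bad hb), Frame.emb_coord]
      have h1 := L.goodOp_frame_e c U (goodTp (L.lvl U) ⊤ O ⟨ℓ, hℓ, hℓN⟩) ((L.frame c U).emb (b i))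
      rw [Frame.e_emb, goodOp_goodTp] at h1
      exact h1.symm
    refine ⟨fun g => Matrix.ext_of_mulVec_single fun i => hψinj ?_,
      Matrix.ext_of_mulVec_single fun i => hψinj ?_⟩
    · rw [← Matrix.mulVec_mulVec, ← Matrix.mulVec_mulVec, hT, hπv, hπv, hT]
      exact LinearMap.congr_fun (galK_comm_heckeK N S.p k g _).symm.eq _
    · rw [Matrix.add_mulVec, map_add, hπv, hT, ← galK_frobenius N S.p k hℓ hℓN
        (fun e => hb (e ▸ hpb)) hA hσ, hcyc ℓ hℓ hb A hA σ hσ, Matrix.scalar_apply,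
        ← Matrix.smul_eq_diagonal_mul, Matrix.smul_mulVec, map_smul, hπv]
  have hrank := rank_blockAct_of_frobenius C₀ hspan act (residue O) hκ π hπ bad hfrob s
  have hblk : (blockAct ((basisAct (L.baseLevels c) U b).comp f).toRingHom (C₀.rR s - 1)).map
      (residue O) = blockAct act (C₀.rR s - 1) :=
    Matrix.ext fun ⟨i, u⟩ ⟨j, v⟩ => rfl
  refine ⟨hrank.1, ?_⟩
  rw [hblk, hrank.2]
  congr 1
  have hcomp : (FA.ModField.galK N S.p k s - 1) ∘ₗ ψ = ψ ∘ₗ (π s - 1).mulVecLin :=
    LinearMap.ext fun v => by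
      rw [LinearMap.comp_apply, LinearMap.comp_apply, Matrix.mulVecLin_apply, Matrix.sub_mulVec,
        Matrix.one_mulVec, map_sub, hπv]
      rfl
  have hmap : (LinearMap.range (π s - 1).mulVecLin).map ψ =
      W.map (FA.ModField.galK N S.p k s - 1) := by
    rw [← LinearMap.range_comp, ← hcomp, LinearMap.range_comp, hψrange]
  exact ((Submodule.equivMapOfInjective ψ hψinj _).finrank_eq).trans
    (LinearEquiv.ofEq _ _ hmap).finrank_eq

include hNE hL hpb hcyc in
/-- **The hypothesis of the lifting theorems from the rank on the torsion.** -/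
theorem monoTower_of_monoAt
    {AtP : ∀ (B : Type) [CommRing B] [IsLocalRing B] [Algebra O B], (GQ →* M2 B) → Prop}
    (sep : ∀ U, S.Separation emb (L.baseLevels c) U (S.BaseAllowed AtP))
    (hspan : Submodule.span (ResidueField O) (Set.range S.rb) = ⊤)
    (hwid : ∀ (U : Finset Q) (x : Q), x ∈ U →
      FA.ModField.GoodWidths (L.lvl (U.erase x)) (emb x).1 S.p)
    (hmono : ∀ (M q : ℕ) [NeZero M] [NeZero (M * q)] [NeZero S.p] (A : ValuationSubring Qb) (s : GQ),
      FA.ModField.MonoAt M q S.p (ResidueField O) A s (natSet L.S) (natSys c)) :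
    Setup.MonoTower (L.baseTower S c hNE sep) := by
  classical
  intro C₀ U x hx f hf m b
  have hp : S.p.Prime := S.hp
  haveI : Fact S.p.Prime := ⟨hp⟩
  haveI : NeZero S.p := ⟨hp.ne_zero⟩
  haveI : CharP (ResidueField O) S.p := (CharP.charP_iff_prime_eq_zero hp).mpr (by
    rw [← map_natCast (residue O), residue_eq_zero_iff]; exact S.hpO)
  let q := (emb x).1
  let M := L.lvl (U.erase x)
  have hlvl : L.lvl U = M * q := L.lvl_erase hx
  haveI : NeZero (M * q) := ⟨hlvl ▸ NeZero.ne _⟩
  obtain ⟨hq, hqp⟩ := S.prime_Sig q (emb x).2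
  have hqM : ¬ q ∣ M := L.qn_not_dvd (Finset.notMem_erase x U)
  have hins : insert q (natSet L.S) = natSet L.S :=
    Finset.insert_eq_of_mem ((mem_natSet L.S (ℓ := ⟨q, hq⟩)).2 (L.mem_S x))
  have hne : ∃ ℓ, ℓ.Prime ∧ ¬ ℓ ∣ M * q ∧ ℓ ∉ natSet L.S ∧
      natSys c ℓ ≠ ((ℓ + 1 : ℕ) : ResidueField O) := by
    obtain ⟨ℓ, hℓN, -, hℓc⟩ := hNE (M * q * ∏ r ∈ L.S, (r : ℕ))
      (mul_ne_zero (NeZero.ne _) (Finset.prod_ne_zero_iff.2 fun r _ => r.2.ne_zero))
    refine ⟨ℓ, ℓ.2, fun h => hℓN (h.mul_right _), fun h => hℓN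
      ((Finset.dvd_prod_of_mem _ ((mem_natSet L.S).1 h)).mul_left _), ?_⟩
    rw [show natSys c (ℓ : ℕ) = c ℓ from dif_pos ℓ.2, Nat.cast_add, Nat.cast_one]
    exact hℓc
  obtain ⟨heven, h1⟩ := rank_blockAct_level L c hNE hL hpb hcyc hspan C₀ U f hf b
    (S.tame (emb x))
  have h2 := finrank_eigenPart L c hNE hL U b
  have hM := hmono M q (S.P.place q) (S.tame (emb x)) hq hp hqp hqM (S.P.liesOver q hq)
    ⟨S.tame_mem (emb x), fun X _ g => S.tame_gen (emb x) X g⟩ (hwid U x hx) ‹_› ‹_› hne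
    (by rwa [← finrank_eigenPart_congr (L.lvl U) S.p _ hlvl, h2])
  have h3 := finrank_eigenPart L c hNE hL (U.erase x)
    (Module.finBasis O ((L.baseLevels c).M (U.erase x)))
  rw [hins, ← finrank_map_galK_congr (L.lvl U) S.p _ hlvl,
    ← finrank_eigenPart_congr (L.lvl U) S.p _ hlvl, h2, h3] at hM
  show _ + 2 * Module.finrank O ((L.baseLevels c).M (U.erase x)) = m
  exact (congrArg (· + _) h1).trans hM

end Setup

end FA.RT

end
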