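import Fermat.Agent.RT.Tower.Defs
import Fermat.Agent.RT.UnionSetup

/-!
# Towers with the old part at `p`

For levels divisible by `p`: the modules of the levels without `p`, two copies of which form the old
part of each level (flat lifts), and the algebra acting on the quotient by the old part (strictly
ordinary lifts). All conditions are module theoretic.
-/

set_option autoImplicit false

noncomputable section

open IsLocalRing Matrix FA.Deform FA.TW FA.LocalDef

namespace FA.RT

local notation "Qb" => AlgebraicClosure ℚ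
local notation "GQ" => AlgebraicClosure ℚ ≃ₐ[ℚ] AlgebraicClosure ℚ
local notation "M2" => Matrix (Fin 2) (Fin 2)

/-- The old parts at `p` of the levels, and the algebras on the quotients by them. -/
structure PLevels {O Λ : Type} [CommRing O] [CommRing Λ] [Algebra O Λ] {Q : Type} [DecidableEq Q]
    {qn : Q → ℕ} {bad : Finset ℕ} (H : HeckeLevels O Λ Q qn bad) where
  /-- the module of a level without `p` -/
  MF : Finset Q → Type
  [addCommGroupF : ∀ U, AddCommGroup (MF U)]
  [moduleOF : ∀ U, Module O (MF U)]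
  [moduleΛF : ∀ U, Module Λ (MF U)]
  [towerF : ∀ U, IsScalarTower O Λ (MF U)]
  [freeF : ∀ U, Module.Free Λ (MF U)]
  [finiteF : ∀ U, Module.Finite Λ (MF U)]
  /-- its Hecke algebra -/
  AF : Finset Q → Type
  [commRingF : ∀ U, CommRing (AF U)]
  [algebraF : ∀ U, Algebra O (AF U)]
  /-- its action -/
  actF : ∀ U, AF U →ₐ[O] Module.End Λ (MF U)
  /-- its Hecke elements -/
  TF : ∀ U, ℕ → AF U
  /-- the two degeneracy maps at `p` -/
  upP : ∀ U, (MF U × MF U) →ₗ[Λ] H.M U
  upP_comm : ∀ U (ℓ : ℕ), ℓ.Prime → ℓ ∉ bad → ∀ a b,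
    upP U (actF U (TF U ℓ) a, actF U (TF U ℓ) b) = H.act U (H.T U ℓ) (upP U (a, b))
  /-- the algebra of the quotient by the old part -/
  AS : Finset Q → Type
  [commRingS : ∀ U, CommRing (AS U)]
  [algebraS : ∀ U, Algebra O (AS U)]
  /-- its action -/
  actS : ∀ U, AS U →ₐ[O] Module.End Λ (H.M U ⧸ LinearMap.range (upP U))
  /-- its Hecke elements -/
  TS : ∀ U, ℕ → AS U
  actS_mk : ∀ U (ℓ : ℕ), ℓ.Prime → ℓ ∉ bad → ∀ z,
    actS U (TS U ℓ) (Submodule.Quotient.mk z) = Submodule.Quotient.mk (H.act U (H.T U ℓ) z)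

attribute [instance] PLevels.addCommGroupF PLevels.moduleOF PLevels.moduleΛF PLevels.towerF
  PLevels.freeF PLevels.finiteF PLevels.commRingF PLevels.algebraF PLevels.commRingS
  PLevels.algebraS

namespace Setup

variable {O : Type} [CommRing O] [IsDomain O] [IsDiscreteValuationRing O]
  [IsAdicComplete (maximalIdeal O) O] (S : Setup O)

/-- Lifts separating an algebra with Hecke elements. -/
structure PartSep {A : Type} [CommRing A] [Algebra O A] (T : ℕ → A) (bad : Finset ℕ)
    (Good : ∀ (B : Type) [CommRing B] [IsLocalRing B] [Algebra O B], (GQ →* M2 B) → Prop) where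
  /-- the lifts -/
  pts : PointSet S.rb S.cyc
  /-- the values -/
  ev : A →ₐ[O] ∀ j, pts.B j
  ev_injective : Function.Injective ev
  good : ∀ j, Good (pts.B j) (pts.r j)
  ev_T : ∀ ℓ : ℕ, ℓ.Prime → ℓ ∉ bad → ∀ P : ValuationSubring Qb, P.LiesOverPrime ℓ →
    ∀ σ : GQ, P.IsFrobeniusAt σ ℓ → ∀ j, ev (T ℓ) j = (pts.r j σ).trace

variable {S} {Q : Type} [DecidableEq Q] {emb : Q → ↥S.Sig} {bad : Finset ℕ}
  {AtP : ∀ (B : Type) [CommRing B] [IsLocalRing B] [Algebra O B], (GQ →* M2 B) → Prop}

/-- The old and new parts at `p` at the base. -/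
structure PBase (base : BaseTower S Q emb bad AtP)
    (GoodF GoodS : ∀ (B : Type) [CommRing B] [IsLocalRing B] [Algebra O B], (GQ →* M2 B) → Prop)
    extends PLevels base.toHeckeLevels where
  actS_injective : ∀ U, Function.Injective (actS U)
  /-- the lifts separating the old part -/
  sepF : ∀ U, S.PartSep (TF U) bad fun B _ _ _ m => S.BaseAllowed AtP B m ∧ GoodF B m
  /-- the lifts separating the new part -/
  sepS : ∀ U, S.PartSep (TS U) bad fun B _ _ _ m => S.BaseAllowed AtP B m ∧ GoodS B m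
  upP_residual : ∀ U z, upP U z ∈ maximalIdeal O • (⊤ : Submodule O (base.M U)) →
    z ∈ maximalIdeal O • (⊤ : Submodule O (MF U × MF U))

/-- The relation between the diamonds and the lifts at the Taylor–Wiles primes. -/
def DiaRel {r n : ℕ} (D : S.TWSet r n) (ab : Fin r → ResidueField O) (P : PointSet S.rb S.cyc)
    (val : Fin r → ∀ j, P.B j) : Prop :=
  ∀ i (j : P.J), ∃ a : P.B j, P.ε j a = ab i ∧
    a * a - (P.r j (D.φ i)).trace * a + (P.r j (D.φ i)).det = 0 ∧
    (2 * a - (P.r j (D.φ i)).trace) * val i j =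
      (P.r j (D.φ i) * P.r j (D.s i)).trace -
        ((P.r j (D.φ i)).trace - a) * (P.r j (D.s i)).trace

variable {base : BaseTower S Q emb bad AtP}
  {GoodF GoodS : ∀ (B : Type) [CommRing B] [IsLocalRing B] [Algebra O B], (GQ →* M2 B) → Prop}

/-- The old and new parts at `p` at one set of Taylor–Wiles primes. -/
structure PDepth (pb : PBase base GoodF GoodS) {r n : ℕ} {D : S.TWSet r n}
    {ab : Fin r → ResidueField O} (dep : DepthTower base D ab) where
  /-- the parts -/
  plevels : haveI : NeZero S.p := ⟨S.hp.ne_zero⟩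
    PLevels dep.levels
  /-- the diamond elements of the old part -/
  diaF : haveI : NeZero S.p := ⟨S.hp.ne_zero⟩
    ∀ U, DGroup S.p D.expo →* plevels.AF U
  act_diaF : haveI : NeZero S.p := ⟨S.hp.ne_zero⟩
    ∀ U g (z : plevels.MF U),
      plevels.actF U (diaF U g) z = (MonoidAlgebra.single g 1 : MonoidAlgebra O _) • z
  /-- the diamond elements of the new part -/
  diaS : haveI : NeZero S.p := ⟨S.hp.ne_zero⟩
    ∀ U, DGroup S.p D.expo →* plevels.AS U
  act_diaS : haveI : NeZero S.p := ⟨S.hp.ne_zero⟩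
    ∀ U g (z : dep.levels.M U ⧸ LinearMap.range (plevels.upP U)),
      plevels.actS U (diaS U g) z = (MonoidAlgebra.single g 1 : MonoidAlgebra O _) • z
  /-- the lifts separating the old part -/
  sepF : haveI : NeZero S.p := ⟨S.hp.ne_zero⟩
    ∀ U, S.PartSep (plevels.TF U) (bad ∪ Finset.univ.image D.qv)
      fun B _ _ _ m => D.Allowed AtP B m ∧ GoodF B m
  /-- the lifts separating the new part -/
  sepS : haveI : NeZero S.p := ⟨S.hp.ne_zero⟩
    ∀ U, S.PartSep (plevels.TS U) (bad ∪ Finset.univ.image D.qv)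
      fun B _ _ _ m => D.Allowed AtP B m ∧ GoodS B m
  ev_diaF : haveI : NeZero S.p := ⟨S.hp.ne_zero⟩
    ∀ U, DiaRel D ab (sepF U).pts fun i => (sepF U).ev (diaF U (dGen S.p D.expo i))
  ev_diaS : haveI : NeZero S.p := ⟨S.hp.ne_zero⟩
    ∀ U, DiaRel D ab (sepS U).pts fun i => (sepS U).ev (diaS U (dGen S.p D.expo i))
  /-- the reduction of the old part to the base -/
  redF : ∀ U, plevels.MF U →+ pb.MF U
  redF_smul : haveI : NeZero S.p := ⟨S.hp.ne_zero⟩
    ∀ U (c : MonoidAlgebra O (DGroup S.p D.expo)) (z : plevels.MF U),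
      redF U (c • z) = MonoidAlgebra.lift O O (DGroup S.p D.expo) 1 c • redF U z
  redF_surjective : ∀ U, Function.Surjective (redF U)
  rankF_eq : haveI : NeZero S.p := ⟨S.hp.ne_zero⟩
    ∀ U, Module.finrank (MonoidAlgebra O (DGroup S.p D.expo)) (plevels.MF U) =
      Module.finrank O (pb.MF U)
  redF_T : ∀ U (ℓ : ℕ), ℓ.Prime → ℓ ∉ bad ∪ Finset.univ.image D.qv → ∀ z,
    redF U (plevels.actF U (plevels.TF U ℓ) z) = pb.actF U (pb.TF U ℓ) (redF U z)
  red_upP : ∀ U a b,
    dep.red U (plevels.upP U (a, b)) = pb.upP U (redF U a, redF U b)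

/-- The local conditions of the two kinds of lifts at `p`, with the entries seeing their classes. -/
structure UnionLocal (S : Setup O)
    (GoodF GoodS : ∀ (B : Type) [CommRing B] [IsLocalRing B] [Algebra O B], (GQ →* M2 B) → Prop) where
  /-- the classes of the first kind -/
  CF : (GQ → M2 (ResidueField O)) → Prop
  /-- the classes of the second kind -/
  CS : (GQ → M2 (ResidueField O)) → Prop
  /-- the entries of the first kind -/
  iF : Fin 4 → Fin S.m
  /-- the entries of the second kind -/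
  iS : Fin 4 → Fin S.m
  /-- the entries of the common classes -/
  iB : Fin 3 → Fin S.m
  zeroF : CF 0
  sF : ∀ c, IsLocalCocycle (S.P.place S.p) S.rb c → CF c → S.Seen iF c
  sS : ∀ c, IsLocalCocycle (S.P.place S.p) S.rb c → CS c → S.Seen iS c
  sB : ∀ c, IsLocalCocycle (S.P.place S.p) S.rb c → CF c → CS c → S.Seen iB c
  restrictF : ∀ (C : Carried S.rb S.cyc) (P : PointSet S.rb S.cyc) (M : P.Model),
    (∀ j, GoodF (P.B j) (P.r j)) → ∀ π : C.R →ₐ[O] M.R, Function.Surjective π →
      (∀ σ, π (C.rR σ).trace = (M.rR σ).trace) → ∀ t : ↥(tangent C.π O),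
        (∀ z ∈ RingHom.ker π, t.1 z = 0) → CF (tgVal C.rR S.rb t)
  restrictS : ∀ (C : Carried S.rb S.cyc) (P : PointSet S.rb S.cyc) (M : P.Model),
    (∀ j, GoodS (P.B j) (P.r j)) → ∀ π : C.R →ₐ[O] M.R, Function.Surjective π →
      (∀ σ, π (C.rR σ).trace = (M.rR σ).trace) → ∀ t : ↥(tangent C.π O),
        (∀ z ∈ RingHom.ker π, t.1 z = 0) → CS (tgVal C.rR S.rb t)

end Setup

end FA.RT
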