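import Fermat.Agent.RT.Tower.Blocks
import Fermat.Agent.RT.FlatPoint

/-!
# The base of a tower: adapted bases, lifts, the carried algebra
-/

set_option autoImplicit false
set_option linter.unusedSectionVars false

noncomputable section

open IsLocalRing Matrix FA.Deform FA.TW FA.LocalDef

namespace FA.RT

local notation "Qb" => AlgebraicClosure ℚ
local notation "GQ" => AlgebraicClosure ℚ ≃ₐ[ℚ] AlgebraicClosure ℚ
local notation "M2" => Matrix (Fin 2) (Fin 2)

variable {O : Type} [CommRing O] [IsDomain O] [IsDiscreteValuationRing O]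
  [IsAdicComplete (maximalIdeal O) O]

/-- A finite disjoint union of families of lifts. -/
def PointSet.sigma {rb : GQ →* M2 (ResidueField O)} {cyc : GQ → O} {ι : Type} [Finite ι]
    (f : ι → PointSet rb cyc) : PointSet rb cyc where
  J := Σ i, (f i).J
  B x := (f x.1).B x.2
  r x := (f x.1).r x.2
  ε x := (f x.1).ε x.2
  ε_algebraMap x := (f x.1).ε_algebraMap x.2
  lift x := (f x.1).lift x.2
  cont x := (f x.1).cont x.2
  det x := (f x.1).det x.2

namespace Setup

variable {S : Setup O} {Q : Type} [DecidableEq Q] {emb : Q → ↥S.Sig} {bad : Finset ℕ}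
  {AtP : ∀ (B : Type) [CommRing B] [IsLocalRing B] [Algebra O B], (GQ →* M2 B) → Prop}
  (base : BaseTower S Q emb bad AtP)

/-- The rank of a level. -/
abbrev BaseTower.rk (U : Finset Q) : ℕ := Module.finrank O (base.M U)

theorem BaseTower.two_mul_rk_le (U : {U : Finset Q // U.Nonempty}) :
    2 * base.rk (oldU U) ≤ base.rk U.1 :=
  (exists_adapted_basis (base.up U.1 (pick U)) (base.up_residual U.1 (pick U) (pick_mem U))
    (Module.finBasisOfFinrankEq O (base.M (oldU U)) rfl)).1

/-- **Adapted bases at the base.** -/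
theorem BaseTower.exists_basis :
    ∃ b : ∀ U, Module.Basis (Fin (base.rk U)) O (base.M U),
      IsAdapted base.toHeckeLevels base.two_mul_rk_le b := by
  obtain ⟨b, hb⟩ := exists_erase_rec
    (β := fun U => Module.Basis (Fin (base.rk U)) O (base.M U))
    (fun U hU prev x => ∀ u,
      x (tsplit base.rk base.two_mul_rk_le ⟨U, hU⟩ (.inl (.inl u))) =
          base.up U hU.choose (prev u, 0) ∧
        x (tsplit base.rk base.two_mul_rk_le ⟨U, hU⟩ (.inl (.inr u))) =
          base.up U hU.choose (0, prev u))
    ⟨Module.finBasisOfFinrankEq O (base.M ∅) rfl⟩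
    (fun U hU prev => (exists_adapted_basis (base.up U hU.choose)
      (base.up_residual U _ hU.choose_spec) prev).2 _)
  exact ⟨b, fun U u => hb U.1 U.2 u⟩

variable {r n : ℕ} {D : S.TWSet r n} {ab : Fin r → ResidueField O} (dep : DepthTower base D ab)

/-- **Adapted bases at one depth, over the bases of the base.** -/
theorem DepthTower.exists_basis {b : ∀ U, Module.Basis (Fin (base.rk U)) O (base.M U)}
    (hb : IsAdapted base.toHeckeLevels base.two_mul_rk_le b) :
    haveI : NeZero S.p := ⟨S.hp.ne_zero⟩
    ∃ c : ∀ U, Module.Basis (Fin (base.rk U)) (MonoidAlgebra O (DGroup S.p D.expo)) (dep.levels.M U),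
      IsAdapted dep.levels base.two_mul_rk_le c ∧ ∀ U i, dep.red U (c U i) = b U i := by
  have : NeZero S.p := ⟨S.hp.ne_zero⟩
  have : Fact S.p.Prime := ⟨S.hp⟩
  have hG : IsPGroup S.p (DGroup S.p D.expo) := by
    refine IsPGroup.of_card (n := ∑ i, D.expo i) ?_
    rw [Nat.card_pi, ← Finset.prod_pow_eq_pow_sum]
    exact Finset.prod_congr rfl fun i _ => by
      rw [← Nat.card_congr Multiplicative.ofAdd, Nat.card_zmod]
  have hex : ∀ U (v : Fin (base.rk U) → dep.levels.M U), (∀ i, dep.red U (v i) = b U i) →
      ∃ c : Module.Basis (Fin (base.rk U)) (MonoidAlgebra O (DGroup S.p D.expo)) (dep.levels.M U),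
        ∀ i, c i = v i := fun U v hv =>
    exists_basis_of_aug S.hp S.hpO hG (dep.red U) (dep.red_smul U) (dep.rank_eq U) (b U) v hv
  obtain ⟨c, hc⟩ := exists_erase_rec
    (β := fun U => {c : Module.Basis (Fin (base.rk U)) (MonoidAlgebra O (DGroup S.p D.expo))
      (dep.levels.M U) // ∀ i, dep.red U (c i) = b U i})
    (fun U hU prev x => ∀ u,
      x.1 (tsplit base.rk base.two_mul_rk_le ⟨U, hU⟩ (.inl (.inl u))) =
          dep.levels.up U hU.choose (prev.1 u, 0) ∧
        x.1 (tsplit base.rk base.two_mul_rk_le ⟨U, hU⟩ (.inl (.inr u))) =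
          dep.levels.up U hU.choose (0, prev.1 u))
    (by
      obtain ⟨c, hc⟩ := hex ∅ (fun i => Function.surjInv (dep.red_surjective ∅) (b ∅ i))
        fun i => Function.surjInv_eq _ _
      exact ⟨⟨c, fun i => by rw [hc]; exact Function.surjInv_eq _ _⟩⟩)
    (fun U hU prev => by
      let e := tsplit base.rk base.two_mul_rk_le ⟨U, hU⟩
      let v : Fin (base.rk U) → dep.levels.M U := fun i => match e.symm i with
        | .inl (.inl u) => dep.levels.up U hU.choose (prev.1 u, 0)
        | .inl (.inr u) => dep.levels.up U hU.choose (0, prev.1 u)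
        | .inr _ => Function.surjInv (dep.red_surjective U) (b U i)
      have hv : ∀ i, dep.red U (v i) = b U i := fun i => by
        obtain ⟨x, rfl⟩ := e.surjective i
        simp only [v, Equiv.symm_apply_apply]
        rcases x with (u | u) | w
        · refine (dep.red_up U _ hU.choose_spec _ _).trans ?_
          refine Eq.trans ?_ ((hb ⟨U, hU⟩ u).1).symm
          exact congrArg (base.up U hU.choose) (Prod.ext (prev.2 u) (map_zero _))
        · refine (dep.red_up U _ hU.choose_spec _ _).trans ?_
          refine Eq.trans ?_ ((hb ⟨U, hU⟩ u).2).symm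
          exact congrArg (base.up U hU.choose) (Prod.ext (map_zero _) (prev.2 u))
        · exact Function.surjInv_eq _ _
      obtain ⟨c, hc⟩ := hex U v hv
      refine ⟨⟨c, fun i => (hc i).symm ▸ hv i⟩, fun u => ⟨?_, ?_⟩⟩ <;>
        simp only [hc, v, e, Equiv.symm_apply_apply])
  exact ⟨fun U => (c U).1, fun U u => hc U.1 U.2 u, fun U i => (c U).2 i⟩

end Setup

omit [IsAdicComplete (maximalIdeal O) O] in
/-- Where a lift is trivial, so is the carried representation through a homomorphism with the same
traces. -/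
theorem Carried.map_eq_one {rb : GQ →* M2 (ResidueField O)} {cyc : GQ → O} (C : Carried rb cyc)
    (hspan : Submodule.span (ResidueField O) (Set.range rb) = ⊤) {B : Type} [CommRing B]
    [IsLocalRing B] [Algebra O B] [Module.Finite O B] (ε : B →+* ResidueField O)
    (hε : ∀ c, ε (algebraMap O B c) = residue O c) (r : GQ →* M2 B) (hr : mapRep ε r = rb)
    (f : C.R →ₐ[O] B) (htr : ∀ σ, f (C.rR σ).trace = (r σ).trace) {σ : GQ} (hσ : r σ = 1) :
    (C.rR σ).map f = 1 := by
  obtain ⟨P, hP, hPc⟩ := FA.Density.exists_conj_of_trace_eq r (mapRep f.toRingHom C.rR)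
    (span_eq_top_of_lift ε hε hspan hr) fun g => by
      rw [← htr g, AddMonoidHom.map_trace f]
      rfl
  have h := hPc σ
  rw [hσ, mul_one] at h
  exact ((Matrix.isUnit_iff_isUnit_det P).mpr hP).mul_eq_right.mp h

end FA.RT
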