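import Fermat.Agent.RT.Tower.Levels

/-!
# The carried algebra of the base of a tower
-/

set_option autoImplicit false
set_option linter.unusedSectionVars false

noncomputable section

open IsLocalRing Matrix FA.Deform FA.TW FA.LocalDef

namespace FA.RT

local notation "Qb" => AlgebraicClosure ℚ
local notation "GQ" => AlgebraicClosure ℚ ≃ₐ[ℚ] AlgebraicClosure ℚ
local notation "M2" => Matrix (Fin 2) (Fin 2)

namespace Setup

variable {O : Type} [CommRing O] [IsDomain O] [IsDiscreteValuationRing O]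
  [IsAdicComplete (maximalIdeal O) O]
  {S : Setup O} {Q : Type} [DecidableEq Q] [Fintype Q] {emb : Q → ↥S.Sig} {bad : Finset ℕ}
  {AtP : ∀ (B : Type) [CommRing B] [IsLocalRing B] [Algebra O B], (GQ →* M2 B) → Prop}
  (base : BaseTower S Q emb bad AtP) (Extra : PointSet S.rb S.cyc)

/-- The lifts at the base: given ones and those of all levels. -/
def BaseTower.points : PointSet S.rb S.cyc :=
  PointSet.sigma fun o : Option (Finset Q) => o.elim Extra fun U => (base.sep U).pts

theorem BaseTower.allowed_points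
    (hE : ∀ j, S.BaseAllowed AtP (Extra.B j) (Extra.r j)) (j : (base.points Extra).J) :
    S.BaseAllowed AtP ((base.points Extra).B j) ((base.points Extra).r j) := by
  obtain ⟨o, j⟩ := j
  cases o with
  | none => exact hE j
  | some U => exact (base.sep U).good j

/-- The carried algebra of the base acts through every level. -/
structure BaseSide [Finite (ResidueField O)] where
  /-- the model -/
  M₀ : (base.points Extra).Model
  /-- the maps to the levels -/
  f₀ : ∀ U, M₀.R →ₐ[O] base.A U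
  ev_f₀ : ∀ U σ j, (base.sep U).ev (f₀ U (M₀.rR σ).trace) j = ((base.sep U).pts.r j σ).trace
  /-- the maps to the given lifts -/
  pe : ∀ j : Extra.J, M₀.R →ₐ[O] Extra.B j
  pe_trace : ∀ j σ, pe j (M₀.rR σ).trace = (Extra.r j σ).trace
  /-- adapted bases -/
  b : ∀ U, Module.Basis (Fin (base.rk U)) O (base.M U)
  hb : IsAdapted base.toHeckeLevels base.two_mul_rk_le b

variable [Finite (ResidueField O)]

theorem nonempty_baseSide [Nonempty Extra.J] (F : Frame O) (hF : F.Adapted S.rb) (hup : ∃ σ, S.rb σ 0 1 ≠ 0) :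
    Nonempty (BaseSide base Extra) := by
  have : Nonempty (base.points Extra).J := ⟨⟨none, Classical.arbitrary Extra.J⟩⟩
  obtain ⟨M₀⟩ := (base.points Extra).nonempty_model F hF hup
  obtain ⟨b, hb⟩ := base.exists_basis
  choose f hf using fun U => M₀.exists_hom_sub
    (fun j => (⟨some U, j⟩ : (base.points Extra).J)) (base.sep U).ev (base.sep U).ev_injective bad
    fun q hq hqb P hP σ hσ => ⟨base.T U q, (base.sep U).ev_T q hq (Or.inl hqb) P hP σ hσ⟩
  exact ⟨{
    M₀ := M₀
    f₀ := f
    ev_f₀ := fun U σ j => (hf U _ j).trans (M₀.proj_trace ⟨some U, j⟩ σ)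
    pe := fun j => M₀.proj ⟨none, j⟩
    pe_trace := fun j σ => M₀.proj_trace _ σ
    b := b
    hb := hb }⟩

variable {base Extra} (B : BaseSide base Extra)

/-- The values at Frobenius elements. -/
theorem BaseSide.f₀_frob (U : Finset Q) {ℓ : ℕ} (hℓ : ℓ.Prime)
    (hℓb : ℓ ∉ bad ∨ ∃ x, x ∉ U ∧ ℓ = (emb x).1) {P : ValuationSubring Qb}
    (hP : P.LiesOverPrime ℓ) {σ : GQ} (hσ : P.IsFrobeniusAt σ ℓ) :
    B.f₀ U (B.M₀.rR σ).trace = base.T U ℓ :=
  (base.sep U).ev_injective (funext fun j => by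
    rw [B.ev_f₀, (base.sep U).ev_T ℓ hℓ hℓb P hP σ hσ j])

theorem BaseSide.f₀_mem (U : {U : Finset Q // U.Nonempty}) (x : B.M₀.R) :
    B.f₀ U.1 x ∈ newAlg base.toHeckeLevels base.two_mul_rk_le B.b U := by
  have hN : (newAlg base.toHeckeLevels base.two_mul_rk_le B.b U).comap (B.f₀ U.1) = ⊤ :=
    B.M₀.eq_top_of_frobenius _ bad fun q hq hqb P hP σ hσ k => by
      rw [map_pow]
      refine trace_pow_mem _ _ ?_ ?_ k
      · show B.f₀ U.1 (B.M₀.rR σ).trace ∈ newAlg base.toHeckeLevels base.two_mul_rk_le B.b U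
        rw [B.f₀_frob U.1 hq (Or.inl hqb) hP hσ]
        exact T_mem_newAlg base.toHeckeLevels base.two_mul_rk_le B.b B.hb U hq hqb
      · rw [B.M₀.det]; exact Subalgebra.algebraMap_mem _ _
  exact (hN ▸ Algebra.mem_top : x ∈ Subalgebra.comap _ _)

/-- The actions at the base. -/
def BaseSide.act₀ : ∀ i : TIdx Q,
    B.M₀.R →ₐ[O] Matrix (Fin (tdim base.rk i)) (Fin (tdim base.rk i)) O
  | .inl U => (levAct base.toHeckeLevels B.b U).comp (B.f₀ U)
  | .inr (U, false) => (dblAct base.toHeckeLevels B.b U).comp (B.f₀ (oldU U))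
  | .inr (U, true) => (newAct base.toHeckeLevels base.two_mul_rk_le B.b U).comp
      ((B.f₀ U.1).codRestrict _ (B.f₀_mem U))

end Setup

end FA.RT
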