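import Fermat.Agent.RT.Tower.Defs
import Fermat.Agent.RT.Tower.Algebra
import Mathlib.LinearAlgebra.Matrix.ToLin

/-!
# Matrices of a tower in adapted bases

Every non empty level is read against the level without a chosen prime: two copies of it and a new
part.
-/

set_option autoImplicit false
set_option linter.unusedSectionVars false

noncomputable section

open IsLocalRing Matrix

namespace FA.RT

variable {Q : Type} [DecidableEq Q]

/-- The prime removed at a non empty level. -/
def pick (U : {U : Finset Q // U.Nonempty}) : Q := U.2.choose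

/-- The level without it. -/
abbrev oldU (U : {U : Finset Q // U.Nonempty}) : Finset Q := U.1.erase (pick U)

theorem pick_mem (U : {U : Finset Q // U.Nonempty}) : pick U ∈ U.1 := U.2.choose_spec

/-- The indices: the levels, their doubled old levels and their new parts. -/
abbrev TIdx (Q : Type) : Type := Finset Q ⊕ ({U : Finset Q // U.Nonempty} × Bool)

variable (d : Finset Q → ℕ)

/-- The dimensions. -/
def tdim : TIdx Q → ℕ
  | .inl U => d U
  | .inr (U, false) => d (oldU U) + d (oldU U)
  | .inr (U, true) => d U.1 - 2 * d (oldU U)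

/-- The sources of the maps: `true` is down. -/
def tsrc : {U : Finset Q // U.Nonempty} × Bool → TIdx Q
  | (U, true) => .inl U.1
  | (U, false) => .inr (U, false)

/-- The targets of the maps. -/
def ttgt : {U : Finset Q // U.Nonempty} × Bool → TIdx Q
  | (U, true) => .inr (U, false)
  | (U, false) => .inl U.1

/-- The new dimension. -/
abbrev dnew (U : {U : Finset Q // U.Nonempty}) : ℕ := d U.1 - 2 * d (oldU U)

/-- Two copies and the new part. -/
def tsplit (hd : ∀ U : {U : Finset Q // U.Nonempty}, 2 * d (oldU U) ≤ d U.1)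
    (U : {U : Finset Q // U.Nonempty}) :
    (Fin (d (oldU U)) ⊕ Fin (d (oldU U))) ⊕ Fin (dnew d U) ≃ Fin (d U.1) :=
  ((finSumFinEquiv.sumCongr (Equiv.refl _)).trans finSumFinEquiv).trans
    (finCongr (by have := hd U; simp only [dnew]; omega))

variable {d} {O Λ : Type} [CommRing O] [CommRing Λ] [Algebra O Λ] {qn : Q → ℕ} {bad : Finset ℕ}
  (H : HeckeLevels O Λ Q qn bad) (hd : ∀ U : {U : Finset Q // U.Nonempty}, 2 * d (oldU U) ≤ d U.1)

/-- Bases adapted to the chosen degeneracy maps. -/
def IsAdapted (b : ∀ U, Module.Basis (Fin (d U)) Λ (H.M U)) : Prop :=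
  ∀ (U : {U : Finset Q // U.Nonempty}) (u : Fin (d (oldU U))),
    b U.1 (tsplit d hd U (.inl (.inl u))) = H.up U.1 (pick U) (b (oldU U) u, 0) ∧
      b U.1 (tsplit d hd U (.inl (.inr u))) = H.up U.1 (pick U) (0, b (oldU U) u)

variable (b : ∀ U, Module.Basis (Fin (d U)) Λ (H.M U))

/-- The basis of the doubled level. -/
def dblBasis (U : {U : Finset Q // U.Nonempty}) :
    Module.Basis (Fin (d (oldU U) + d (oldU U))) Λ (H.M (oldU U) × H.M (oldU U)) :=
  ((b (oldU U)).prod (b (oldU U))).reindex finSumFinEquiv

/-- The matrices of an algebra element at a level. -/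
def levAct (U : Finset Q) : H.A U →ₐ[O] Matrix (Fin (d U)) (Fin (d U)) Λ :=
  ((LinearMap.toMatrixAlgEquiv (b U)).toAlgHom.restrictScalars O).comp (H.act U)

theorem levAct_apply (U : Finset Q) (z : H.A U) (i j : Fin (d U)) :
    levAct H b U z i j = (b U).repr (H.act U z (b U j)) i :=
  LinearMap.toMatrixAlgEquiv_apply (b U) (H.act U z) i j

/-- The matrices on the doubled old level. -/
def dblAct (U : {U : Finset Q // U.Nonempty}) :
    H.A (oldU U) →ₐ[O] Matrix (Fin (d (oldU U) + d (oldU U))) (Fin (d (oldU U) + d (oldU U))) Λ :=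
  let e : Fin (d (oldU U)) ⊕ Fin (d (oldU U)) ≃ Fin (d (oldU U) + d (oldU U)) := finSumFinEquiv
  { toFun := fun z => (Matrix.fromBlocks (levAct H b _ z) 0 0 (levAct H b _ z)).submatrix e.symm e.symm
    map_one' := by rw [map_one, Matrix.fromBlocks_one, Matrix.submatrix_one_equiv]
    map_mul' := fun x y => by
      rw [map_mul, ← Matrix.submatrix_mul _ _ _ e.symm _ e.symm.bijective, Matrix.fromBlocks_multiply]
      simp
    map_zero' := by rw [map_zero, Matrix.fromBlocks_zero, Matrix.submatrix_zero]; rfl
    map_add' := fun x y => by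
      refine Matrix.ext fun i j => ?_
      rw [map_add]
      simp only [Matrix.submatrix_apply, Matrix.add_apply]
      rcases e.symm i with i | i <;> rcases e.symm j with j | j <;> simp
    commutes' := fun c => by
      refine Matrix.ext fun i j => ?_
      simp only [AlgHom.commutes, Matrix.submatrix_apply, Matrix.algebraMap_matrix_apply]
      obtain ⟨i', rfl⟩ := e.surjective i
      obtain ⟨j', rfl⟩ := e.surjective j
      rcases i' with i' | i' <;> rcases j' with j' | j' <;>
        simp [Matrix.algebraMap_matrix_apply, e.apply_eq_iff_eq] }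

theorem dblAct_apply (U : {U : Finset Q // U.Nonempty}) (z : H.A (oldU U))
    (u v : Fin (d (oldU U)) ⊕ Fin (d (oldU U))) :
    dblAct H b U z (finSumFinEquiv u) (finSumFinEquiv v) =
      Matrix.fromBlocks (levAct H b _ z) 0 0 (levAct H b _ z) u v := by
  show ((Matrix.fromBlocks _ _ _ _).submatrix _ _) _ _ = _
  rw [Matrix.submatrix_apply, Equiv.symm_apply_apply, Equiv.symm_apply_apply]

theorem dblAct_eq (U : {U : Finset Q // U.Nonempty}) (z : H.A (oldU U)) :
    dblAct H b U z = LinearMap.toMatrix (dblBasis H b U) (dblBasis H b U)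
      ((H.act _ z).prodMap (H.act _ z)) := by
  refine Matrix.ext fun i j => ?_
  obtain ⟨u, rfl⟩ := finSumFinEquiv.surjective i
  obtain ⟨v, rfl⟩ := finSumFinEquiv.surjective j
  rw [dblAct_apply, LinearMap.toMatrix_apply, dblBasis, Module.Basis.repr_reindex_apply,
    Module.Basis.reindex_apply, Equiv.symm_apply_apply, Equiv.symm_apply_apply]
  rcases u with u | u <;> rcases v with v | v <;> simp [levAct_apply]

/-- The algebra of the new part: the elements preserving the old copies. -/
def newAlg (U : {U : Finset Q // U.Nonempty}) : Subalgebra O (H.A U.1) where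
  carrier := {z | ∀ w u, levAct H b U.1 z (tsplit d hd U (.inr w)) (tsplit d hd U (.inl u)) = 0}
  mul_mem' := fun {x y} hx hy w u => by
    rw [map_mul, Matrix.mul_apply, ← (tsplit d hd U).sum_comp, Fintype.sum_sum_type]
    exact (add_eq_zero_iff_eq_neg.mpr (by
      rw [Finset.sum_eq_zero fun v _ => by rw [hx, zero_mul],
        Finset.sum_eq_zero fun v _ => by rw [hy, mul_zero], neg_zero]))
  add_mem' := fun {x y} hx hy w u => by rw [map_add, Matrix.add_apply, hx, hy, add_zero]
  algebraMap_mem' := fun c w u => by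
    rw [AlgHom.commutes, Matrix.algebraMap_matrix_apply, if_neg]
    simp

/-- The matrices on the new part. -/
def newAct (U : {U : Finset Q // U.Nonempty}) :
    newAlg H hd b U →ₐ[O] Matrix (Fin (dnew d U)) (Fin (dnew d U)) Λ :=
  { toFun := fun z => (levAct H b U.1 z.1).submatrix (fun w => tsplit d hd U (.inr w))
      fun w => tsplit d hd U (.inr w)
    map_one' := by
      refine Matrix.ext fun i j => ?_
      simp [Matrix.one_apply, (tsplit d hd U).apply_eq_iff_eq]
    map_mul' := fun x y => by
      refine Matrix.ext fun i j => ?_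
      rw [Matrix.mul_apply, Matrix.submatrix_apply, MulMemClass.coe_mul, map_mul, Matrix.mul_apply,
        ← (tsplit d hd U).sum_comp, Fintype.sum_sum_type,
        Finset.sum_eq_zero fun v _ => by rw [x.2, zero_mul], zero_add]
      rfl
    map_zero' := by refine Matrix.ext fun i j => ?_; simp
    map_add' := fun x y => by refine Matrix.ext fun i j => ?_; simp
    commutes' := fun c => by
      refine Matrix.ext fun i j => ?_
      simp [Matrix.algebraMap_matrix_apply, (tsplit d hd U).apply_eq_iff_eq] }

/-- The matrices of the degeneracy maps. -/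
def tmaps : ∀ t, Matrix (Fin (tdim d (ttgt t))) (Fin (tdim d (tsrc t))) Λ
  | (U, true) => LinearMap.toMatrix (b U.1) (dblBasis H b U) (H.down U.1 (pick U))
  | (U, false) => LinearMap.toMatrix (dblBasis H b U) (b U.1) (H.up U.1 (pick U))

theorem dblBasis_inl (U : {U : Finset Q // U.Nonempty}) (u : Fin (d (oldU U))) :
    dblBasis H b U (finSumFinEquiv (Sum.inl u)) = (b (oldU U) u, 0) := by
  rw [dblBasis, Module.Basis.reindex_apply, Equiv.symm_apply_apply]
  exact Prod.ext (Module.Basis.prod_apply_inl_fst _ _ u) (Module.Basis.prod_apply_inl_snd _ _ u)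

theorem dblBasis_inr (U : {U : Finset Q // U.Nonempty}) (u : Fin (d (oldU U))) :
    dblBasis H b U (finSumFinEquiv (Sum.inr u)) = (0, b (oldU U) u) := by
  rw [dblBasis, Module.Basis.reindex_apply, Equiv.symm_apply_apply]
  exact Prod.ext (Module.Basis.prod_apply_inr_fst _ _ u) (Module.Basis.prod_apply_inr_snd _ _ u)

variable (hb : IsAdapted H hd b)

include hb in
theorem upMat_apply (U : {U : Finset Q // U.Nonempty}) (i : Fin (d U.1))
    (v : Fin (d (oldU U)) ⊕ Fin (d (oldU U))) :
    LinearMap.toMatrix (dblBasis H b U) (b U.1) (H.up U.1 (pick U)) i (finSumFinEquiv v) =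
      if i = tsplit d hd U (.inl v) then 1 else 0 := by
  rw [LinearMap.toMatrix_apply]
  have h : H.up U.1 (pick U) (dblBasis H b U (finSumFinEquiv v)) = b U.1 (tsplit d hd U (.inl v)) := by
    rcases v with v | v
    · rw [dblBasis_inl, (hb U v).1]
    · rw [dblBasis_inr, (hb U v).2]
  rw [h, Module.Basis.repr_self, Finsupp.single_apply]
  simp only [eq_comm]

include hb in
/-- Commuting with the push forward gives the blocks. -/
theorem blocks_of_comm (U : {U : Finset Q // U.Nonempty})
    {X : Matrix (Fin (d U.1)) (Fin (d U.1)) Λ}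
    {Y : Matrix (Fin (d (oldU U) + d (oldU U))) (Fin (d (oldU U) + d (oldU U))) Λ}
    (h : LinearMap.toMatrix (dblBasis H b U) (b U.1) (H.up U.1 (pick U)) * Y =
      X * LinearMap.toMatrix (dblBasis H b U) (b U.1) (H.up U.1 (pick U)))
    (x : (Fin (d (oldU U)) ⊕ Fin (d (oldU U))) ⊕ Fin (dnew d U))
    (v : Fin (d (oldU U)) ⊕ Fin (d (oldU U))) :
    X (tsplit d hd U x) (tsplit d hd U (.inl v)) = Sum.elim
      (fun u => Y (finSumFinEquiv u) (finSumFinEquiv v)) (fun _ => 0) x := by
  have h1 := congrFun (congrFun h (tsplit d hd U x)) (finSumFinEquiv v)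
  simp only [Matrix.mul_apply] at h1
  rw [← finSumFinEquiv.sum_comp, Finset.sum_congr rfl fun u _ => by
    rw [upMat_apply H hd b hb]] at h1
  rw [Fintype.sum_eq_single (tsplit d hd U (.inl v)) fun i hi => by
    rw [upMat_apply H hd b hb, if_neg hi, mul_zero], upMat_apply H hd b hb, if_pos rfl,
    mul_one] at h1
  rw [← h1]
  rcases x with u | w
  · rw [Finset.sum_eq_single u (fun u' _ hne => by
      rw [if_neg fun e => hne (by simpa using ((tsplit d hd U).injective e).symm), zero_mul])
      (by simp), if_pos rfl, one_mul]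
    rfl
  · refine Finset.sum_eq_zero fun u _ => ?_
    rw [if_neg (by simp), zero_mul]

include hb in
/-- The composite of the degeneracy maps in the bases. -/
theorem downMat_apply (U : {U : Finset Q // U.Nonempty})
    (u v : Fin (d (oldU U)) ⊕ Fin (d (oldU U))) :
    LinearMap.toMatrix (b U.1) (dblBasis H b U) (H.down U.1 (pick U)) (finSumFinEquiv u)
      (tsplit d hd U (.inl v)) = Matrix.fromBlocks
        (levAct H b _ ((qn (pick U) + 1 : ℕ) : H.A (oldU U)))
        (levAct H b _ (H.T (oldU U) (qn (pick U))))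
        (levAct H b _ (H.T (oldU U) (qn (pick U))))
        (levAct H b _ ((qn (pick U) + 1 : ℕ) : H.A (oldU U))) u v := by
  have hnat : ∀ z, H.act (oldU U) ((qn (pick U) + 1 : ℕ) : H.A (oldU U)) z =
      (qn (pick U) + 1 : ℕ) • z := fun z => by
    rw [map_natCast, Module.End.natCast_apply]
  have hpr : ∀ (s : Fin (d (oldU U)) ⊕ Fin (d (oldU U))) (p : H.M (oldU U) × H.M (oldU U)),
      (dblBasis H b U).repr p (finSumFinEquiv s) =
        Sum.elim (fun i => (b (oldU U)).repr p.1 i) (fun i => (b (oldU U)).repr p.2 i) s := by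
    intro s p
    rw [dblBasis, Module.Basis.repr_reindex_apply, Equiv.symm_apply_apply]
    rcases s with s | s <;> simp
  rw [LinearMap.toMatrix_apply, hpr]
  rcases v with v | v
  · rw [(hb U v).1]
    rw [H.down_up U.1 (pick U) (pick_mem U)]
    rcases u with u | u <;>
      simp [levAct_apply, oldU, Matrix.natCast_apply, Finsupp.single_apply, Matrix.one_apply, eq_comm]
  · rw [(hb U v).2]
    rw [H.down_up U.1 (pick U) (pick_mem U)]
    rcases u with u | u <;>
      simp [levAct_apply, oldU, Matrix.natCast_apply, Finsupp.single_apply, Matrix.one_apply, eq_comm]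

end FA.RT
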