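import Fermat.Agent.RT.InputBuild
import Fermat.Agent.RT.PatchedMazur

/-!
# Towers of Hecke modules

The input of the lifting theorem from the Hecke side. The levels are indexed by finite sets `U` of
the primes which may be removed from the level: one base tower over `O`, and for every set of
Taylor–Wiles primes a tower over the diamond group ring reducing to it. All conditions are
module theoretic; the bases are chosen by the consumer.
-/

set_option autoImplicit false

noncomputable section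

open IsLocalRing Matrix FA.Deform FA.TW FA.LocalDef

namespace FA.RT

local notation "Qb" => AlgebraicClosure ℚ
local notation "GQ" => AlgebraicClosure ℚ ≃ₐ[ℚ] AlgebraicClosure ℚ
local notation "M2" => Matrix (Fin 2) (Fin 2)

/-- Hecke modules over `Λ` for the levels `U`, with degeneracy maps removing one prime. -/
structure HeckeLevels (O Λ : Type) [CommRing O] [CommRing Λ] [Algebra O Λ] (Q : Type)
    [DecidableEq Q] (qn : Q → ℕ) (bad : Finset ℕ) where
  /-- the module of a level -/
  M : Finset Q → Type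
  [addCommGroup : ∀ U, AddCommGroup (M U)]
  [moduleO : ∀ U, Module O (M U)]
  [moduleΛ : ∀ U, Module Λ (M U)]
  [tower : ∀ U, IsScalarTower O Λ (M U)]
  [free : ∀ U, Module.Free Λ (M U)]
  [finite : ∀ U, Module.Finite Λ (M U)]
  /-- the Hecke algebra of a level -/
  A : Finset Q → Type
  [commRing : ∀ U, CommRing (A U)]
  [algebra : ∀ U, Algebra O (A U)]
  /-- its action -/
  act : ∀ U, A U →ₐ[O] Module.End Λ (M U)
  /-- the Hecke elements -/
  T : ∀ U, ℕ → A U
  /-- the two degeneracy maps from the level without `x` -/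
  up : ∀ U x, (M (U.erase x) × M (U.erase x)) →ₗ[Λ] M U
  /-- their transposes -/
  down : ∀ U x, M U →ₗ[Λ] (M (U.erase x) × M (U.erase x))
  up_comm : ∀ U x, x ∈ U → ∀ ℓ : ℕ, ℓ.Prime → ℓ ∉ bad → ∀ a b,
    up U x (act (U.erase x) (T (U.erase x) ℓ) a, act (U.erase x) (T (U.erase x) ℓ) b) =
      act U (T U ℓ) (up U x (a, b))
  down_comm : ∀ U x, x ∈ U → ∀ ℓ : ℕ, ℓ.Prime → ℓ ∉ bad → ∀ z,
    down U x (act U (T U ℓ) z) = (act (U.erase x) (T (U.erase x) ℓ) (down U x z).1,
      act (U.erase x) (T (U.erase x) ℓ) (down U x z).2)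
  down_up : ∀ U x, x ∈ U → ∀ a b, down U x (up U x (a, b)) =
    ((qn x + 1 : ℕ) • a + act (U.erase x) (T (U.erase x) (qn x)) b,
      act (U.erase x) (T (U.erase x) (qn x)) a + (qn x + 1 : ℕ) • b)

attribute [instance] HeckeLevels.addCommGroup HeckeLevels.moduleO HeckeLevels.moduleΛ
  HeckeLevels.tower HeckeLevels.free HeckeLevels.finite HeckeLevels.commRing HeckeLevels.algebra

namespace Setup

variable {O : Type} [CommRing O] [IsDomain O] [IsDiscreteValuationRing O]
  [IsAdicComplete (maximalIdeal O) O] (S : Setup O)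

/-- Lifts separating the algebra of one level. -/
structure Separation {Λ : Type} [CommRing Λ] [Algebra O Λ] {Q : Type} [DecidableEq Q]
    (emb : Q → ↥S.Sig) {bad : Finset ℕ} (H : HeckeLevels O Λ Q (fun x => (emb x).1) bad)
    (U : Finset Q)
    (Good : ∀ (B : Type) [CommRing B] [IsLocalRing B] [Algebra O B], (GQ →* M2 B) → Prop) where
  /-- the lifts -/
  pts : PointSet S.rb S.cyc
  /-- the values -/
  ev : H.A U →ₐ[O] ∀ j, pts.B j
  ev_injective : Function.Injective ev
  good : ∀ j, Good (pts.B j) (pts.r j)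
  ev_T : ∀ ℓ : ℕ, ℓ.Prime → (ℓ ∉ bad ∨ ∃ x, x ∉ U ∧ ℓ = (emb x).1) →
    ∀ P : ValuationSubring Qb, P.LiesOverPrime ℓ → ∀ σ : GQ, P.IsFrobeniusAt σ ℓ →
      ∀ j, ev (H.T U ℓ) j = (pts.r j σ).trace
  tame_old : ∀ x, x ∉ U → ∀ j, pts.r j (S.tame (emb x)) = 1

variable (Q : Type) [DecidableEq Q] (emb : Q → ↥S.Sig) (bad : Finset ℕ)
  (AtP : ∀ (B : Type) [CommRing B] [IsLocalRing B] [Algebra O B], (GQ →* M2 B) → Prop)

/-- Lifts without Taylor–Wiles primes. -/
def BaseAllowed (B : Type) [CommRing B] [IsLocalRing B] [Algebra O B] (m : GQ →* M2 B) : Prop :=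
  (∀ q : ℕ, q.Prime → q ∉ S.T → ∀ A : ValuationSubring Qb, A.LiesOverPrime q →
    ∀ σ ∈ A.inertiaSubgroupIn ℚ, m σ = 1) ∧
  (∀ q : ↥S.Sig, (m (S.tame q)).trace = 2) ∧ AtP B m

/-- The tower at the base. -/
structure BaseTower extends HeckeLevels O O Q (fun x => (emb x).1) bad where
  act_injective : ∀ U, Function.Injective (act U)
  /-- the separating lifts -/
  sep : ∀ U, S.Separation emb toHeckeLevels U (S.BaseAllowed AtP)
  up_residual : ∀ U x, x ∈ U → ∀ z, up U x z ∈ maximalIdeal O • (⊤ : Submodule O (M U)) →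
    z ∈ maximalIdeal O • (⊤ : Submodule O (M (U.erase x) × M (U.erase x)))
  down_residual : ∀ U x, x ∈ U → ∀ z, ∃ w,
    down U x w - z ∈ maximalIdeal O • (⊤ : Submodule O (M (U.erase x) × M (U.erase x)))

variable {S Q emb bad AtP}

/-- The tower at one set of Taylor–Wiles primes. -/
structure DepthTower (base : BaseTower S Q emb bad AtP) {r n : ℕ} (D : S.TWSet r n)
    (ab : Fin r → ResidueField O) where
  /-- the levels -/
  levels : haveI : NeZero S.p := ⟨S.hp.ne_zero⟩
    HeckeLevels O (MonoidAlgebra O (DGroup S.p D.expo)) Q (fun x => (emb x).1)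
      (bad ∪ Finset.univ.image D.qv)
  /-- the diamond elements -/
  dia : haveI : NeZero S.p := ⟨S.hp.ne_zero⟩
    ∀ U, DGroup S.p D.expo →* levels.A U
  act_dia : haveI : NeZero S.p := ⟨S.hp.ne_zero⟩
    ∀ U g (z : levels.M U),
      levels.act U (dia U g) z = (MonoidAlgebra.single g 1 : MonoidAlgebra O _) • z
  /-- the separating lifts -/
  sep : haveI : NeZero S.p := ⟨S.hp.ne_zero⟩
    ∀ U, S.Separation emb levels U (D.Allowed AtP)
  ev_dia : haveI : NeZero S.p := ⟨S.hp.ne_zero⟩
    ∀ U (i : Fin r) (j : (sep U).pts.J), ∃ a : (sep U).pts.B j, (sep U).pts.ε j a = ab i ∧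
      a * a - ((sep U).pts.r j (D.φ i)).trace * a + ((sep U).pts.r j (D.φ i)).det = 0 ∧
      (2 * a - ((sep U).pts.r j (D.φ i)).trace) * (sep U).ev (dia U (dGen S.p D.expo i)) j =
        ((sep U).pts.r j (D.φ i) * (sep U).pts.r j (D.s i)).trace -
          (((sep U).pts.r j (D.φ i)).trace - a) * ((sep U).pts.r j (D.s i)).trace
  /-- the reduction to the base -/
  red : ∀ U, levels.M U →+ base.M U
  red_smul : haveI : NeZero S.p := ⟨S.hp.ne_zero⟩
    ∀ U (c : MonoidAlgebra O (DGroup S.p D.expo)) (z : levels.M U),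
      red U (c • z) = MonoidAlgebra.lift O O (DGroup S.p D.expo) 1 c • red U z
  red_surjective : ∀ U, Function.Surjective (red U)
  rank_eq : haveI : NeZero S.p := ⟨S.hp.ne_zero⟩
    ∀ U, Module.finrank (MonoidAlgebra O (DGroup S.p D.expo)) (levels.M U) =
      Module.finrank O (base.M U)
  red_T : ∀ U (ℓ : ℕ), ℓ.Prime → ℓ ∉ bad ∪ Finset.univ.image D.qv → ∀ z,
    red U (levels.act U (levels.T U ℓ) z) = base.act U (base.T U ℓ) (red U z)
  red_up : ∀ U x, x ∈ U → ∀ a b,
    red U (levels.up U x (a, b)) = base.up U x (red (U.erase x) a, red (U.erase x) b)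
  red_down : ∀ U x, x ∈ U → ∀ z, base.down U x (red U z) =
    (red (U.erase x) (levels.down U x z).1, red (U.erase x) (levels.down U x z).2)

end Setup

end FA.RT
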