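import Fermat.Agent.RT.Tower.BaseSide
import Fermat.Agent.RT.Step

/-!
# The inputs of the patching system from a tower
-/

set_option autoImplicit false
set_option linter.unusedSectionVars false

noncomputable section

open IsLocalRing Matrix FA.Deform FA.TW FA.LocalDef FA.Patch

namespace FA.RT

local notation "Qb" => AlgebraicClosure ℚ
local notation "GQ" => AlgebraicClosure ℚ ≃ₐ[ℚ] AlgebraicClosure ℚ
local notation "M2" => Matrix (Fin 2) (Fin 2)

namespace Setup

variable {O : Type} [CommRing O] [IsDomain O] [IsDiscreteValuationRing O]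
  [IsAdicComplete (maximalIdeal O) O] [Finite (ResidueField O)]
  {S : Setup O} {Q : Type} [DecidableEq Q] [Fintype Q] {emb : Q → ↥S.Sig} {bad : Finset ℕ}
  {AtP : ∀ (B : Type) [CommRing B] [IsLocalRing B] [Algebra O B], (GQ →* M2 B) → Prop}
  {base : BaseTower S Q emb bad AtP} {Extra : PointSet S.rb S.cyc} (B : BaseSide base Extra)
  {r n : ℕ}

/-- The facts about the step at `U` at one depth. -/
structure StepFacts (I : S.LevelInput B.M₀.toCarried (tdim base.rk) tsrc ttgt B.act₀ r n)
    (U : {U : Finset Q // U.Nonempty}) : Prop where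
  h₁₁ : ∀ z u u',
    I.act (.inl U.1) z (tsplit base.rk base.two_mul_rk_le U (.inl u))
      (tsplit base.rk base.two_mul_rk_le U (.inl u')) = Matrix.fromBlocks
        (I.act (.inl (oldU U)) z) 0 0 (I.act (.inl (oldU U)) z) u u'
  h₂₁ : ∀ z w u, I.act (.inl U.1) z (tsplit base.rk base.two_mul_rk_le U (.inr w))
      (tsplit base.rk base.two_mul_rk_le U (.inl u)) = 0
  h₂₂ : ∀ z w w', I.act (.inl U.1) z (tsplit base.rk base.two_mul_rk_le U (.inr w))
      (tsplit base.rk base.two_mul_rk_le U (.inr w')) = I.act (.inr (U, true)) z w w'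
  hdbl : ∀ z u u', I.act (.inr (U, false)) z (finSumFinEquiv u) (finSumFinEquiv u') =
    Matrix.fromBlocks (I.act (.inl (oldU U)) z) 0 0 (I.act (.inl (oldU U)) z) u u'
  hK : ∀ u u', I.maps (U, true) (finSumFinEquiv u)
      (tsplit base.rk base.two_mul_rk_le U (.inl u')) = Matrix.fromBlocks
    (I.act (.inl (oldU U)) (((emb (pick U)).1 : I.C.R) + 1))
    (I.act (.inl (oldU U)) (I.C.rR (S.Φ (emb (pick U)))).trace)
    (I.act (.inl (oldU U)) (I.C.rR (S.Φ (emb (pick U)))).trace)
    (I.act (.inl (oldU U)) (((emb (pick U)).1 : I.C.R) + 1)) u u'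
  hsurj : haveI : NeZero S.p := ⟨S.hp.ne_zero⟩
    Function.Surjective (((I.maps (U, true)).map
      (MonoidAlgebra.lift O O (DGroup S.p I.D.expo) 1)).map (residue O)).mulVec

theorem lift_one_smul {G : Type} [CommGroup G] {M M₀ : Type} [AddCommGroup M]
    [Module (MonoidAlgebra O G) M] [AddCommGroup M₀] [Module O M₀] (red : M →+ M₀)
    (h : ∀ c z, red (c • z) = MonoidAlgebra.lift O O G 1 c • red z)
    (c : MonoidAlgebra O G) (z : M × M) :
    (red.prodMap red) (c • z) =
      (MonoidAlgebra.lift O O G 1 : MonoidAlgebra O G →+* O) c • (red.prodMap red) z :=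
  Prod.ext (h c z.1) (h c z.2)

variable (hspan : Submodule.span (ResidueField O) (Set.range S.rb) = ⊤)
  (F : Frame O) (hF : F.Adapted S.rb) (hup : ∃ σ, S.rb σ 0 1 ≠ 0)
  (hAtP : ∀ (P : PointSet S.rb S.cyc) (M : P.Model), (∀ j, AtP (P.B j) (P.r j)) →
    ∀ t : ↥(tangent M.π O), S.Cp (tgVal M.rR S.rb t))
  (hE : ∀ j, S.BaseAllowed AtP (Extra.B j) (Extra.r j))

include hspan in
set_option maxHeartbeats 1600000 in
-- long assembly
/-- The facts about the steps at any input built from the data of a tower in adapted bases. -/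
theorem facts_of_data (I : S.LevelInput B.M₀.toCarried (tdim base.rk) tsrc ttgt B.act₀ r n)
    {ab : Fin r → ResidueField O} (dep : DepthTower base I.D ab)
    (c : haveI : NeZero S.p := ⟨S.hp.ne_zero⟩
      ∀ U, Module.Basis (Fin (base.rk U)) (MonoidAlgebra O (DGroup S.p I.D.expo)) (dep.levels.M U))
    (hc : haveI : NeZero S.p := ⟨S.hp.ne_zero⟩
      IsAdapted dep.levels base.two_mul_rk_le c)
    (hred : ∀ U i, dep.red U (c U i) = B.b U i)
    (f : ∀ i, I.C.R →ₐ[O] (dep.data c hc i).A)
    (hactE : haveI : NeZero S.p := ⟨S.hp.ne_zero⟩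
      ∀ i x, I.act i x = (dep.data c hc i).act (f i x))
    (hmapsE : haveI : NeZero S.p := ⟨S.hp.ne_zero⟩
      ∀ t, I.maps t = tmaps dep.levels c t)
    (hev : ∀ i σ j, (dep.data c hc i).ev (f i (I.C.rR σ).trace) j =
      ((dep.data c hc i).pts.r j σ).trace) :
    (∀ U, StepFacts B I U) ∧
      ∀ (U : Finset Q) (x : Q), x ∉ U → ∀ a b,
        I.act (.inl U) ((I.C.rR (S.tame (emb x)) - 1) a b) = 0 := by
  classical
  have : NeZero S.p := ⟨S.hp.ne_zero⟩
  let aug := (MonoidAlgebra.lift O O (DGroup S.p I.D.expo) 1 :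
    MonoidAlgebra O (DGroup S.p I.D.expo) →+* O)
  let red2 := fun U : {U : Finset Q // U.Nonempty} =>
    (dep.red (oldU U)).prodMap (dep.red (oldU U))
  have hred2 : ∀ U i, red2 U (dblBasis dep.levels c U i) = dblBasis base.toHeckeLevels B.b U i := by
    intro U i
    obtain ⟨u, rfl⟩ := finSumFinEquiv.surjective i
    rcases u with u | u
    · rw [dblBasis_inl, dblBasis_inl]
      exact Prod.ext (hred _ u) (dep.red (oldU U)).map_zero
    · rw [dblBasis_inr, dblBasis_inr]
      exact Prod.ext (dep.red (oldU U)).map_zero (hred _ u)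
  -- the homomorphisms into one level agree
  have hval : ∀ U (g : I.C.R →ₐ[O] dep.levels.A U),
      (∀ σ j, (dep.sep U).ev (g (I.C.rR σ).trace) j = ((dep.sep U).pts.r j σ).trace) →
        g = f (.inl U) := fun U g hg => I.C.hom_ext fun σ => (dep.sep U).ev_injective (funext fun j => by
    rw [hg]; exact (hev (.inl U) σ j).symm)
  have hfdbl : ∀ U, f (.inr (U, false)) = f (.inl (oldU U)) := fun U =>
    hval (oldU U) (f (.inr (U, false))) fun σ j => hev (.inr (U, false)) σ j
  have hfnew : ∀ U, (newAlg dep.levels base.two_mul_rk_le c U).val.comp (f (.inr (U, true))) =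
      f (.inl U.1) := fun U => hval U.1 _ fun σ j => hev (.inr (U, true)) σ j
  refine ⟨fun U => ?_, fun U x hx a b => ?_⟩
  · have hblocks := fun z => blocks_of_comm dep.levels base.two_mul_rk_le c hc U
      (X := I.act (.inl U.1) z) (Y := I.act (.inr (U, false)) z)
      (by
        have h := I.intertwine (U, false) z
        rw [hmapsE] at h
        exact h)
    have hd2 : ∀ z u u', I.act (.inr (U, false)) z (finSumFinEquiv u) (finSumFinEquiv u') =
        Matrix.fromBlocks (I.act (.inl (oldU U)) z) 0 0 (I.act (.inl (oldU U)) z) u u' := by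
      intro z u u'
      rw [hactE, hactE, hfdbl]
      exact dblAct_apply dep.levels c U _ u u'
    exact {
      h₁₁ := fun z u u' => (hblocks z (.inl u) u').trans (hd2 z u u')
      h₂₁ := fun z w u => hblocks z (.inr w) u
      h₂₂ := fun z w w' => by
        rw [hactE, hactE, ← hfnew]
        rfl
      hdbl := hd2
      hK := fun u u' => by
        have hΦ : f (.inl (oldU U)) (I.C.rR (S.Φ (emb (pick U)))).trace =
            dep.levels.T (oldU U) (emb (pick U)).1 :=
          (dep.sep (oldU U)).ev_injective (funext fun j => (hev (.inl (oldU U)) _ j).trans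
            ((dep.sep (oldU U)).ev_T _ (S.prime_Sig _ (emb (pick U)).2).1
              (Or.inr ⟨pick U, Finset.notMem_erase _ _, rfl⟩) _
              (S.P.liesOver _ (S.prime_Sig _ (emb (pick U)).2).1) _ (S.Φ_spec _) j).symm)
        have hq1 : f (.inl (oldU U)) (((emb (pick U)).1 : I.C.R) + 1) =
            (((emb (pick U)).1 + 1 : ℕ) : dep.levels.A (oldU U)) := by
          rw [map_add, map_natCast, map_one, Nat.cast_succ]
          rfl
        rw [hmapsE, hactE, hactE, hΦ, hq1]
        exact downMat_apply dep.levels base.two_mul_rk_le c hc U u u'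
      hsurj := by
        rw [hmapsE, show (tmaps dep.levels c (U, true)).map
            (MonoidAlgebra.lift O O (DGroup S.p I.D.expo) 1) =
          LinearMap.toMatrix (B.b U.1) (dblBasis base.toHeckeLevels B.b U)
            (base.down U.1 (pick U)) from
          toMatrix_map_aug aug (dep.red U.1) (red2 U)
            (lift_one_smul (dep.red (oldU U)) (dep.red_smul (oldU U))) (c U.1) (B.b U.1)
            (dblBasis dep.levels c U) (dblBasis base.toHeckeLevels B.b U) (hred U.1) (hred2 U) _ _
            fun z => (dep.red_down U.1 (pick U) (pick_mem U) z).symm]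
        intro y₀
        let y : Fin (base.rk (oldU U) + base.rk (oldU U)) → ResidueField O := y₀
        let bD := dblBasis base.toHeckeLevels B.b U
        obtain ⟨w, hw⟩ := base.down_residual U.1 (pick U) (pick_mem U)
          (∑ l, Function.surjInv residue_surjective (y l) • bD l)
        refine ⟨fun l => residue O ((B.b U.1).repr w l), ?_⟩
        refine funext fun (i : Fin (base.rk (oldU U) + base.rk (oldU U))) => ?_
        have h1 : residue O (bD.repr (base.down U.1 (pick U) w) i) = y i := by
          have h := Submodule.mem_map_of_mem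
            (f := (Finsupp.lapply i).comp bD.repr.toLinearMap) hw
          rw [Submodule.map_smul''] at h
          have h' : bD.repr (base.down U.1 (pick U) w -
              ∑ l, Function.surjInv residue_surjective (y l) • bD l) i ∈ maximalIdeal O :=
            Submodule.smul_le.mpr (fun a ha z _ => (maximalIdeal O).mul_mem_right z ha) h
          rw [map_sub, Finsupp.sub_apply, Module.Basis.repr_sum_self, ← residue_eq_zero_iff,
            map_sub, sub_eq_zero] at h'
          rw [h', Function.surjInv_eq residue_surjective]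
        refine Eq.trans ?_ h1
        rw [← LinearMap.toMatrix_mulVec_repr (B.b U.1) bD (base.down U.1 (pick U)) w]
        exact (RingHom.map_mulVec (residue O) _ _ i).symm }
  · have h0 : f (.inl U) ((I.C.rR (S.tame (emb x)) - 1) a b) = 0 :=
      (dep.sep U).ev_injective (funext fun j => by
        let φ : I.C.R →ₐ[O] (dep.sep U).pts.B j :=
          (Pi.evalAlgHom O _ j).comp ((dep.sep U).ev.comp (f (.inl U)))
        have h1 := I.C.map_eq_one hspan ((dep.sep U).pts.ε j) ((dep.sep U).pts.ε_algebraMap j)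
          ((dep.sep U).pts.r j) ((dep.sep U).pts.lift j) φ (fun σ => hev (.inl U) σ j)
          ((dep.sep U).tame_old x hx j)
        show (dep.sep U).ev _ j = (dep.sep U).ev (0 : dep.levels.A U) j
        rw [map_zero (dep.sep U).ev, Pi.zero_apply]
        show φ ((I.C.rR (S.tame (emb x)) - 1) a b) = 0
        rw [Matrix.sub_apply, map_sub,
          show φ (I.C.rR (S.tame (emb x)) a b) = _ from congrFun (congrFun h1 a) b]
        rcases eq_or_ne a b with rfl | hab' <;> simp [*])
    rw [hactE, h0, map_zero]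


include hspan hF hup hAtP hE in
set_option maxHeartbeats 1600000 in
-- long assembly
/-- **The input at one depth.** -/
theorem exists_input (D : S.TWSet r n) (ab : Fin r → ResidueField O)
    (hab : ∀ i, ab i * ab i - (S.rb (D.φ i)).trace * ab i + (S.rb (D.φ i)).det = 0)
    (hqv : ∀ i, D.qv i ∉ S.T) (dep : DepthTower base D ab) :
    ∃ I : S.LevelInput B.M₀.toCarried (tdim base.rk) tsrc ttgt B.act₀ r n,
      (∀ U, StepFacts B I U) ∧
      ∀ (U : Finset Q) (x : Q), x ∉ U → ∀ a b,
        I.act (.inl U) ((I.C.rR (S.tame (emb x)) - 1) a b) = 0 := by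
  classical
  have : NeZero S.p := ⟨S.hp.ne_zero⟩
  obtain ⟨c, hc, hred⟩ := dep.exists_basis base B.hb
  set bd : Finset ℕ := bad ∪ Finset.univ.image D.qv with hbd
  let aug := (MonoidAlgebra.lift O O (DGroup S.p D.expo) 1 :
    MonoidAlgebra O (DGroup S.p D.expo) →+* O)
  have hlev : ∀ U ℓ, ℓ.Prime → ℓ ∉ bd → (levAct dep.levels c U (dep.levels.T U ℓ)).map aug =
      levAct base.toHeckeLevels B.b U (base.T U ℓ) := fun U ℓ hℓ hℓb =>
    toMatrix_map_aug aug (dep.red U) (dep.red U) (dep.red_smul U) (c U) (B.b U) (c U) (B.b U)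
      (hred U) (hred U) _ _ (dep.red_T U ℓ hℓ hℓb)
  have hnot : ∀ i, ∀ σ ∈ (S.P.place (D.qv i)).inertiaSubgroupIn ℚ,
      ∀ j, (base.points Extra).r j σ = 1 := fun i σ hσ j =>
    (base.allowed_points Extra hE j).1 _ (D.prime i).1 (hqv i) _
      (S.P.liesOver _ (D.prime i).1) σ hσ
  obtain ⟨I, hID, hmaps, hf⟩ := exists_levelInput D (src := tsrc) (tgt := ttgt) B.M₀ B.act₀ F hF
    hup hspan AtP hAtP ab hab bd
    (fun i => Finset.mem_union_right _ (Finset.mem_image_of_mem _ (Finset.mem_univ i)))
    (fun j => ⟨fun q hq hqT => (base.allowed_points Extra hE j).1 q hq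
      fun h => hqT (Finset.mem_union_left _ h), (base.allowed_points Extra hE j).2⟩)
    (fun i j => hnot i _ (D.s i).2 j)
    (fun i => dep.data c hc i) (tmaps dep.levels c)
    (by
      rintro ⟨U, _ | _⟩ ℓ hℓ hℓb
      · exact up_toMatrix dep.levels c U hℓ hℓb
      · exact down_toMatrix dep.levels c U hℓ hℓb)
    (by
      rintro (U | ⟨U, _ | _⟩) ℓ hℓ hℓb P hP σ hσ <;>
        have hℓ0 : ℓ ∉ bad := fun h => hℓb (Finset.mem_union_left _ h)
      · show (levAct dep.levels c U (dep.levels.T U ℓ)).map aug =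
          levAct base.toHeckeLevels B.b U (B.f₀ U (B.M₀.rR σ).trace)
        rw [B.f₀_frob U hℓ (Or.inl hℓ0) hP hσ, hlev U ℓ hℓ hℓb]
      · show (dblAct dep.levels c U (dep.levels.T (oldU U) ℓ)).map aug =
          dblAct base.toHeckeLevels B.b U (B.f₀ (oldU U) (B.M₀.rR σ).trace)
        rw [B.f₀_frob (oldU U) hℓ (Or.inl hℓ0) hP hσ]
        refine Matrix.ext fun i j => ?_
        obtain ⟨u, rfl⟩ := finSumFinEquiv.surjective i
        obtain ⟨v, rfl⟩ := finSumFinEquiv.surjective j
        rw [Matrix.map_apply, dblAct_apply, dblAct_apply, ← hlev (oldU U) ℓ hℓ hℓb]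
        rcases u with u | u <;> rcases v with v | v <;> simp
      · show ((levAct dep.levels c U.1
            (newT dep.levels base.two_mul_rk_le c U ℓ).1).submatrix _ _).map aug =
          (levAct base.toHeckeLevels B.b U.1 (B.f₀ U.1 (B.M₀.rR σ).trace)).submatrix _ _
        rw [val_newT dep.levels base.two_mul_rk_le c hc U hℓ hℓb,
          B.f₀_frob U.1 hℓ (Or.inl hℓ0) hP hσ, ← hlev U.1 ℓ hℓ hℓb]
        rfl)
  subst hID
  choose f hact hev using hf
  have hact' : ∀ i x, I.act i x = (dep.data c hc i).act (f i x) := fun i x =>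
    Matrix.ext fun u v => eq_of_heq (hact i x u v)
  have hmaps' : ∀ t, I.maps t = tmaps dep.levels c t := fun t =>
    Matrix.ext fun u v => eq_of_heq (hmaps t u v)
  exact ⟨I, facts_of_data B hspan I dep c hc hred f hact' hmaps' hev⟩

/-- The step at `U` from the inputs and the rank of inertia. -/
def stepOf {inp : ∀ n, S.LevelInput B.M₀.toCarried (tdim base.rk) tsrc ttgt B.act₀ r n}
    (hfacts : ∀ n U, StepFacts B (inp n) U)
    (hold : ∀ n (U : Finset Q) (x : Q), x ∉ U → ∀ a b,
      (inp n).act (.inl U) (((inp n).C.rR (S.tame (emb x)) - 1) a b) = 0)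
    (U : {U : Finset Q // U.Nonempty}) (hunr : S.rb (S.tame (emb (pick U))) = 1)
    (hrk : ((blockAct (B.act₀ (.inl U.1)).toRingHom
      (B.M₀.rR (S.tame (emb (pick U))) - 1)).map (residue O)).rank = dnew base.rk U) :
    Step inp (emb (pick U)) (U, true) (.inl (oldU U)) (.inr (U, true)) where
  eD := finSumFinEquiv
  e := tsplit base.rk base.two_mul_rk_le U
  h₁₁ n := (hfacts n U).h₁₁
  h₂₁ n := (hfacts n U).h₂₁
  h₂₂ n := (hfacts n U).h₂₂
  hdbl n := (hfacts n U).hdbl
  hK n := (hfacts n U).hK
  hsurj n := (hfacts n U).hsurj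
  hunr := hunr
  hold n := hold n (oldU U) (pick U) (Finset.notMem_erase _ _)
  hrk := hrk

end Setup

end FA.RT
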