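import Fermat.Agent.RT.Tower.Base

/-!
# Level data from a tower in adapted bases
-/

set_option autoImplicit false
set_option linter.unusedSectionVars false

noncomputable section

open IsLocalRing Matrix FA.Deform FA.TW FA.LocalDef

namespace FA.RT

local notation "Qb" => AlgebraicClosure ℚ
local notation "GQ" => AlgebraicClosure ℚ ≃ₐ[ℚ] AlgebraicClosure ℚ
local notation "M2" => Matrix (Fin 2) (Fin 2)

section Aug

variable {O Λ : Type} [CommRing O] [CommRing Λ] (aug : Λ →+* O) {M M₀ M' M₀' : Type}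
  [AddCommGroup M] [Module Λ M] [AddCommGroup M₀] [Module O M₀] [AddCommGroup M'] [Module Λ M']
  [AddCommGroup M₀'] [Module O M₀']

/-- Reduction of matrices along a semilinear reduction of bases. -/
theorem toMatrix_map_aug {ι ι' : Type} [Fintype ι] [Fintype ι'] [DecidableEq ι]
    (red : M →+ M₀) (red' : M' →+ M₀') (hred' : ∀ c z, red' (c • z) = aug c • red' z)
    (c : Module.Basis ι Λ M) (b : Module.Basis ι O M₀) (c' : Module.Basis ι' Λ M')
    (b' : Module.Basis ι' O M₀') (hc : ∀ i, red (c i) = b i) (hc' : ∀ i, red' (c' i) = b' i)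
    (f : M →ₗ[Λ] M') (f₀ : M₀ →ₗ[O] M₀') (hf : ∀ z, red' (f z) = f₀ (red z)) :
    (LinearMap.toMatrix c c' f).map aug = LinearMap.toMatrix b b' f₀ := by
  refine Matrix.ext fun i j => ?_
  rw [Matrix.map_apply, LinearMap.toMatrix_apply, LinearMap.toMatrix_apply, ← hc j, ← hf]
  conv_rhs => rw [← c'.sum_repr (f (c j)), map_sum]
  simp only [hred', hc']
  rw [Module.Basis.repr_sum_self]

end Aug

section Operators

variable {Q : Type} [DecidableEq Q] {d : Finset Q → ℕ} {O Λ : Type} [CommRing O] [CommRing Λ]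
  [Algebra O Λ] {qn : Q → ℕ} {bad : Finset ℕ} (H : HeckeLevels O Λ Q qn bad)
  (hd : ∀ U : {U : Finset Q // U.Nonempty}, 2 * d (oldU U) ≤ d U.1)
  (b : ∀ U, Module.Basis (Fin (d U)) Λ (H.M U)) (hb : IsAdapted H hd b)

/-- Commutation with the push forward as matrices. -/
theorem up_toMatrix (U : {U : Finset Q // U.Nonempty}) {ℓ : ℕ} (hℓ : ℓ.Prime) (hℓb : ℓ ∉ bad) :
    LinearMap.toMatrix (dblBasis H b U) (b U.1) (H.up U.1 (pick U)) *
        dblAct H b U (H.T (oldU U) ℓ) =
      levAct H b U.1 (H.T U.1 ℓ) *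
        LinearMap.toMatrix (dblBasis H b U) (b U.1) (H.up U.1 (pick U)) := by
  rw [dblAct_eq, ← LinearMap.toMatrix_comp, show levAct H b U.1 (H.T U.1 ℓ) =
      LinearMap.toMatrix (b U.1) (b U.1) (H.act U.1 (H.T U.1 ℓ)) from rfl, ← LinearMap.toMatrix_comp]
  congr 1
  exact LinearMap.ext fun z => H.up_comm U.1 (pick U) (pick_mem U) ℓ hℓ hℓb z.1 z.2

/-- Commutation with the pull back as matrices. -/
theorem down_toMatrix (U : {U : Finset Q // U.Nonempty}) {ℓ : ℕ} (hℓ : ℓ.Prime) (hℓb : ℓ ∉ bad) :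
    LinearMap.toMatrix (b U.1) (dblBasis H b U) (H.down U.1 (pick U)) *
        levAct H b U.1 (H.T U.1 ℓ) =
      dblAct H b U (H.T (oldU U) ℓ) *
        LinearMap.toMatrix (b U.1) (dblBasis H b U) (H.down U.1 (pick U)) := by
  rw [dblAct_eq, ← LinearMap.toMatrix_comp, show levAct H b U.1 (H.T U.1 ℓ) =
      LinearMap.toMatrix (b U.1) (b U.1) (H.act U.1 (H.T U.1 ℓ)) from rfl, ← LinearMap.toMatrix_comp]
  congr 1
  exact LinearMap.ext fun z => H.down_comm U.1 (pick U) (pick_mem U) ℓ hℓ hℓb z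

include hb in
/-- The good Hecke elements preserve the old copies. -/
theorem T_mem_newAlg (U : {U : Finset Q // U.Nonempty}) {ℓ : ℕ} (hℓ : ℓ.Prime) (hℓb : ℓ ∉ bad) :
    H.T U.1 ℓ ∈ newAlg H hd b U := fun w v => by
  rw [blocks_of_comm H hd b hb U (up_toMatrix H b U hℓ hℓb) (.inr w) v]
  rfl

open Classical in
/-- The Hecke elements of the new part. -/
def newT (U : {U : Finset Q // U.Nonempty}) (ℓ : ℕ) : newAlg H hd b U :=
  if h : H.T U.1 ℓ ∈ newAlg H hd b U then ⟨H.T U.1 ℓ, h⟩ else 0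

include hb in
theorem val_newT (U : {U : Finset Q // U.Nonempty}) {ℓ : ℕ} (hℓ : ℓ.Prime) (hℓb : ℓ ∉ bad) :
    (newT H hd b U ℓ : H.A U.1) = H.T U.1 ℓ := by
  rw [newT, dif_pos (T_mem_newAlg H hd b hb U hℓ hℓb)]

end Operators

namespace Setup

variable {O : Type} [CommRing O] [IsDomain O] [IsDiscreteValuationRing O]
  [IsAdicComplete (maximalIdeal O) O]
  {S : Setup O} {Q : Type} [DecidableEq Q] {emb : Q → ↥S.Sig} {bad : Finset ℕ}
  {AtP : ∀ (B : Type) [CommRing B] [IsLocalRing B] [Algebra O B], (GQ →* M2 B) → Prop}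
  {base : BaseTower S Q emb bad AtP} {r n : ℕ} {D : S.TWSet r n} {ab : Fin r → ResidueField O}
  (dep : DepthTower base D ab)
  (c : haveI : NeZero S.p := ⟨S.hp.ne_zero⟩
    ∀ U, Module.Basis (Fin (base.rk U)) (MonoidAlgebra O (DGroup S.p D.expo)) (dep.levels.M U))
  (hc : haveI : NeZero S.p := ⟨S.hp.ne_zero⟩
    IsAdapted dep.levels base.two_mul_rk_le c)

theorem DepthTower.levAct_dia (U : Finset Q) :
    haveI : NeZero S.p := ⟨S.hp.ne_zero⟩
    ∀ g, levAct dep.levels c U (dep.dia U g) = Matrix.scalar _ (MonoidAlgebra.single g 1) := by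
  have : NeZero S.p := ⟨S.hp.ne_zero⟩
  intro g
  refine Matrix.ext fun i j => ?_
  rw [levAct_apply, dep.act_dia, map_smul, Module.Basis.repr_self, Finsupp.smul_single,
    Finsupp.single_apply, smul_eq_mul, mul_one, Matrix.scalar_apply, Matrix.diagonal_apply]
  simp only [eq_comm]

/-- The data of one level. -/
def DepthTower.levData (U : Finset Q) :
    D.LevelData (D.Allowed AtP) ab (bad ∪ Finset.univ.image D.qv) (base.rk U) :=
  haveI : NeZero S.p := ⟨S.hp.ne_zero⟩
  { A := dep.levels.A U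
    T := dep.levels.T U
    dia := dep.dia U
    act := levAct dep.levels c U
    act_dia := dep.levAct_dia c U
    pts := (dep.sep U).pts
    ev := (dep.sep U).ev
    ev_injective := (dep.sep U).ev_injective
    good := (dep.sep U).good
    ev_T := fun ℓ hℓ hℓb => (dep.sep U).ev_T ℓ hℓ (Or.inl hℓb)
    ev_dia := dep.ev_dia U }

/-- The data of the doubled old level. -/
def DepthTower.dblData (U : {U : Finset Q // U.Nonempty}) :
    D.LevelData (D.Allowed AtP) ab (bad ∪ Finset.univ.image D.qv)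
      (base.rk (oldU U) + base.rk (oldU U)) :=
  haveI : NeZero S.p := ⟨S.hp.ne_zero⟩
  { A := dep.levels.A (oldU U)
    T := dep.levels.T (oldU U)
    dia := dep.dia (oldU U)
    act := dblAct dep.levels c U
    act_dia := fun g => by
      refine Matrix.ext fun i j => ?_
      obtain ⟨u, rfl⟩ := finSumFinEquiv.surjective i
      obtain ⟨v, rfl⟩ := finSumFinEquiv.surjective j
      rw [dblAct_apply, dep.levAct_dia, Matrix.scalar_apply, Matrix.scalar_apply,
        Matrix.diagonal_apply (i := finSumFinEquiv u)]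
      simp only [finSumFinEquiv.apply_eq_iff_eq]
      rcases u with u | u <;> rcases v with v | v <;> simp [Matrix.diagonal_apply]
    pts := (dep.sep (oldU U)).pts
    ev := (dep.sep (oldU U)).ev
    ev_injective := (dep.sep (oldU U)).ev_injective
    good := (dep.sep (oldU U)).good
    ev_T := fun ℓ hℓ hℓb => (dep.sep (oldU U)).ev_T ℓ hℓ (Or.inl hℓb)
    ev_dia := dep.ev_dia (oldU U) }

theorem DepthTower.dia_mem (U : {U : Finset Q // U.Nonempty}) :
    haveI : NeZero S.p := ⟨S.hp.ne_zero⟩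
    ∀ g, dep.dia U.1 g ∈ newAlg dep.levels base.two_mul_rk_le c U := by
  have : NeZero S.p := ⟨S.hp.ne_zero⟩
  intro g w u
  rw [dep.levAct_dia, Matrix.scalar_apply, Matrix.diagonal_apply_ne]
  simp

/-- The data of the new part. -/
def DepthTower.newData (U : {U : Finset Q // U.Nonempty}) :
    D.LevelData (D.Allowed AtP) ab (bad ∪ Finset.univ.image D.qv) (dnew base.rk U) :=
  haveI : NeZero S.p := ⟨S.hp.ne_zero⟩
  { A := newAlg dep.levels base.two_mul_rk_le c U
    T := newT dep.levels base.two_mul_rk_le c U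
    dia := (dep.dia U.1).codRestrict (newAlg dep.levels base.two_mul_rk_le c U)
      (dep.dia_mem c U)
    act := newAct dep.levels base.two_mul_rk_le c U
    act_dia := fun g => by
      refine Matrix.ext fun i j => ?_
      show levAct dep.levels c U.1 (dep.dia U.1 g) _ _ = _
      rw [dep.levAct_dia]
      simp [Matrix.diagonal_apply, (tsplit base.rk base.two_mul_rk_le U).apply_eq_iff_eq]
    pts := (dep.sep U.1).pts
    ev := (dep.sep U.1).ev.comp (newAlg dep.levels base.two_mul_rk_le c U).val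
    ev_injective := (dep.sep U.1).ev_injective.comp Subtype.val_injective
    good := (dep.sep U.1).good
    ev_T := fun ℓ hℓ hℓb P hP σ hσ j => by
      show (dep.sep U.1).ev (newT dep.levels base.two_mul_rk_le c U ℓ).1 j = _
      rw [val_newT dep.levels base.two_mul_rk_le c hc U hℓ hℓb]
      exact (dep.sep U.1).ev_T ℓ hℓ (Or.inl hℓb) P hP σ hσ j
    ev_dia := dep.ev_dia U.1 }

/-- The data at all indices. -/
def DepthTower.data : ∀ i : TIdx Q,
    D.LevelData (D.Allowed AtP) ab (bad ∪ Finset.univ.image D.qv) (tdim base.rk i)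
  | .inl U => dep.levData c U
  | .inr (U, false) => dep.dblData c U
  | .inr (U, true) => dep.newData c hc U

end Setup

end FA.RT
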