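import Fermat.Agent.RT.Tower.PInputs
import Fermat.Agent.RT.UnionTransfer

/-!
# Modularity lifting from a tower in a union of two worlds at `p`

A congruent strictly ordinary lift which is an eigen system of the new part at `p` of one level
forces every allowed strictly ordinary lift to be an eigen system of the level where it is ramified.
-/

set_option autoImplicit false
set_option linter.unusedSectionVars false

noncomputable section

open IsLocalRing Matrix FA.Deform FA.TW FA.LocalDef FA.Patch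

namespace FA.RT

local notation "Qb" => AlgebraicClosure ℚ
local notation "GQ" => AlgebraicClosure ℚ ≃ₐ[ℚ] AlgebraicClosure ℚ
local notation "M2" => Matrix (Fin 2) (Fin 2)

namespace Setup

variable {O : Type} [CommRing O] [IsDomain O] [IsDiscreteValuationRing O]
  [IsAdicComplete (maximalIdeal O) O] [Finite (ResidueField O)]
  {S : Setup O} {Q : Type} [DecidableEq Q] [Fintype Q] {emb : Q → ↥S.Sig} {bad : Finset ℕ}
  {AtP : ∀ (B : Type) [CommRing B] [IsLocalRing B] [Algebra O B], (GQ →* M2 B) → Prop}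
  {base : BaseTower S Q emb bad AtP}
  {GoodF GoodS : ∀ (B : Type) [CommRing B] [IsLocalRing B] [Algebra O B], (GQ →* M2 B) → Prop}
  {pb : PBase base GoodF GoodS} {w' w : ZeroPoint S}
  {B : BaseSide base (unionExtra pb w' w)} {Ps : PSide B} {loc : UnionLocal S GoodF GoodS} {r : ℕ}
  (X : ∀ n, PInput Ps loc r n)

/-- The worlds of the inputs. -/
def unionTowerWorlds : UnionWorlds (fun n => (X n).I) :=
  UnionWorlds.ofClasses loc.CF loc.CS (fun n => (X n).KF) (fun n => (X n).KS) loc.iF loc.iS loc.iB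
    loc.sF loc.sS loc.sB (fun n => (X n).classF) (fun n => (X n).classS)

/-- The blocks at `p` of a level. -/
def unionTowerBlock (U : Finset Q) :
    PBlock (unionTowerWorlds X) (.inl (.inl U)) (.inr (.inr (.inl U))) (.inr (.inr (.inr U))) where
  i' := .inr (.inl U)
  conj n := (X n).chg U
  e := psplit base.rk pb.rkF pb.add_rkF_le U
  h₁₁ n := (X n).h₁₁ U
  h₂₁ n := (X n).h₂₁ U
  h₂₂ n := (X n).h₂₂ U
  flat n := (X n).flat U
  strict n := (X n).strict U

/-- A step of the tower in the union. -/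
def unionTowerStep (U : {U : Finset Q // U.Nonempty}) (hunr : S.rb (S.tame (emb (pick U))) = 1)
    (hrk : ((blockAct (B.act₀ (.inl U.1)).toRingHom
      (B.M₀.rR (S.tame (emb (pick U))) - 1)).map (residue O)).rank = dnew base.rk U) :
    Step (fun n => (X n).I) (emb (pick U)) (.inl (U, true)) (.inl (.inl (oldU U)))
      (.inl (.inr (U, true))) :=
  let st := stepOf B (inp := fun n =>
      (X n).I.restrict (src := tsrc) (tgt := ttgt) Sum.inl Sum.inl (fun _ => rfl) fun _ => rfl)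
    (fun n => (X n).facts) (fun n => (X n).hold) U hunr hrk
  { eD := st.eD
    e := st.e
    h₁₁ := st.h₁₁
    h₂₁ := st.h₂₁
    h₂₂ := st.h₂₂
    hdbl := st.hdbl
    hK := st.hK
    hsurj := st.hsurj
    hunr := st.hunr
    hold := st.hold
    hrk := st.hrk }

/-- Where a level vanishes, so does its new part at `p`. -/
theorem act_new_eq_zero {n : ℕ} (U : Finset Q) {z : (X n).I.C.R}
    (h : (X n).I.act (.inl (.inl U)) z = 0) : (X n).I.act (.inr (.inr (.inr U))) z = 0 := by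
  obtain ⟨P, P', h1, -, h3⟩ := (X n).chg U
  refine Matrix.ext fun v v' => ?_
  refine ((X n).h₂₂ U z v v').symm.trans ?_
  have h0 : (X n).I.act (.inr (.inl U)) z = 0 := by
    refine (Matrix.mul_one _).symm.trans ?_
    rw [← h1, ← Matrix.mul_assoc, ← h3, h, Matrix.mul_zero, Matrix.zero_mul]
  rw [h0]
  rfl

include X in
/-- Where a level vanishes at the base, so does its new part at `p`. -/
theorem act₀_new_eq_zero (U : Finset Q) {z : B.M₀.R} (h : B.act₀ (.inl U) z = 0) :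
    Ps.act₀ (.inr (.inr (.inr U))) z = 0 := by
  have : NeZero S.p := ⟨S.hp.ne_zero⟩
  obtain ⟨y, rfl⟩ := (X 0).I.π_surjective z
  obtain ⟨P, P', h1, -, h3⟩ := (X 0).chg U
  let aug := (MonoidAlgebra.lift O O (DGroup S.p (X 0).I.D.expo) 1 :
    MonoidAlgebra O (DGroup S.p (X 0).I.D.expo) →+* O)
  have h0 : ((X 0).I.act (.inr (.inl U)) y).map aug = 0 := by
    have e1 : (X 0).I.act (.inr (.inl U)) y = P * (X 0).I.act (.inl (.inl U)) y * P' := by
      rw [h3, Matrix.mul_assoc, h1, Matrix.mul_one]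
    have e2 : ((X 0).I.act (.inl (.inl U)) y).map aug = 0 :=
      ((X 0).I.act_base (.inl (.inl U)) y).trans h
    rw [e1, Matrix.map_mul, Matrix.map_mul, e2, Matrix.mul_zero, Matrix.zero_mul]
  rw [← (X 0).I.act_base]
  refine Matrix.ext fun v v' => ?_
  rw [Matrix.map_apply, ← (X 0).h₂₂ U y v v']
  exact congrFun (congrFun h0 _) _

/-- **Modularity lifting along a tower in a union of two worlds.** -/
theorem eigenStrict_of_tower [CharZero O] (base : BaseTower S Q emb bad AtP)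
    (hmono : MonoTower base) (pb : PBase base GoodF GoodS) (loc : UnionLocal S GoodF GoodS)
    (hemb : Function.Injective emb) (hres : ∀ x, S.rb (S.tame (emb x)) = 1)
    (haux : ∀ q : ↥S.Sig, q ∉ Set.range emb → S.rb (S.tame q) = 1 →
      (S.rb (S.Φ q)).trace * (S.rb (S.Φ q)).trace ≠
        ((q.1 : ResidueField O) + 1) * ((q.1 : ResidueField O) + 1))
    (hSig : S.Sig.Nonempty)
    (hcycΦ : ∀ q : ↥S.Sig, S.cyc (S.Φ q) = (q.1 : O))
    (hcycs : ∀ q : ↥S.Sig, S.cyc (S.tame q) = 1)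
    (hspan : Submodule.span (ResidueField O) (Set.range S.rb) = ⊤)
    (F : Frame O) (hF : F.Adapted S.rb) (hup : ∃ σ, S.rb σ 0 1 ≠ 0)
    (hAtP : ∀ (P : PointSet S.rb S.cyc) (M : P.Model), (∀ j, AtP (P.B j) (P.r j)) →
      ∀ t : ↥(tangent M.π O), S.Cp (tgVal M.rR S.rb t))
    (htw : ∃ r : ℕ, ∀ n : ℕ, ∃ (D : S.TWSet r n) (ab : Fin r → ResidueField O),
      (∀ i, ab i * ab i - (S.rb (D.φ i)).trace * ab i + (S.rb (D.φ i)).det = 0) ∧
      (∀ i, D.qv i ∉ S.T) ∧ ∃ dep : DepthTower base D ab, Nonempty (PDepth pb dep))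
    {Utop Utar : Finset Q} (w' w : ZeroPoint S)
    (hw' : S.BaseAllowed AtP O w'.r) (hw : S.BaseAllowed AtP O w.r) (hwS : GoodS O w.r)
    (hwunr : ∀ x, x ∉ Utar → w.r (S.tame (emb x)) = 1)
    (χ' : Algebra.adjoin O {a : pb.AS Utop | ∃ ℓ : ℕ, ℓ.Prime ∧ ℓ ∉ bad ∧ a = pb.TS Utop ℓ}
      →ₐ[O] O)
    (hχ' : ∀ (ℓ : ℕ) (hℓ : ℓ.Prime) (hℓb : ℓ ∉ bad), ∀ P : ValuationSubring Qb, P.LiesOverPrime ℓ →
      ∀ σ : GQ, P.IsFrobeniusAt σ ℓ →
        χ' ⟨pb.TS Utop ℓ, Algebra.subset_adjoin ⟨ℓ, hℓ, hℓb, rfl⟩⟩ = (w'.r σ).trace) :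
    ∃ χ : Algebra.adjoin O {a : base.A Utar | ∃ ℓ : ℕ, ℓ.Prime ∧ ℓ ∉ bad ∧ a = base.T Utar ℓ}
        →ₐ[O] O,
      ∀ (ℓ : ℕ) (hℓ : ℓ.Prime) (hℓb : ℓ ∉ bad), ∀ P : ValuationSubring Qb, P.LiesOverPrime ℓ →
        ∀ σ : GQ, P.IsFrobeniusAt σ ℓ →
          χ ⟨base.T Utar ℓ, Algebra.subset_adjoin ⟨ℓ, hℓ, hℓb, rfl⟩⟩ = (w.r σ).trace := by
  classical
  obtain ⟨rr, hr⟩ := htw
  have : Nonempty (unionExtra pb w' w).J := ⟨wIdx⟩
  obtain ⟨B⟩ := nonempty_baseSide base (unionExtra pb w' w) F hF hup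
  obtain ⟨Ps⟩ := nonempty_pSide F hF hup B
  have hin : ∀ n, Nonempty (PInput Ps loc rr n) := fun n => by
    obtain ⟨D, ab, hab, hqv, dep, ⟨pd⟩⟩ := hr n
    exact nonempty_pInput Ps hspan F hF hup hAtP hw' hw hwS loc D ab hab hqv dep pd
  obtain ⟨X⟩ := Classical.nonempty_pi.mpr hin
  let W := unionTowerWorlds X
  let new : Finset Q → UIdx Q := fun U => .inr (.inr (.inr U))
  obtain ⟨g, hg⟩ : ∃ g, g + 1 = rr + S.Sig.card :=
    ⟨rr + S.Sig.card - 1, by have := hSig.card_pos; omega⟩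
  let st := fun U : {U : Finset Q // U.Nonempty} => unionTowerStep X U (hres _) (by
      have h := hmono B.M₀.toCarried U.1 (pick U) (pick_mem U) (B.f₀ U.1)
        (fun ℓ hℓ hℓb P hP σ hσ => B.f₀_frob U.1 hℓ (Or.inl hℓb) hP hσ) _ (B.b U.1)
      change ((blockAct (B.act₀ (.inl U.1)).toRingHom _).map (residue O)).rank +
        2 * base.rk (oldU U) = base.rk U.1 at h
      show _ = base.rk U.1 - 2 * base.rk (oldU U)
      omega)
  have hdown : ∀ U : Finset Q, UDown W (new U) (new ∅) (U.image emb) := by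
    intro U
    induction U using Finset.strongInduction with
    | H U ih =>
      by_cases hU : U.Nonempty
      · have h := UDown.step (st ⟨U, hU⟩) (unionTowerBlock X U) (unionTowerBlock X _)
          (ih _ (Finset.erase_ssubset (pick_mem ⟨U, hU⟩))) (by simp [hemb.eq_iff])
        rw [← Finset.image_insert, oldU, Finset.insert_erase (pick_mem ⟨U, hU⟩)] at h
        exact h
      · rw [Finset.not_nonempty_iff_eq_empty.mp hU, Finset.image_empty]
        exact UDown.refl _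
  -- the two points
  let f' : B.M₀.R →ₐ[O] O := B.pe ⟨none, true⟩
  let f : B.M₀.R →ₐ[O] O := B.pe wIdx
  have hfS : ∀ q : ℕ, q.Prime → q ∉ bad → ∀ P : ValuationSubring Qb, P.LiesOverPrime q →
      ∀ σ : GQ, P.IsFrobeniusAt σ q → Ps.fS Utop (B.M₀.rR σ).trace = pb.TS Utop q :=
    fun q hq hqb P hP σ hσ => (pb.sepS Utop).ev_injective (funext fun j => by
      rw [Ps.ev_fS, (pb.sepS Utop).ev_T q hq hqb P hP σ hσ j])
  let NS : Subalgebra O (pb.AS Utop) :=
    Algebra.adjoin O {a : pb.AS Utop | ∃ ℓ : ℕ, ℓ.Prime ∧ ℓ ∉ bad ∧ a = pb.TS Utop ℓ}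
  have hmemS : ∀ z, Ps.fS Utop z ∈ NS := fun z => by
    have hN : NS.comap (Ps.fS Utop) = ⊤ :=
      B.M₀.eq_top_of_frobenius _ bad fun q hq hqb P hP σ hσ k => by
        rw [map_pow]
        refine trace_pow_mem _ _ ?_ ?_ k
        · show Ps.fS Utop (B.M₀.rR σ).trace ∈ NS
          rw [hfS q hq hqb P hP σ hσ]
          exact Algebra.subset_adjoin ⟨q, hq, hqb, rfl⟩
        · rw [B.M₀.det]; exact Subalgebra.algebraMap_mem _ _
    exact (hN ▸ Algebra.mem_top : z ∈ NS.comap (Ps.fS Utop))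
  let gS : B.M₀.R →ₐ[O] NS := (Ps.fS Utop).codRestrict NS hmemS
  have hf'eq : f' = χ'.comp gS := by
    refine AlgHom.ext fun z => ?_
    have hN : AlgHom.equalizer f' (χ'.comp gS) = ⊤ :=
      B.M₀.eq_top_of_frobenius _ bad fun q hq hqb P hP σ hσ k => by
        rw [map_pow]
        refine trace_pow_mem _ _ ?_ ?_ k
        · rw [AlgHom.mem_equalizer, AlgHom.comp_apply,
            show gS (B.M₀.rR σ).trace = ⟨pb.TS Utop q, Algebra.subset_adjoin ⟨q, hq, hqb, rfl⟩⟩ from
              Subtype.ext (hfS q hq hqb P hP σ hσ), hχ' q hq hqb P hP σ hσ]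
          exact B.pe_trace _ σ
        · rw [B.M₀.det]; exact Subalgebra.algebraMap_mem _ _
    exact (hN ▸ Algebra.mem_top : z ∈ AlgHom.equalizer f' (χ'.comp gS))
  have hf' : RingHom.ker (Ps.act₀ (new Utop)) ≤ RingHom.ker f'.toRingHom := fun z hz => by
    refine RingHom.mem_ker.mpr ?_
    have h0 : Ps.fS Utop z = 0 := pb.actS_injective Utop (by
      rw [map_zero]
      exact (LinearMap.toMatrixAlgEquiv (Ps.bq Utop)).injective
        ((RingHom.mem_ker.mp hz).trans (map_zero _).symm))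
    show f' z = 0
    rw [hf'eq, AlgHom.comp_apply, show gS z = 0 from Subtype.ext h0, map_zero]
  -- unramified places
  have htop : ∀ q, S.rb (S.tame q) = 1 → q ∉ Utop.image emb →
      (∀ n a b, (X n).I.act (new Utop) (((X n).I.C.rR (S.tame q) - 1) a b) = 0) ∨
        (S.rb (S.Φ q)).trace * (S.rb (S.Φ q)).trace ≠
          ((q.1 : ResidueField O) + 1) * ((q.1 : ResidueField O) + 1) := fun q hq hqU => by
    by_cases hqr : q ∈ Set.range emb
    · obtain ⟨x, rfl⟩ := hqr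
      exact Or.inl fun n a b => act_new_eq_zero X Utop
        ((X n).hold Utop x (fun hx => hqU (Finset.mem_image_of_mem _ hx)) a b)
    · exact Or.inr (haux q hqr hq)
  have htar : ∀ q, S.rb (S.tame q) = 1 → q ∉ Utar.image emb →
      (∀ a b, f ((B.M₀.rR (S.tame q) - 1) a b) = 0) ∨
        (S.rb (S.Φ q)).trace * (S.rb (S.Φ q)).trace ≠
          ((q.1 : ResidueField O) + 1) * ((q.1 : ResidueField O) + 1) := fun q hq hqU => by
    by_cases hqr : q ∈ Set.range emb
    · obtain ⟨x, rfl⟩ := hqr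
      refine Or.inl fun a b => ?_
      have h1 := B.M₀.toCarried.map_eq_one hspan (residue O) (fun _ => rfl) w.r w.lift f
        (fun σ => B.pe_trace wIdx σ) (hwunr x fun hx => hqU (Finset.mem_image_of_mem _ hx))
      show f ((B.M₀.rR (S.tame (emb x)) - 1) a b) = 0
      rw [Matrix.sub_apply, map_sub,
        show f (B.M₀.rR (S.tame (emb x)) a b) = _ from congrFun (congrFun h1 a) b]
      rcases eq_or_ne a b with rfl | hab <;> simp [*]
    · exact Or.inr (haux q hqr hq)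
  have hker := transferStrict hg (inp := fun n => (X n).I) hcycΦ hcycs W f'.toRingHom f
    (hdown Utop) (hdown Utar) (fun n => (X n).strict Utop) (fun n => (X n).strict Utar)
    (fun n z hz => (X n).point z hz) hf' htop htar fun q hq => by
      rcases Finset.mem_union.mp hq with hq | hq <;>
        · obtain ⟨x, -, rfl⟩ := Finset.mem_image.mp hq
          exact hres x
  -- the eigen system
  let N : Subalgebra O (base.A Utar) :=
    Algebra.adjoin O {a : base.A Utar | ∃ ℓ : ℕ, ℓ.Prime ∧ ℓ ∉ bad ∧ a = base.T Utar ℓ}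
  have hmemN : ∀ z, B.f₀ Utar z ∈ N := fun z => by
    have hN : N.comap (B.f₀ Utar) = ⊤ :=
      B.M₀.eq_top_of_frobenius _ bad fun q hq hqb P hP σ hσ k => by
        rw [map_pow]
        refine trace_pow_mem _ _ ?_ ?_ k
        · show B.f₀ Utar (B.M₀.rR σ).trace ∈ N
          rw [B.f₀_frob Utar hq (Or.inl hqb) hP hσ]
          exact Algebra.subset_adjoin ⟨q, hq, hqb, rfl⟩
        · rw [B.M₀.det]; exact Subalgebra.algebraMap_mem _ _
    exact (hN ▸ Algebra.mem_top : z ∈ N.comap (B.f₀ Utar))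
  let gN : B.M₀.R →ₐ[O] N := (B.f₀ Utar).codRestrict N hmemN
  have hsurj : Function.Surjective gN := by
    rintro ⟨a, ha⟩
    suffices h : N ≤ (B.f₀ Utar).range by
      obtain ⟨z, hz⟩ := h ha
      exact ⟨z, Subtype.ext hz⟩
    refine Algebra.adjoin_le ?_
    rintro _ ⟨ℓ, hℓ, hℓb, rfl⟩
    obtain ⟨P, hP⟩ := Deform.exists_liesOverPrime hℓ
    obtain ⟨σ, hσ⟩ := Deform.exists_isFrobeniusAt hℓ hP
    exact ⟨(B.M₀.rR σ).trace, B.f₀_frob Utar hℓ (Or.inl hℓb) hP hσ⟩
  have hle : RingHom.ker gN ≤ RingHom.ker f := fun z hz => by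
    have h0 : B.f₀ Utar z = 0 := congrArg Subtype.val (RingHom.mem_ker.mp hz)
    refine RingHom.mem_ker.mpr (RingHom.mem_ker.mp (hker (RingHom.mem_ker.mpr
      (act₀_new_eq_zero X Utar ?_))))
    show levAct base.toHeckeLevels B.b Utar (B.f₀ Utar z) = 0
    rw [h0, map_zero]
  let χ : N →ₐ[O] O := (Ideal.Quotient.liftₐ (RingHom.ker gN) f fun z hz =>
    RingHom.mem_ker.mp (hle hz)).comp
      (Ideal.quotientKerAlgEquivOfSurjective hsurj).symm.toAlgHom
  refine ⟨χ, fun ℓ hℓ hℓb P hP σ hσ => ?_⟩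
  have hpre : (⟨base.T Utar ℓ, Algebra.subset_adjoin ⟨ℓ, hℓ, hℓb, rfl⟩⟩ : N) =
      gN (B.M₀.rR σ).trace := Subtype.ext (B.f₀_frob Utar hℓ (Or.inl hℓb) hP hσ).symm
  rw [hpre]
  refine Eq.trans ?_ (B.pe_trace wIdx σ)
  have hsy : (Ideal.quotientKerAlgEquivOfSurjective hsurj).symm (gN (B.M₀.rR σ).trace) =
      Ideal.Quotient.mk (RingHom.ker gN) (B.M₀.rR σ).trace :=
    (Ideal.quotientKerAlgEquivOfSurjective hsurj).injective (by
      rw [AlgEquiv.apply_symm_apply, Ideal.quotientKerAlgEquivOfSurjective_mk])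
  simp only [χ, AlgHom.comp_apply, AlgEquiv.coe_toAlgHom]
  rw [hsy]
  rfl

end Setup

end FA.RT
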