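import Fermat.Agent.RT.Tower.Lift

/-!
# A level which is nonzero cannot be new at a residually unramified prime

If inertia at `q` minus one has half residual rank on two copies of the module of a level, as it
does when nothing comes from the level without `q`, the patched module is zero.
-/

set_option autoImplicit false
set_option linter.unusedSectionVars false

noncomputable section

open IsLocalRing Matrix FA.Deform FA.TW FA.LocalDef FA.Patch FA.LocalComp

namespace FA.RT

local notation "Qb" => AlgebraicClosure ℚ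
local notation "GQ" => AlgebraicClosure ℚ ≃ₐ[ℚ] AlgebraicClosure ℚ
local notation "M2" => Matrix (Fin 2) (Fin 2)

/-- The homomorphism to the matrices of size zero. -/
def emptyAct (P S : Type) [CommRing P] [CommRing S] : P →+* Matrix (Fin 0) (Fin 0) S where
  toFun _ := 0
  map_one' := Subsingleton.elim _ _
  map_mul' _ _ := Subsingleton.elim _ _
  map_zero' := rfl
  map_add' _ _ := Subsingleton.elim _ _

theorem ker_emptyAct (P S : Type) [CommRing P] [CommRing S] :
    RingHom.ker (emptyAct P S) = ⊤ :=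
  eq_top_iff.mpr fun _ _ => RingHom.mem_ker.mpr (Subsingleton.elim _ _)

theorem isScalarLift_emptyAct {P S : Type} [CommRing P] [CommRing S] (j : S →+* P) :
    FA.Patch.IsScalarLift (emptyAct P S) j := fun _ => Subsingleton.elim _ _

namespace Setup

variable {O : Type} [CommRing O] [IsDomain O] [IsDiscreteValuationRing O]
  [IsAdicComplete (maximalIdeal O) O] [Finite (ResidueField O)]

section System

variable {S : FA.RT.Setup O} {C₀ : Carried S.rb S.cyc} {ι κ : Type} [Finite ι] [Finite κ]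
  {d : ι → ℕ} {src tgt : κ → ι}
  {act₀ : ∀ i, C₀.R →ₐ[O] Matrix (Fin (d i)) (Fin (d i)) O} {r g : ℕ}

/-- **No patched level is new at a residually unramified prime.** -/
theorem false_of_half_rank [CharZero O] [Fact (S.m = 4)] (hg : g + 1 = r + S.Sig.card)
    (inp : ∀ n, S.LevelInput C₀ d src tgt act₀ r n)
    (hcycΦ : ∀ q : ↥S.Sig, S.cyc (S.Φ q) = (q.1 : O))
    (hcycs : ∀ q : ↥S.Sig, S.cyc (S.tame q) = 1)
    (i : ι) (hd : d i ≠ 0) (q : ↥S.Sig) (hunr : S.rb (S.tame q) = 1)
    (hrk : ((blockAct (act₀ i).toRingHom (C₀.rR (S.tame q) - 1)).map (residue O)).rank = d i) :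
    False := by
  classical
  obtain ⟨Pt⟩ := nonempty_patched hg inp
  let Sx := Aux O (FrameVar S.T S.p) (Fin r)
  have : IsDomain Sx := NoZeroDivisors.to_isDomain _
  have : CharZero Sx := charZero_of_injective_ringHom (MvPowerSeries.C_injective (R := O))
  obtain ⟨ee⟩ := exists_paramEmbedding (S := S) hg
  let Pr := MvPowerSeries (FA.LocalComp.Var ↥S.Sig (Fin S.m ⊕ Fin g)) O
  let act₁ : Pr →+* Matrix (Fin 0) (Fin 0) Sx := emptyAct _ _
  let e : (Fin 0 ⊕ Fin 0) ⊕ Fin (d i) ≃ Fin (d i) := Equiv.emptySum (Fin 0 ⊕ Fin 0) (Fin (d i))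
  have hI := patched_relIdeal_le_ker hg inp Pt hcycΦ hcycs i
  have hI₁ : S.localData.relIdeal (ρ := Fin S.m ⊕ Fin g) ≤ RingHom.ker act₁ := by
    rw [ker_emptyAct]; exact le_top
  have hold : S.localData.typeSet (ρ := Fin S.m ⊕ Fin g) q .unr ⊆ (RingHom.ker act₁ : Set Pr) := by
    rw [ker_emptyAct]; exact fun _ _ => Submodule.mem_top
  have hdiag : ∀ x u u', Pt.act i x (e (.inl u)) (e (.inl u')) =
      Matrix.fromBlocks (act₁ x) 0 0 (act₁ x) u u' := fun _ u => isEmptyElim u
  have htri : ∀ x w u, Pt.act i x (e (.inr w)) (e (.inl u)) = 0 := fun _ _ u => isEmptyElim u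
  have hrk' := (patched_rank_eq hg inp Pt i q).trans hrk
  have hne : RingHom.ker (Pt.act i) ≠ ⊤ := fun h => by
    have h1 : Pt.act i 1 = 0 := RingHom.mem_ker.mp (h ▸ Submodule.mem_top)
    rw [map_one] at h1
    have h2 := congrFun (congrFun h1 (⟨0, Nat.pos_of_ne_zero hd⟩ : Fin (d i)))
      (⟨0, Nat.pos_of_ne_zero hd⟩ : Fin (d i))
    exact one_ne_zero ((Matrix.one_apply_eq _).symm.trans h2)
  obtain ⟨M, hM, hle⟩ := Ideal.exists_le_maximal _ hne
  have hj := Pt.isScalarLift i
  obtain ⟨t, ht, -, hsupp⟩ := exists_supported_comp_le hj (isIntegral_paramHom isUnit_qv ee) hI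
    isUnit_qv (p := M) hle
  have hcon : ∀ t' ht', RingHom.ker act₁ ≤
      comp (ρ := Fin S.m ⊕ Fin g) S.localData t' ht' → False := fun t' ht' h =>
    (comp_isPrime (ρ := Fin S.m ⊕ Fin g) ht').ne_top (top_le_iff.mp (ker_emptyAct Pr Sx ▸ h))
  rcases htq : t q with _ | s
  · obtain ⟨D, -⟩ := localMazurData (L := S.localData) (ρ := Fin S.m ⊕ Fin g) e
      (isScalarLift_emptyAct Pt.j) (isIntegral_paramHom isUnit_qv ee) hI hI₁ isUnit_qv
      (S.prime_Sig q.1 q.2).1.one_lt hdiag htri hold hrk'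
    have := comp_isPrime (ρ := Fin S.m ⊕ Fin g) ht
    refine hcon t ht (D.ker_old_le hsupp ?_)
    have h := trace_mul_notMem_comp (ρ := Fin S.m ⊕ Fin g) isUnit_qv ht htq
      ((q.1 : O) + 1) (-((q.1 : O) + 1))
    rwa [map_neg MvPowerSeries.C, sub_neg_eq_add] at h
  · have ht₁ := valid_update_unr ht htq (cong_sig0 q hunr) (isUnit_qv q)
    exact hcon _ ht₁ (ker_old_le_comp_unr (L := S.localData) (ρ := Fin S.m ⊕ Fin g) e
      (isScalarLift_emptyAct Pt.j) (isIntegral_paramHom isUnit_qv ee) hI hI₁ isUnit_qv hj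
      (S.prime_Sig q.1 q.2).1.one_lt hdiag htri hold hrk' htq ht ht₁ hsupp)

end System

variable {S : Setup O} {Q : Type} [DecidableEq Q] {emb : Q → ↥S.Sig} {bad : Finset ℕ}
  {AtP : ∀ (B : Type) [CommRing B] [IsLocalRing B] [Algebra O B], (GQ →* M2 B) → Prop}

/-- A level with a nonzero module has separating lifts. -/
theorem BaseTower.nonempty_pts (base : BaseTower S Q emb bad AtP) (U : Finset Q)
    (hU : base.rk U ≠ 0) : Nonempty (base.sep U).pts.J := by
  by_contra hJ
  rw [not_nonempty_iff] at hJ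
  have h01 : (1 : base.A U) = 0 :=
    (base.sep U).ev_injective (funext fun j => (IsEmpty.false j).elim)
  have : Subsingleton (base.M U) := ⟨fun x y => by
    have h : ∀ z, z = (0 : base.M U) := fun z => by
      have h1 := congrArg (fun f => f z) (congrArg (base.act U) h01)
      simpa using h1
    rw [h x, h y]⟩
  exact hU Module.finrank_zero_of_subsingleton

variable [Fintype Q]

/-- Inertia at `q` minus one has half residual rank on two copies of the module of the level. -/
def HalfRankAt (base : BaseTower S Q emb bad AtP) (U : Finset Q) (q : ↥S.Sig) : Prop :=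
  ∀ (C₀ : Carried S.rb S.cyc) (f : C₀.R →ₐ[O] base.A U),
    (∀ ℓ : ℕ, ℓ.Prime → ℓ ∉ bad → ∀ P : ValuationSubring Qb, P.LiesOverPrime ℓ →
      ∀ σ : GQ, P.IsFrobeniusAt σ ℓ → f (C₀.rR σ).trace = base.T U ℓ) →
    ∀ (m : ℕ) (b : Module.Basis (Fin m) O (base.M U)),
      ((blockAct ((basisAct base.toHeckeLevels U b).comp f).toRingHom
        (C₀.rR (S.tame q) - 1)).map (residue O)).rank = m

/-- **A residual system at a level is old at a residually unramified prime of half rank.** -/
theorem false_of_tower_mono [CharZero O] [Fact (S.m = 4)] (base : BaseTower S Q emb bad AtP)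
    (U : Finset Q) (hU : base.rk U ≠ 0) (q : ↥S.Sig) (hres : S.rb (S.tame q) = 1) (hmono : HalfRankAt base U q)
    (hcycΦ : ∀ q : ↥S.Sig, S.cyc (S.Φ q) = (q.1 : O))
    (hcycs : ∀ q : ↥S.Sig, S.cyc (S.tame q) = 1)
    (hspan : Submodule.span (ResidueField O) (Set.range S.rb) = ⊤)
    (F : Frame O) (hF : F.Adapted S.rb) (hup : ∃ σ, S.rb σ 0 1 ≠ 0)
    (hAtP : ∀ (P : PointSet S.rb S.cyc) (M : P.Model), (∀ j, AtP (P.B j) (P.r j)) →
      ∀ t : ↥(tangent M.π O), S.Cp (tgVal M.rR S.rb t))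
    (htw : ∃ r : ℕ, ∀ n : ℕ, ∃ (D : S.TWSet r n) (ab : Fin r → ResidueField O),
      (∀ i, ab i * ab i - (S.rb (D.φ i)).trace * ab i + (S.rb (D.φ i)).det = 0) ∧
      (∀ i, D.qv i ∉ S.T) ∧ Nonempty (DepthTower base D ab)) :
    False := by
  classical
  obtain ⟨rr, hr⟩ := htw
  have := base.nonempty_pts U hU
  have hE : ∀ j, S.BaseAllowed AtP ((base.sep U).pts.B j) ((base.sep U).pts.r j) :=
    fun j => (base.sep U).good j
  obtain ⟨B⟩ := nonempty_baseSide base (base.sep U).pts F hF hup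
  have hin : ∀ n, Nonempty (S.LevelInput B.M₀.toCarried (tdim base.rk) tsrc ttgt B.act₀ rr n) :=
    fun n => by
      obtain ⟨D, ab, hab, hqv, ⟨dep⟩⟩ := hr n
      exact ⟨(exists_input B hspan F hF hup hAtP hE D ab hab hqv dep).choose⟩
  let inp := fun n => (hin n).some
  obtain ⟨g, hg⟩ : ∃ g, g + 1 = rr + S.Sig.card :=
    ⟨rr + S.Sig.card - 1, by have := Finset.card_pos.mpr ⟨q.1, q.2⟩; omega⟩
  exact false_of_half_rank hg inp hcycΦ hcycs (.inl U) hU q hres
    (hmono B.M₀.toCarried (B.f₀ U) (fun ℓ hℓ hℓb P hP σ hσ => B.f₀_frob U hℓ (Or.inl hℓb) hP hσ)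
      _ (B.b U))

end Setup

end FA.RT
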