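import Fermat.Agent.RT.Tower.Blocks

/-!
# Matrices of a module with an old part and the quotient by it
-/

set_option autoImplicit false
set_option linter.unusedSectionVars false

noncomputable section

open IsLocalRing Matrix

namespace FA.RT

variable {O Λ : Type} [CommRing O] [CommRing Λ] [Algebra O Λ]

section MatAct

variable {M : Type} [AddCommGroup M] [Module O M] [Module Λ M] [IsScalarTower O Λ M] {A : Type}
  [CommRing A] [Algebra O A] {m : ℕ}

/-- The matrices of an action in a basis. -/
def matAct (b : Module.Basis (Fin m) Λ M) (act : A →ₐ[O] Module.End Λ M) :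
    A →ₐ[O] Matrix (Fin m) (Fin m) Λ :=
  ((LinearMap.toMatrixAlgEquiv b).toAlgHom.restrictScalars O).comp act

theorem matAct_eq (b : Module.Basis (Fin m) Λ M) (act : A →ₐ[O] Module.End Λ M) (z : A) :
    matAct b act z = LinearMap.toMatrix b b (act z) := rfl

/-- Elements acting as scalars. -/
theorem matAct_eq_scalar (b : Module.Basis (Fin m) Λ M) (act : A →ₐ[O] Module.End Λ M) {z : A}
    {c : Λ} (h : ∀ v, act z v = c • v) : matAct b act z = Matrix.scalar _ c := by
  refine Matrix.ext fun i j => ?_
  rw [matAct_eq, LinearMap.toMatrix_apply, h, map_smul, Module.Basis.repr_self,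
    Finsupp.smul_single, Finsupp.single_apply, smul_eq_mul, mul_one, Matrix.scalar_apply,
    Matrix.diagonal_apply]
  simp only [eq_comm]

/-- Two copies of an action. -/
def diagEnd : Module.End Λ M →ₐ[O] Module.End Λ (M × M) where
  toFun f := f.prodMap f
  map_one' := LinearMap.ext fun _ => rfl
  map_mul' _ _ := LinearMap.ext fun _ => rfl
  map_zero' := LinearMap.ext fun _ => rfl
  map_add' _ _ := LinearMap.ext fun _ => rfl
  commutes' _ := LinearMap.ext fun _ => rfl

/-- The basis of two copies. -/
def pairBasis (b : Module.Basis (Fin m) Λ M) : Module.Basis (Fin (m + m)) Λ (M × M) :=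
  (b.prod b).reindex finSumFinEquiv

theorem pairBasis_inl (b : Module.Basis (Fin m) Λ M) (u : Fin m) :
    pairBasis b (finSumFinEquiv (Sum.inl u)) = (b u, 0) := by
  rw [pairBasis, Module.Basis.reindex_apply, Equiv.symm_apply_apply]
  exact Prod.ext (Module.Basis.prod_apply_inl_fst _ _ u) (Module.Basis.prod_apply_inl_snd _ _ u)

theorem pairBasis_inr (b : Module.Basis (Fin m) Λ M) (u : Fin m) :
    pairBasis b (finSumFinEquiv (Sum.inr u)) = (0, b u) := by
  rw [pairBasis, Module.Basis.reindex_apply, Equiv.symm_apply_apply]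
  exact Prod.ext (Module.Basis.prod_apply_inr_fst _ _ u) (Module.Basis.prod_apply_inr_snd _ _ u)

end MatAct

section Quot

variable {M N : Type} [AddCommGroup M] [Module Λ M] [AddCommGroup N] [Module Λ N] {a c m : ℕ}

/-- A basis extending the image of a basis gives a basis of the quotient by the image. -/
theorem exists_quotBasis (f : N →ₗ[Λ] M) (bN : Module.Basis (Fin a) Λ N)
    (b : Module.Basis (Fin m) Λ M) (e : Fin a ⊕ Fin c ≃ Fin m)
    (h : ∀ v, b (e (.inl v)) = f (bN v)) :
    ∃ bq : Module.Basis (Fin c) Λ (M ⧸ LinearMap.range f),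
      ∀ w, bq w = Submodule.Quotient.mk (b (e (.inr w))) := by
  classical
  let g : M →ₗ[Λ] (Fin c → Λ) := LinearMap.pi fun w => (Finsupp.lapply (e (.inr w))).comp b.repr.toLinearMap
  have hker : LinearMap.range f ≤ LinearMap.ker g := by
    rintro _ ⟨x, rfl⟩
    rw [LinearMap.mem_ker, ← bN.sum_repr x, map_sum, map_sum]
    refine Finset.sum_eq_zero fun v _ => ?_
    rw [map_smul, map_smul, ← h]
    refine smul_eq_zero_of_right _ (funext fun w => ?_)
    show b.repr (b (e (.inl v))) (e (.inr w)) = 0
    rw [Module.Basis.repr_self, Finsupp.single_eq_of_ne (by simp [e.apply_eq_iff_eq])]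
  let back : (Fin c → Λ) →ₗ[Λ] M ⧸ LinearMap.range f :=
    (Submodule.mkQ _).comp (Fintype.linearCombination Λ fun w => b (e (.inr w)))
  let gq : (M ⧸ LinearMap.range f) →ₗ[Λ] (Fin c → Λ) := Submodule.liftQ _ g hker
  have h1 : gq.comp back = LinearMap.id := by
    refine LinearMap.pi_ext' fun w => LinearMap.ext_ring (funext fun w' => ?_)
    simp [gq, back, g, Module.Basis.repr_self, Finsupp.single_apply, Pi.single_apply, eq_comm,
      Fintype.linearCombination_apply_single]
  have h2 : back.comp gq = LinearMap.id := by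
    refine Submodule.linearMap_qext _ (b.ext fun i => ?_)
    obtain ⟨x, rfl⟩ := e.surjective i
    rcases x with v | w
    · have : Submodule.Quotient.mk (p := LinearMap.range f) (b (e (.inl v))) = 0 :=
        (Submodule.Quotient.mk_eq_zero _).mpr ⟨bN v, (h v).symm⟩
      simp [this]
    · have : g (b (e (.inr w))) = Pi.single w 1 := funext fun w' => by
        simp [g, Module.Basis.repr_self, Finsupp.single_apply, Pi.single_apply, eq_comm]
      simp [gq, back, this, Fintype.linearCombination_apply_single]
  refine ⟨Module.Basis.ofEquivFun (LinearEquiv.ofLinear gq back h1 h2), fun w => ?_⟩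
  rw [Module.Basis.coe_ofEquivFun]
  show back (Pi.single w 1) = _
  simp [back, Fintype.linearCombination_apply_single]

/-- The matrix of a map sending basis vectors to basis vectors. -/
theorem toMatrix_mapsTo {ι ι' : Type} [Fintype ι] [Fintype ι'] [DecidableEq ι] [DecidableEq ι']
    (bN : Module.Basis ι Λ N) (b : Module.Basis ι' Λ M) (f : N →ₗ[Λ] M) (v : ι) (i : ι')
    (hv : f (bN v) = b i) (i' : ι') :
    LinearMap.toMatrix bN b f i' v = if i' = i then 1 else 0 := by
  rw [LinearMap.toMatrix_apply, hv, Module.Basis.repr_self, Finsupp.single_apply]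
  simp only [eq_comm]

end Quot

section Block

variable {a c m : ℕ} (e : Fin a ⊕ Fin c ≃ Fin m) {X : Matrix (Fin m) (Fin m) Λ}

/-- Commuting with the inclusion of the old coordinates. -/
theorem block_of_incl {P : Matrix (Fin m) (Fin a) Λ}
    (hP : ∀ i v, P i v = if i = e (.inl v) then 1 else 0) {Y : Matrix (Fin a) (Fin a) Λ}
    (h : P * Y = X * P) (x : Fin a ⊕ Fin c) (v : Fin a) :
    X (e x) (e (.inl v)) = Sum.elim (fun u => Y u v) (fun _ => 0) x := by
  have h1 := congrFun (congrFun h (e x)) v
  simp only [Matrix.mul_apply, hP, mul_ite, mul_one, mul_zero, ite_mul, one_mul, zero_mul] at h1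
  rw [Finset.sum_ite_eq' Finset.univ (e (.inl v)), if_pos (Finset.mem_univ _)] at h1
  rw [← h1]
  rcases x with u | w <;> simp [e.apply_eq_iff_eq]

/-- Commuting with the projection to the new coordinates. -/
theorem block_of_proj {P : Matrix (Fin c) (Fin m) Λ}
    (hP : ∀ w i, P w i = if i = e (.inr w) then 1 else 0) {Z : Matrix (Fin c) (Fin c) Λ}
    (h : P * X = Z * P) (w : Fin c) (x : Fin a ⊕ Fin c) :
    X (e (.inr w)) (e x) = Sum.elim (fun _ => 0) (fun w' => Z w w') x := by
  have h1 := congrFun (congrFun h w) (e x)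
  simp only [Matrix.mul_apply, hP, mul_ite, mul_one, mul_zero, ite_mul, one_mul, zero_mul] at h1
  rw [Finset.sum_ite_eq' Finset.univ (e (.inr w)), if_pos (Finset.mem_univ _)] at h1
  rw [h1]
  rcases x with u | w' <;> simp [e.apply_eq_iff_eq]

end Block

end FA.RT
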