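import Fermat.Agent.RT.Tower.Lift
import Fermat.Agent.RT.Tower.PBlocks
import Fermat.Agent.RT.Tower.PDefs

/-!
# The inputs of the patching system from a tower with old parts at `p`

Besides the indices of a tower: every level in a basis adapted to its old part at `p`, the old part
and the quotient by it. The changes of basis, the inclusion and the projection are maps of the
system, so the blocks at `p` follow from their intertwining.
-/

set_option autoImplicit false
set_option linter.unusedSectionVars false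

noncomputable section

open IsLocalRing Matrix FA.Deform FA.TW FA.LocalDef FA.Patch

namespace FA.RT

local notation "Qb" => AlgebraicClosure ℚ
local notation "GQ" => AlgebraicClosure ℚ ≃ₐ[ℚ] AlgebraicClosure ℚ
local notation "M2" => Matrix (Fin 2) (Fin 2)

section Index

variable (Q : Type) [DecidableEq Q]

/-- Three copies of the levels: adapted at `p`, old part, new part. -/
abbrev PPart : Type := Finset Q ⊕ (Finset Q ⊕ Finset Q)

/-- The indices of the levels and their parts. -/
abbrev UIdx : Type := TIdx Q ⊕ PPart Q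

/-- The maps: those of the tower, change of basis, inclusion and projection. -/
abbrev UKap : Type := ({U : Finset Q // U.Nonempty} × Bool) ⊕ PPart Q

variable {Q} (d dF : Finset Q → ℕ)

/-- The dimensions. -/
def udim : UIdx Q → ℕ
  | .inl i => tdim d i
  | .inr (.inl U) => d U
  | .inr (.inr (.inl U)) => dF U + dF U
  | .inr (.inr (.inr U)) => d U - (dF U + dF U)

/-- The sources. -/
def usrc : UKap Q → UIdx Q
  | .inl t => .inl (tsrc t)
  | .inr (.inl U) => .inl (.inl U)
  | .inr (.inr (.inl U)) => .inr (.inr (.inl U))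
  | .inr (.inr (.inr U)) => .inr (.inl U)

/-- The targets. -/
def utgt : UKap Q → UIdx Q
  | .inl t => .inl (ttgt t)
  | .inr (.inl U) => .inr (.inl U)
  | .inr (.inr (.inl U)) => .inr (.inl U)
  | .inr (.inr (.inr U)) => .inr (.inr (.inr U))

/-- The old coordinates and the new ones. -/
def psplit (hd : ∀ U, dF U + dF U ≤ d U) (U : Finset Q) :
    Fin (dF U + dF U) ⊕ Fin (d U - (dF U + dF U)) ≃ Fin (d U) :=
  finSumFinEquiv.trans (finCongr (Nat.add_sub_cancel' (hd U)))

end Index

/-- Matrices of intertwined actions. -/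
theorem toMatrix_intertwine {O Λ : Type} [CommRing O] [CommRing Λ] [Algebra O Λ]
    {M : Type} [AddCommGroup M] [Module O M] [Module Λ M] [IsScalarTower O Λ M] {A : Type}
    [CommRing A] [Algebra O A] {m : ℕ} (b : Module.Basis (Fin m) Λ M)
    (act : A →ₐ[O] Module.End Λ M) {M' : Type} [AddCommGroup M'] [Module O M'] [Module Λ M']
    [IsScalarTower O Λ M'] {A' : Type} [CommRing A'] [Algebra O A'] {m' : ℕ}
    (b' : Module.Basis (Fin m') Λ M') (act' : A' →ₐ[O] Module.End Λ M') (f : M →ₗ[Λ] M') {z : A}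
    {z' : A'} (h : ∀ v, f (act z v) = act' z' (f v)) :
    LinearMap.toMatrix b b' f * matAct b act z = matAct b' act' z' * LinearMap.toMatrix b b' f := by
  rw [matAct_eq, matAct_eq, ← LinearMap.toMatrix_comp, ← LinearMap.toMatrix_comp]
  exact congrArg _ (LinearMap.ext h)

namespace PLevels

variable {O Λ : Type} [CommRing O] [CommRing Λ] [Algebra O Λ] {Q : Type} [DecidableEq Q]
  {qn : Q → ℕ} {bad : Finset ℕ} {H : HeckeLevels O Λ Q qn bad} (P : PLevels H)
  {d dF : Finset Q → ℕ} (b : ∀ U, Module.Basis (Fin (d U)) Λ (H.M U))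
  (bF : ∀ U, Module.Basis (Fin (dF U)) Λ (P.MF U))
  (bq : ∀ U, Module.Basis (Fin (d U - (dF U + dF U))) Λ (H.M U ⧸ LinearMap.range (P.upP U)))

/-- The matrices on two copies of a level without `p`. -/
def oldAct (U : Finset Q) : P.AF U →ₐ[O] Matrix (Fin (dF U + dF U)) (Fin (dF U + dF U)) Λ :=
  matAct (pairBasis (bF U)) (diagEnd.comp (P.actF U))

/-- The matrices on the quotient by the old part. -/
def newPAct (U : Finset Q) : P.AS U →ₐ[O]
    Matrix (Fin (d U - (dF U + dF U))) (Fin (d U - (dF U + dF U))) Λ :=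
  matAct (bq U) (P.actS U)

theorem incl_toMatrix (U : Finset Q) {ℓ : ℕ} (hℓ : ℓ.Prime) (hℓb : ℓ ∉ bad) :
    LinearMap.toMatrix (pairBasis (bF U)) (b U) (P.upP U) * P.oldAct bF U (P.TF U ℓ) =
      levAct H b U (H.T U ℓ) * LinearMap.toMatrix (pairBasis (bF U)) (b U) (P.upP U) :=
  toMatrix_intertwine _ _ _ (H.act U) _ fun z => P.upP_comm U ℓ hℓ hℓb z.1 z.2

theorem proj_toMatrix (U : Finset Q) {ℓ : ℕ} (hℓ : ℓ.Prime) (hℓb : ℓ ∉ bad) :
    LinearMap.toMatrix (b U) (bq U) (Submodule.mkQ (LinearMap.range (P.upP U))) *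
        levAct H b U (H.T U ℓ) =
      P.newPAct bq U (P.TS U ℓ) *
        LinearMap.toMatrix (b U) (bq U) (Submodule.mkQ (LinearMap.range (P.upP U))) :=
  toMatrix_intertwine _ (H.act U) _ _ _ fun v => (P.actS_mk U ℓ hℓ hℓb v).symm

variable {bF} in
theorem inclMat_apply {U : Finset Q} (e : Fin (dF U + dF U) ⊕ Fin (d U - (dF U + dF U)) ≃ Fin (d U))
    (hb : ∀ v, b U (e (.inl v)) = P.upP U (pairBasis (bF U) v)) (i : Fin (d U))
    (v : Fin (dF U + dF U)) :
    LinearMap.toMatrix (pairBasis (bF U)) (b U) (P.upP U) i v = if i = e (.inl v) then 1 else 0 :=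
  toMatrix_mapsTo _ _ _ v _ (hb v).symm i

variable {bF bq} in
theorem projMat_apply {U : Finset Q} (e : Fin (dF U + dF U) ⊕ Fin (d U - (dF U + dF U)) ≃ Fin (d U))
    (hb : ∀ v, b U (e (.inl v)) = P.upP U (pairBasis (bF U) v))
    (hbq : ∀ v, bq U v = Submodule.Quotient.mk (b U (e (.inr v))))
    (v : Fin (d U - (dF U + dF U))) (i : Fin (d U)) :
    LinearMap.toMatrix (b U) (bq U) (Submodule.mkQ (LinearMap.range (P.upP U))) v i =
      if i = e (.inr v) then 1 else 0 := by
  obtain ⟨x, rfl⟩ := e.surjective i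
  rcases x with u | u
  · rw [LinearMap.toMatrix_apply, Submodule.mkQ_apply, hb,
      (Submodule.Quotient.mk_eq_zero _).mpr (LinearMap.mem_range_self _ _), map_zero,
      if_neg (by simp [e.apply_eq_iff_eq])]
    rfl
  · rw [toMatrix_mapsTo _ _ _ _ u (hbq u).symm v]
    simp [e.apply_eq_iff_eq, eq_comm]

end PLevels

variable {O : Type} [CommRing O] [IsDomain O] [IsDiscreteValuationRing O]
  [IsAdicComplete (maximalIdeal O) O]

/-- A single lift as a family. -/
def Setup.ZeroPoint.single {S : Setup O} (w : Setup.ZeroPoint S) : PointSet S.rb S.cyc where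
  J := Unit
  B _ := O
  r _ := w.r
  ε _ := residue O
  ε_algebraMap _ _ := rfl
  lift _ := w.lift
  cont _ := w.cont
  det _ σ := w.det σ

/-- A carried algebra maps onto the model of a family of its homomorphisms. -/
theorem PointSet.Model.exists_quot {rb : GQ →* M2 (ResidueField O)} {cyc : GQ → O}
    {P : PointSet rb cyc} (M : P.Model) (C : Carried rb cyc) (g : ∀ j, C.R →ₐ[O] P.B j)
    (hg : ∀ j σ, g j (C.rR σ).trace = (P.r j σ).trace) :
    ∃ π : C.R →ₐ[O] M.R, Function.Surjective π ∧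
      (∀ σ, π (C.rR σ).trace = (M.rR σ).trace) ∧ ∀ j x, M.proj j (π x) = g j x := by
  let Φ : M.R →ₐ[O] ∀ j, P.B j := AlgHom.pi M.proj
  have hΦ : Function.Injective Φ := (injective_iff_map_eq_zero Φ).mpr fun x hx =>
    M.proj_injective x fun j => congrFun hx j
  let G : C.R →ₐ[O] ∀ j, P.B j := AlgHom.pi g
  have htr : ∀ σ, G (C.rR σ).trace = Φ (M.rR σ).trace := fun σ => funext fun j => by
    show g j (C.rR σ).trace = M.proj j (M.rR σ).trace
    rw [hg, M.proj_trace]
  have hrange : ∀ x, G x ∈ Φ.range := fun x => by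
    have hx : x ∈ Algebra.adjoin O (Set.range fun σ => (C.rR σ).trace) := by
      rw [C.generated]; exact Algebra.mem_top
    exact (Algebra.adjoin_le (S := Φ.range.comap G)
      (by rintro _ ⟨σ, rfl⟩; exact ⟨_, (htr σ).symm⟩)) hx
  let π : C.R →ₐ[O] M.R := (AlgEquiv.ofInjective Φ hΦ).symm.toAlgHom.comp (G.codRestrict _ hrange)
  have hπ : ∀ x, Φ (π x) = G x := fun x =>
    congrArg Subtype.val ((AlgEquiv.ofInjective Φ hΦ).apply_symm_apply ⟨G x, hrange x⟩)
  have htr' : ∀ σ, π (C.rR σ).trace = (M.rR σ).trace := fun σ => hΦ (by rw [hπ, htr])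
  refine ⟨π, fun y => ?_, htr', fun j x => congrFun (hπ x) j⟩
  have hy : y ∈ Algebra.adjoin O (Set.range fun σ => (M.rR σ).trace) := by
    rw [M.toCarried.generated]; exact Algebra.mem_top
  exact (Algebra.adjoin_le (S := π.range) (by rintro _ ⟨σ, rfl⟩; exact ⟨_, htr' σ⟩)) hy

/-- The quotient for a disjoint union of families. -/
theorem PointSet.exists_sigma_quot {rb : GQ →* M2 (ResidueField O)} {cyc : GQ → O} {ι : Type}
    [Finite ι] [Nonempty ι] (f : ι → PointSet rb cyc) (M : (PointSet.sigma f).Model)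
    (C : Carried rb cyc) (g : ∀ i j, C.R →ₐ[O] (f i).B j)
    (hg : ∀ i j σ, g i j (C.rR σ).trace = ((f i).r j σ).trace) :
    ∃ π : C.R →ₐ[O] M.R, Function.Surjective π ∧
      (∀ σ, π (C.rR σ).trace = (M.rR σ).trace) ∧
      ∀ x ∈ RingHom.ker π, ∀ i j, g i j x = 0 := by
  obtain ⟨π, h1, h2, h3⟩ := M.exists_quot C (fun j => g j.1 j.2) fun j σ => hg j.1 j.2 σ
  refine ⟨π, h1, h2, fun x hx i j => ?_⟩
  let ij : (PointSet.sigma f).J := ⟨i, j⟩
  have h := h3 ij x
  rw [RingHom.mem_ker.mp hx] at h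
  exact h.symm.trans (map_zero (M.proj ij))

/-- The quotient for a family with one more family. -/
theorem PointSet.exists_option_quot {rb : GQ →* M2 (ResidueField O)} {cyc : GQ → O} {ι : Type}
    [Finite ι] (P₀ : PointSet rb cyc) (f : ι → PointSet rb cyc)
    (M : (PointSet.sigma fun o : Option ι => o.elim P₀ f).Model)
    (C : Carried rb cyc) (g₀ : ∀ j, C.R →ₐ[O] P₀.B j)
    (hg₀ : ∀ j σ, g₀ j (C.rR σ).trace = (P₀.r j σ).trace) (g : ∀ i j, C.R →ₐ[O] (f i).B j)
    (hg : ∀ i j σ, g i j (C.rR σ).trace = ((f i).r j σ).trace) :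
    ∃ π : C.R →ₐ[O] M.R, Function.Surjective π ∧
      (∀ σ, π (C.rR σ).trace = (M.rR σ).trace) ∧
      ∀ x ∈ RingHom.ker π, (∀ j, g₀ j x = 0) ∧ ∀ i j, g i j x = 0 := by
  obtain ⟨π, h1, h2, h3⟩ := PointSet.exists_sigma_quot _ M C
    (fun o => match o with | none => g₀ | some i => g i)
    (fun o => match o with | none => hg₀ | some i => hg i)
  exact ⟨π, h1, h2, fun x hx => ⟨fun j => h3 x hx none j, fun i j => h3 x hx (some i) j⟩⟩

/-- An algebra with separating values receives the carried algebra. -/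
theorem PointSet.Model.exists_hom_of_values {rb : GQ →* M2 (ResidueField O)} {cyc : GQ → O}
    [Finite (ResidueField O)] {S : PointSet rb cyc} (M : S.Model) {J' : Type} {B : J' → Type}
    [∀ j, CommRing (B j)] [∀ j, Algebra O (B j)] (g : ∀ j, M.R →ₐ[O] B j) {A : Type} [CommRing A]
    [Algebra O A] (ev : A →ₐ[O] ∀ j, B j) (hev : Function.Injective ev) (S₀ : Finset ℕ)
    (h : ∀ q : ℕ, q.Prime → q ∉ S₀ → ∀ P : ValuationSubring Qb, P.LiesOverPrime q →
      ∀ σ : GQ, P.IsFrobeniusAt σ q → ∃ a, ∀ j, ev a j = g j (M.rR σ).trace) :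
    ∃ f : M.R →ₐ[O] A, ∀ x j, ev (f x) j = g j x := by
  let G : M.R →ₐ[O] ∀ j, B j := AlgHom.pi g
  have hN : ev.range.comap G = ⊤ := M.eq_top_of_frobenius _ S₀ fun q hq hq0 P hP σ hσ k => by
    rw [map_pow]
    refine trace_pow_mem _ _ ?_ ?_ k
    · obtain ⟨a, ha⟩ := h q hq hq0 P hP σ hσ
      exact ⟨a, funext ha⟩
    · rw [M.det]; exact Subalgebra.algebraMap_mem _ _
  have htop : ∀ x, G x ∈ ev.range := fun x => (hN ▸ Algebra.mem_top : x ∈ ev.range.comap G)
  refine ⟨((AlgEquiv.ofInjective ev hev).symm : ev.range →ₐ[O] A).comp (G.codRestrict _ htop),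
    fun x j => congrFun (congrArg Subtype.val
      ((AlgEquiv.ofInjective ev hev).apply_symm_apply ⟨G x, htop x⟩)) j⟩

namespace Setup

variable [Finite (ResidueField O)] {S : Setup O}

section Restrict

variable {C₀ : Carried S.rb S.cyc} {ι κ ι' κ' : Type} {d : ι' → ℕ} {src tgt : κ → ι}
  {src' tgt' : κ' → ι'} {act₀ : ∀ i, C₀.R →ₐ[O] Matrix (Fin (d i)) (Fin (d i)) O} {r n : ℕ}
  (f : ι → ι') (g : κ → κ') (hs : ∀ t, src' (g t) = f (src t)) (ht : ∀ t, tgt' (g t) = f (tgt t))

/-- An input on fewer indices and maps. -/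
def LevelInput.restrict (I : S.LevelInput C₀ d src' tgt' act₀ r n) :
    S.LevelInput C₀ (fun i => d (f i)) src tgt (fun i => act₀ (f i)) r n where
  D := I.D
  C := I.C
  L := I.L
  unr := I.unr
  atP := I.atP
  tame_trace := I.tame_trace
  π := I.π
  π_surjective := I.π_surjective
  π_conj := I.π_conj
  base_unr := I.base_unr
  act i := I.act (f i)
  act_delta i := I.act_delta (f i)
  maps t := (I.maps (g t)).submatrix (finCongr (congrArg d (ht t)).symm)
    (finCongr (congrArg d (hs t)).symm)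
  intertwine t x := by
    have key : ∀ (a a' : ι') (A : haveI : NeZero S.p := ⟨S.hp.ne_zero⟩
        Matrix (Fin (d a')) (Fin (d a)) (MonoidAlgebra O (DGroup S.p I.D.expo)))
        (b b' : ι') (hb : a = b) (hb' : a' = b'), A * I.act a x = I.act a' x * A →
        A.submatrix (finCongr (congrArg d hb').symm) (finCongr (congrArg d hb).symm) * I.act b x =
          I.act b' x * A.submatrix (finCongr (congrArg d hb').symm) (finCongr (congrArg d hb).symm) := by
      rintro a a' A b b' rfl rfl h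
      simpa using h
    exact key _ _ _ _ _ (hs t) (ht t) (I.intertwine (g t) x)
  act_base i := I.act_base (f i)

end Restrict

variable {Q : Type} [DecidableEq Q] [Fintype Q] {emb : Q → ↥S.Sig} {bad : Finset ℕ}
  {AtP : ∀ (B : Type) [CommRing B] [IsLocalRing B] [Algebra O B], (GQ →* M2 B) → Prop}
  {base : BaseTower S Q emb bad AtP}
  {GoodF GoodS : ∀ (B : Type) [CommRing B] [IsLocalRing B] [Algebra O B], (GQ →* M2 B) → Prop}

/-- The rank of the old part. -/
abbrev PBase.rkF (pb : PBase base GoodF GoodS) (U : Finset Q) : ℕ := Module.finrank O (pb.MF U)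

theorem PBase.add_rkF_le (pb : PBase base GoodF GoodS) (U : Finset Q) :
    pb.rkF U + pb.rkF U ≤ base.rk U := by
  have := (exists_adapted_basis (pb.upP U) (pb.upP_residual U)
    (Module.finBasisOfFinrankEq O (pb.MF U) rfl)).1
  rw [two_mul] at this
  exact this

/-- The given lifts and those of all parts at the base. -/
def unionExtra (pb : PBase base GoodF GoodS) (w' w : ZeroPoint S) : PointSet S.rb S.cyc :=
  PointSet.sigma fun o : Option (Finset Q ⊕ Finset Q) => o.elim (twoPoints w' w)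
    (Sum.elim (fun U => (pb.sepF U).pts) fun U => (pb.sepS U).pts)

theorem allowed_unionExtra (pb : PBase base GoodF GoodS) {w' w : ZeroPoint S}
    (hw' : S.BaseAllowed AtP O w'.r) (hw : S.BaseAllowed AtP O w.r)
    (j : (unionExtra pb w' w).J) :
    S.BaseAllowed AtP ((unionExtra pb w' w).B j) ((unionExtra pb w' w).r j) := by
  obtain ⟨(_ | U | U), j⟩ := j
  · rcases j with _ | _
    · exact hw
    · exact hw'
  · exact ((pb.sepF U).good j).1
  · exact ((pb.sepS U).good j).1

variable {pb : PBase base GoodF GoodS} {w' w : ZeroPoint S}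

/-- The index of the point `w`. -/
def wIdx : (unionExtra pb w' w).J := ⟨none, false⟩


/-- The base: the carried algebra acts on every part, in bases adapted at `p`. -/
structure PSide (B : BaseSide base (unionExtra pb w' w)) where
  /-- the map to the old part -/
  fF : ∀ U, B.M₀.R →ₐ[O] pb.AF U
  ev_fF : ∀ U σ j, (pb.sepF U).ev (fF U (B.M₀.rR σ).trace) j = ((pb.sepF U).pts.r j σ).trace
  /-- the map to the new part -/
  fS : ∀ U, B.M₀.R →ₐ[O] pb.AS U
  ev_fS : ∀ U σ j, (pb.sepS U).ev (fS U (B.M₀.rR σ).trace) j = ((pb.sepS U).pts.r j σ).trace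
  /-- bases of the levels without `p` -/
  bF : ∀ U, Module.Basis (Fin (pb.rkF U)) O (pb.MF U)
  /-- bases adapted at `p` -/
  b' : ∀ U, Module.Basis (Fin (base.rk U)) O (base.M U)
  b'_inl : ∀ U v, b' U (psplit base.rk pb.rkF pb.add_rkF_le U (.inl v)) =
    pb.upP U (pairBasis (bF U) v)
  /-- bases of the quotients -/
  bq : ∀ U, Module.Basis (Fin (base.rk U - (pb.rkF U + pb.rkF U))) O
    (base.M U ⧸ LinearMap.range (pb.upP U))
  bq_eq : ∀ U v, bq U v =
    Submodule.Quotient.mk (b' U (psplit base.rk pb.rkF pb.add_rkF_le U (.inr v)))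

theorem nonempty_pSide (F : Frame O) (hF : F.Adapted S.rb) (hup : ∃ σ, S.rb σ 0 1 ≠ 0)
    (B : BaseSide base (unionExtra pb w' w)) : Nonempty (PSide B) := by
  classical
  choose fF hfF using fun U => B.M₀.exists_hom_of_values
    (fun j : (pb.sepF U).pts.J =>
      (B.pe ⟨some (.inl U), j⟩ : B.M₀.R →ₐ[O] (pb.sepF U).pts.B j))
    (pb.sepF U).ev (pb.sepF U).ev_injective bad fun q hq hqb P hP σ hσ =>
      ⟨pb.TF U q, fun j => ((pb.sepF U).ev_T q hq hqb P hP σ hσ j).trans
        (B.pe_trace ⟨some (.inl U), j⟩ σ).symm⟩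
  choose fS hfS using fun U => B.M₀.exists_hom_of_values
    (fun j : (pb.sepS U).pts.J =>
      (B.pe ⟨some (.inr U), j⟩ : B.M₀.R →ₐ[O] (pb.sepS U).pts.B j))
    (pb.sepS U).ev (pb.sepS U).ev_injective bad fun q hq hqb P hP σ hσ =>
      ⟨pb.TS U q, fun j => ((pb.sepS U).ev_T q hq hqb P hP σ hσ j).trans
        (B.pe_trace ⟨some (.inr U), j⟩ σ).symm⟩
  let bF := fun U => Module.finBasisOfFinrankEq O (pb.MF U) rfl
  have hb : ∀ U, ∃ b : Module.Basis (Fin (base.rk U)) O (base.M U),
      ∀ v, b (psplit base.rk pb.rkF pb.add_rkF_le U (.inl v)) = pb.upP U (pairBasis (bF U) v) := by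
    intro U
    obtain ⟨b, hb⟩ := (exists_adapted_basis (pb.upP U) (pb.upP_residual U) (bF U)).2
      ((finSumFinEquiv.sumCongr (finCongr (by rw [two_mul]))).trans
        (psplit base.rk pb.rkF pb.add_rkF_le U))
    refine ⟨b, fun v => ?_⟩
    obtain ⟨v, rfl⟩ := finSumFinEquiv.surjective v
    rcases v with v | v
    · rw [pairBasis_inl]; exact (hb v).1
    · rw [pairBasis_inr]; exact (hb v).2
  choose b' hb' using hb
  choose bq hbq using fun U =>
    exists_quotBasis (pb.upP U) (pairBasis (bF U)) (b' U) (psplit base.rk pb.rkF pb.add_rkF_le U)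
      (hb' U)
  exact ⟨{
    fF := fF
    ev_fF := fun U σ j => (hfF U _ j).trans (B.pe_trace ⟨some (.inl U), j⟩ σ)
    fS := fS
    ev_fS := fun U σ j => (hfS U _ j).trans (B.pe_trace ⟨some (.inr U), j⟩ σ)
    bF := bF
    b' := b'
    b'_inl := hb'
    bq := bq
    bq_eq := hbq }⟩

variable {B : BaseSide base (unionExtra pb w' w)} (Ps : PSide B)

/-- The actions at the base. -/
def PSide.act₀ : ∀ i : UIdx Q, B.M₀.R →ₐ[O]
    Matrix (Fin (udim base.rk pb.rkF i)) (Fin (udim base.rk pb.rkF i)) O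
  | .inl i => B.act₀ i
  | .inr (.inl U) => (levAct base.toHeckeLevels Ps.b' U).comp (B.f₀ U)
  | .inr (.inr (.inl U)) => (pb.toPLevels.oldAct Ps.bF U).comp (Ps.fF U)
  | .inr (.inr (.inr U)) => (pb.toPLevels.newPAct Ps.bq U).comp (Ps.fS U)

variable {r n : ℕ}

/-- One depth: the input, the ideals of the two kinds of lifts, and their properties. -/
structure PInput (loc : UnionLocal S GoodF GoodS) (r n : ℕ) where
  /-- the input -/
  I : S.LevelInput B.M₀.toCarried (udim base.rk pb.rkF) usrc utgt Ps.act₀ r n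
  /-- the ideal of the lifts of the old parts -/
  KF : Ideal I.C.R
  /-- the ideal of the lifts of the new parts -/
  KS : Ideal I.C.R
  facts : ∀ U, StepFacts B
    (I.restrict (src := tsrc) (tgt := ttgt) Sum.inl Sum.inl (fun _ => rfl) fun _ => rfl) U
  hold : ∀ (U : Finset Q) (x : Q), x ∉ U → ∀ a b,
    I.act (.inl (.inl U)) ((I.C.rR (S.tame (emb x)) - 1) a b) = 0
  chg : haveI : NeZero S.p := ⟨S.hp.ne_zero⟩
    ∀ U, ∃ (P : Matrix (Fin (udim base.rk pb.rkF (.inr (.inl U))))
        (Fin (udim base.rk pb.rkF (.inl (.inl U)))) (MonoidAlgebra O (DGroup S.p I.D.expo)))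
      (P' : Matrix (Fin (udim base.rk pb.rkF (.inl (.inl U))))
        (Fin (udim base.rk pb.rkF (.inr (.inl U)))) (MonoidAlgebra O (DGroup S.p I.D.expo))),
      P * P' = (1 : Matrix (Fin (udim base.rk pb.rkF (.inr (.inl U)))) _ _) ∧
        P' * P = (1 : Matrix (Fin (udim base.rk pb.rkF (.inl (.inl U)))) _ _) ∧
        ∀ z, P * I.act (.inl (.inl U)) z = I.act (.inr (.inl U)) z * P
  h₁₁ : ∀ U z u u', I.act (.inr (.inl U)) z (psplit base.rk pb.rkF pb.add_rkF_le U (.inl u))
    (psplit base.rk pb.rkF pb.add_rkF_le U (.inl u')) = I.act (.inr (.inr (.inl U))) z u u'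
  h₂₁ : ∀ U z v u, I.act (.inr (.inl U)) z (psplit base.rk pb.rkF pb.add_rkF_le U (.inr v))
    (psplit base.rk pb.rkF pb.add_rkF_le U (.inl u)) = 0
  h₂₂ : ∀ U z v v', I.act (.inr (.inl U)) z (psplit base.rk pb.rkF pb.add_rkF_le U (.inr v))
    (psplit base.rk pb.rkF pb.add_rkF_le U (.inr v')) = I.act (.inr (.inr (.inr U))) z v v'
  flat : ∀ U, ∀ z ∈ KF, I.act (.inr (.inr (.inl U))) z = 0
  strict : ∀ U, ∀ z ∈ KS, I.act (.inr (.inr (.inr U))) z = 0
  point : ∀ z ∈ KS, B.pe wIdx (I.π z) = 0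
  classF : ∀ t : ↥(tangent I.C.π O), (∀ z ∈ KF, t.1 z = 0) → loc.CF (tgVal I.C.rR S.rb t)
  classS : ∀ t : ↥(tangent I.C.π O), (∀ z ∈ KS, t.1 z = 0) → loc.CS (tgVal I.C.rR S.rb t)

variable (hspan : Submodule.span (ResidueField O) (Set.range S.rb) = ⊤)
  (F : Frame O) (hF : F.Adapted S.rb) (hup : ∃ σ, S.rb σ 0 1 ≠ 0)
  (hAtP : ∀ (P : PointSet S.rb S.cyc) (M : P.Model), (∀ j, AtP (P.B j) (P.r j)) →
    ∀ t : ↥(tangent M.π O), S.Cp (tgVal M.rR S.rb t))
  (hw' : S.BaseAllowed AtP O w'.r) (hw : S.BaseAllowed AtP O w.r) (hwS : GoodS O w.r)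
  (loc : UnionLocal S GoodF GoodS)

include hspan hF hup hAtP hw' hw hwS in
set_option maxHeartbeats 3200000 in
-- long assembly
/-- **The input at one depth.** -/
theorem nonempty_pInput (D : S.TWSet r n) (ab : Fin r → ResidueField O)
    (hab : ∀ i, ab i * ab i - (S.rb (D.φ i)).trace * ab i + (S.rb (D.φ i)).det = 0)
    (hqv : ∀ i, D.qv i ∉ S.T) (dep : DepthTower base D ab) (pd : PDepth pb dep) :
    Nonempty (PInput Ps loc r n) := by
  classical
  have : NeZero S.p := ⟨S.hp.ne_zero⟩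
  have : Fact S.p.Prime := ⟨S.hp⟩
  have hE := allowed_unionExtra pb hw' hw
  obtain ⟨c, hc, hred⟩ := dep.exists_basis base B.hb
  set bd : Finset ℕ := bad ∪ Finset.univ.image D.qv with hbd
  let aug := (MonoidAlgebra.lift O O (DGroup S.p D.expo) 1 :
    MonoidAlgebra O (DGroup S.p D.expo) →+* O)
  let pl := pd.plevels
  let e := psplit base.rk pb.rkF pb.add_rkF_le
  have hG : IsPGroup S.p (DGroup S.p D.expo) := by
    refine IsPGroup.of_card (n := ∑ i, D.expo i) ?_
    rw [Nat.card_pi, ← Finset.prod_pow_eq_pow_sum]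
    exact Finset.prod_congr rfl fun i _ => by
      rw [← Nat.card_congr Multiplicative.ofAdd, Nat.card_zmod]
  -- bases at this depth
  choose cF hcF' using fun U => exists_basis_of_aug S.hp S.hpO hG (pd.redF U) (pd.redF_smul U)
    (pd.rankF_eq U) (Ps.bF U) (fun i => Function.surjInv (pd.redF_surjective U) (Ps.bF U i))
    fun i => Function.surjInv_eq _ _
  have hcF : ∀ U i, pd.redF U (cF U i) = Ps.bF U i := fun U i => by
    rw [hcF']; exact Function.surjInv_eq _ _
  let red2 := fun U => (pd.redF U).prodMap (pd.redF U)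
  have hred2 : ∀ U i, red2 U (pairBasis (cF U) i) = pairBasis (Ps.bF U) i := by
    intro U i
    obtain ⟨u, rfl⟩ := finSumFinEquiv.surjective i
    rcases u with u | u
    · rw [pairBasis_inl, pairBasis_inl]; exact Prod.ext (hcF U u) (map_zero (pd.redF U))
    · rw [pairBasis_inr, pairBasis_inr]; exact Prod.ext (map_zero (pd.redF U)) (hcF U u)
  let v' : ∀ U, Fin (base.rk U) → dep.levels.M U := fun U i =>
    Sum.elim (fun v => pl.upP U (pairBasis (cF U) v))
      (fun v => Function.surjInv (dep.red_surjective U) (Ps.b' U (e U (.inr v)))) ((e U).symm i)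
  have hv' : ∀ U i, dep.red U (v' U i) = Ps.b' U i := fun U i => by
    obtain ⟨x, rfl⟩ := (e U).surjective i
    simp only [v', Equiv.symm_apply_apply]
    rcases x with v | v
    · rw [Sum.elim_inl, Ps.b'_inl, ← hred2 U v]
      exact pd.red_upP U _ _
    · rw [Sum.elim_inr]; exact Function.surjInv_eq _ _
  choose c' hc'v using fun U => exists_basis_of_aug S.hp S.hpO hG (dep.red U) (dep.red_smul U)
    (dep.rank_eq U) (Ps.b' U) (v' U) (hv' U)
  have hc'red : ∀ U i, dep.red U (c' U i) = Ps.b' U i := fun U i => by rw [hc'v]; exact hv' U i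
  have hc'inl : ∀ U v, c' U (e U (.inl v)) = pl.upP U (pairBasis (cF U) v) := fun U v => by
    rw [hc'v]; simp [v']
  choose cq hcq using fun U => exists_quotBasis (pl.upP U) (pairBasis (cF U)) (c' U) (e U) (hc'inl U)
  -- the data of all indices
  let dataE : ∀ i : PPart Q,
      D.LevelData (D.Allowed AtP) ab bd (udim base.rk pb.rkF (.inr i)) := fun i => match i with
    | .inl U => dep.levData c' U
    | .inr (.inl U) => {
        A := pl.AF U
        T := pl.TF U
        dia := pd.diaF U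
        act := pl.oldAct cF U
        act_dia := fun g => matAct_eq_scalar _ _ fun z =>
          Prod.ext (pd.act_diaF U g z.1) (pd.act_diaF U g z.2)
        pts := (pd.sepF U).pts
        ev := (pd.sepF U).ev
        ev_injective := (pd.sepF U).ev_injective
        good := fun j => ((pd.sepF U).good j).1
        ev_T := fun ℓ hℓ hℓb => (pd.sepF U).ev_T ℓ hℓ hℓb
        ev_dia := fun i j => pd.ev_diaF U i j }
    | .inr (.inr U) => {
        A := pl.AS U
        T := pl.TS U
        dia := pd.diaS U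
        act := pl.newPAct cq U
        act_dia := fun g => matAct_eq_scalar _ _ (pd.act_diaS U g)
        pts := (pd.sepS U).pts
        ev := (pd.sepS U).ev
        ev_injective := (pd.sepS U).ev_injective
        good := fun j => ((pd.sepS U).good j).1
        ev_T := fun ℓ hℓ hℓb => (pd.sepS U).ev_T ℓ hℓ hℓb
        ev_dia := fun i j => pd.ev_diaS U i j }
  let data : ∀ i : UIdx Q, D.LevelData (D.Allowed AtP) ab bd (udim base.rk pb.rkF i) := fun i =>
    match i with
    | .inl i => dep.data c hc i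
    | .inr i => dataE i
  let umaps : ∀ t, Matrix (Fin (udim base.rk pb.rkF (utgt t))) (Fin (udim base.rk pb.rkF (usrc t)))
      (MonoidAlgebra O (DGroup S.p D.expo)) := fun t => match t with
    | .inl t => tmaps dep.levels c t
    | .inr (.inl U) => LinearMap.toMatrix (c U) (c' U) LinearMap.id
    | .inr (.inr (.inl U)) => LinearMap.toMatrix (pairBasis (cF U)) (c' U) (pl.upP U)
    | .inr (.inr (.inr U)) =>
        LinearMap.toMatrix (c' U) (cq U) (Submodule.mkQ (LinearMap.range (pl.upP U)))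
  have hincl := fun U => pl.inclMat_apply c' (e U) (hc'inl U)
  have hproj := fun U => pl.projMat_apply c' (e U) (hc'inl U) (hcq U)
  -- the base values at Frobenius
  have hlev' : ∀ U ℓ, ℓ.Prime → ℓ ∉ bd → (levAct dep.levels c' U (dep.levels.T U ℓ)).map aug =
      levAct base.toHeckeLevels Ps.b' U (base.T U ℓ) := fun U ℓ hℓ hℓb =>
    toMatrix_map_aug aug (dep.red U) (dep.red U) (dep.red_smul U) (c' U) (Ps.b' U) (c' U) (Ps.b' U)
      (hc'red U) (hc'red U) _ _ (dep.red_T U ℓ hℓ hℓb)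
  have hold' : ∀ U ℓ, ℓ.Prime → ℓ ∉ bd →
      (pl.oldAct cF U (pl.TF U ℓ)).map aug = pb.toPLevels.oldAct Ps.bF U (pb.TF U ℓ) :=
    fun U ℓ hℓ hℓb =>
    toMatrix_map_aug aug (red2 U) (red2 U) (lift_one_smul (pd.redF U) (pd.redF_smul U))
      (pairBasis (cF U)) (pairBasis (Ps.bF U)) (pairBasis (cF U)) (pairBasis (Ps.bF U))
      (hred2 U) (hred2 U) _ _ fun z =>
      Prod.ext (pd.redF_T U ℓ hℓ hℓb z.1) (pd.redF_T U ℓ hℓ hℓb z.2)
  have hnew' : ∀ U ℓ, ℓ.Prime → ℓ ∉ bd →
      (pl.newPAct cq U (pl.TS U ℓ)).map aug = pb.toPLevels.newPAct Ps.bq U (pb.TS U ℓ) :=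
    fun U ℓ hℓ hℓb => by
    have hℓ0 : ℓ ∉ bad := fun h => hℓb (Finset.mem_union_left _ h)
    refine Matrix.ext fun v v' => ?_
    have h1 := block_of_proj (e U) (hproj U) (pl.proj_toMatrix c' cq U hℓ hℓb) v (.inr v')
    have h2 := block_of_proj (e U) (pb.toPLevels.projMat_apply Ps.b' (e U) (Ps.b'_inl U) (Ps.bq_eq U))
      (pb.toPLevels.proj_toMatrix Ps.b' Ps.bq U hℓ hℓ0) v (.inr v')
    simp only [Sum.elim_inr] at h1 h2
    rw [Matrix.map_apply, ← h1, ← h2, ← hlev' U ℓ hℓ hℓb, Matrix.map_apply]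
  have hlev : ∀ U ℓ, ℓ.Prime → ℓ ∉ bd → (levAct dep.levels c U (dep.levels.T U ℓ)).map aug =
      levAct base.toHeckeLevels B.b U (base.T U ℓ) := fun U ℓ hℓ hℓb =>
    toMatrix_map_aug aug (dep.red U) (dep.red U) (dep.red_smul U) (c U) (B.b U) (c U) (B.b U)
      (hred U) (hred U) _ _ (dep.red_T U ℓ hℓ hℓb)
  have hnot : ∀ i, ∀ σ ∈ (S.P.place (D.qv i)).inertiaSubgroupIn ℚ,
      ∀ j, (base.points (unionExtra pb w' w)).r j σ = 1 := fun i σ hσ j =>
    (base.allowed_points _ hE j).1 _ (D.prime i).1 (hqv i) _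
      (S.P.liesOver _ (D.prime i).1) σ hσ
  obtain ⟨I, hID, hmaps, hf⟩ := exists_levelInput D (src := usrc) (tgt := utgt) B.M₀ Ps.act₀ F hF
    hup hspan AtP hAtP ab hab bd
    (fun i => Finset.mem_union_right _ (Finset.mem_image_of_mem _ (Finset.mem_univ i)))
    (fun j => ⟨fun q hq hqT => (base.allowed_points _ hE j).1 q hq
      fun h => hqT (Finset.mem_union_left _ h), (base.allowed_points _ hE j).2⟩)
    (fun i j => hnot i _ (D.s i).2 j) data umaps
    (by
      rintro (⟨U, _ | _⟩ | U | U | U) ℓ hℓ hℓb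
      · exact up_toMatrix dep.levels c U hℓ hℓb
      · exact down_toMatrix dep.levels c U hℓ hℓb
      · exact toMatrix_intertwine (c U) (dep.levels.act U) (c' U) (dep.levels.act U) LinearMap.id
          fun _ => rfl
      · exact pl.incl_toMatrix c' cF U hℓ hℓb
      · exact pl.proj_toMatrix c' cq U hℓ hℓb)
    (by
      rintro ((U | ⟨U, _ | _⟩) | U | U | U) ℓ hℓ hℓb P hP σ hσ <;>
        have hℓ0 : ℓ ∉ bad := fun h => hℓb (Finset.mem_union_left _ h)
      · show (levAct dep.levels c U (dep.levels.T U ℓ)).map aug =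
          levAct base.toHeckeLevels B.b U (B.f₀ U (B.M₀.rR σ).trace)
        rw [B.f₀_frob U hℓ (Or.inl hℓ0) hP hσ, hlev U ℓ hℓ hℓb]
      · show (dblAct dep.levels c U (dep.levels.T (oldU U) ℓ)).map aug =
          dblAct base.toHeckeLevels B.b U (B.f₀ (oldU U) (B.M₀.rR σ).trace)
        rw [B.f₀_frob (oldU U) hℓ (Or.inl hℓ0) hP hσ]
        refine Matrix.ext fun i j => ?_
        obtain ⟨u, rfl⟩ := finSumFinEquiv.surjective i
        obtain ⟨v, rfl⟩ := finSumFinEquiv.surjective j
        rw [Matrix.map_apply, dblAct_apply, dblAct_apply, ← hlev (oldU U) ℓ hℓ hℓb]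
        rcases u with u | u <;> rcases v with v | v <;> simp
      · show ((levAct dep.levels c U.1
            (newT dep.levels base.two_mul_rk_le c U ℓ).1).submatrix _ _).map aug =
          (levAct base.toHeckeLevels B.b U.1 (B.f₀ U.1 (B.M₀.rR σ).trace)).submatrix _ _
        rw [val_newT dep.levels base.two_mul_rk_le c hc U hℓ hℓb,
          B.f₀_frob U.1 hℓ (Or.inl hℓ0) hP hσ, ← hlev U.1 ℓ hℓ hℓb]
        rfl
      · show (levAct dep.levels c' U (dep.levels.T U ℓ)).map aug =
          levAct base.toHeckeLevels Ps.b' U (B.f₀ U (B.M₀.rR σ).trace)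
        rw [B.f₀_frob U hℓ (Or.inl hℓ0) hP hσ, hlev' U ℓ hℓ hℓb]
      · show (pl.oldAct cF U (pl.TF U ℓ)).map aug =
          pb.toPLevels.oldAct Ps.bF U (Ps.fF U (B.M₀.rR σ).trace)
        rw [show Ps.fF U (B.M₀.rR σ).trace = pb.TF U ℓ from (pb.sepF U).ev_injective (funext fun j => by
          rw [Ps.ev_fF, (pb.sepF U).ev_T ℓ hℓ hℓ0 P hP σ hσ j]), hold' U ℓ hℓ hℓb]
      · show (pl.newPAct cq U (pl.TS U ℓ)).map aug =
          pb.toPLevels.newPAct Ps.bq U (Ps.fS U (B.M₀.rR σ).trace)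
        rw [show Ps.fS U (B.M₀.rR σ).trace = pb.TS U ℓ from (pb.sepS U).ev_injective (funext fun j => by
          rw [Ps.ev_fS, (pb.sepS U).ev_T ℓ hℓ hℓ0 P hP σ hσ j]), hnew' U ℓ hℓ hℓb])
  subst hID
  choose f hact hev using hf
  have hact' : ∀ i x, I.act i x = (data i).act (f i x) := fun i x =>
    Matrix.ext fun u v => eq_of_heq (hact i x u v)
  have hmaps' : ∀ t, I.maps t = umaps t := fun t =>
    Matrix.ext fun u v => eq_of_heq (hmaps t u v)
  obtain ⟨hfacts, hold⟩ := facts_of_data B hspan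
    (I.restrict (src := tsrc) (tgt := ttgt) Sum.inl Sum.inl (fun _ => rfl) fun _ => rfl) dep c hc hred
    (fun i => f (.inl i)) (fun i => hact' (.inl i))
    (fun t => Matrix.ext fun u v => congrFun (congrFun (hmaps' (.inl t)) u) v)
    fun i => hev (.inl i)
  -- the two families
  let PS := PointSet.sigma fun o : Option (Finset Q) => o.elim w.single fun U => (pd.sepS U).pts
  have : Nonempty PS.J := ⟨⟨none, ()⟩⟩
  obtain ⟨MS⟩ := PS.nonempty_model F hF hup
  obtain ⟨U₀, hU₀, hπc⟩ := I.π_conj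
  have hπtr : ∀ σ, I.π (I.C.rR σ).trace = (B.M₀.rR σ).trace := fun σ => by
    obtain ⟨u, rfl⟩ := hU₀
    have h := hπc σ
    rw [AddMonoidHom.map_trace I.π, show (I.C.rR σ).map I.π =
      (u⁻¹ : (M2 B.M₀.R)ˣ).1 * (B.M₀.rR σ * u.1) by rw [← h, ← mul_assoc, Units.inv_mul, one_mul],
      ← mul_assoc, Matrix.trace_mul_comm, ← mul_assoc, Units.mul_inv, one_mul]
  let gF := fun U (j : (pd.sepF U).pts.J) =>
    ((Pi.evalAlgHom O (pd.sepF U).pts.B j).comp (pd.sepF U).ev).comp (f (.inr (.inr (.inl U))))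
  obtain ⟨KF, hKF, hclassF⟩ : ∃ KF : Ideal I.C.R, (∀ z ∈ KF, ∀ U j, gF U j z = 0) ∧
      ∀ t : ↥(tangent I.C.π O), (∀ z ∈ KF, t.1 z = 0) → loc.CF (tgVal I.C.rR S.rb t) := by
    let PF := PointSet.sigma fun U => (pd.sepF U).pts
    by_cases hne : Nonempty PF.J
    · obtain ⟨MF⟩ := PF.nonempty_model F hF hup
      obtain ⟨πF, hπFs, hπFt, hπFg⟩ := PointSet.exists_sigma_quot _ MF I.C gF
        fun U j σ => hev (.inr (.inr (.inl U))) σ j
      exact ⟨RingHom.ker πF, hπFg, fun t ht =>
        loc.restrictF I.C PF MF (fun j => ((pd.sepF j.1).good j.2).2) πF hπFs hπFt t ht⟩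
    · refine ⟨⊤, fun z _ U j => (hne ⟨⟨U, j⟩⟩).elim, fun t ht => ?_⟩
      have h0 : tgVal I.C.rR S.rb t = 0 := funext fun σ => by
        show (I.C.rR σ).map t.1 * _ = 0
        rw [show (I.C.rR σ).map t.1 = 0 from Matrix.ext fun a b => ht _ Submodule.mem_top,
          Matrix.zero_mul]
      rw [h0]
      exact loc.zeroF
  obtain ⟨πS, hπSs, hπSt, hπSg⟩ := PointSet.exists_option_quot w.single
    (fun U => (pd.sepS U).pts) MS I.C (fun _ => (B.pe wIdx).comp I.π)
    (fun _ σ => by
      show B.pe wIdx (I.π (I.C.rR σ).trace) = _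
      rw [hπtr]
      exact B.pe_trace wIdx σ)
    (fun U j => ((Pi.evalAlgHom O (pd.sepS U).pts.B j).comp (pd.sepS U).ev).comp
      (f (.inr (.inr (.inr U)))))
    fun U j σ => hev (.inr (.inr (.inr U))) σ j
  exact ⟨{
    I := I
    KF := KF
    KS := RingHom.ker πS
    facts := hfacts
    hold := hold
    chg := fun U => ⟨LinearMap.toMatrix (c U) (c' U) LinearMap.id,
      LinearMap.toMatrix (c' U) (c U) LinearMap.id,
      (LinearMap.toMatrix_comp (c' U) (c U) (c' U) LinearMap.id LinearMap.id).symm.trans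
        (LinearMap.toMatrix_id _),
      (LinearMap.toMatrix_comp (c U) (c' U) (c U) LinearMap.id LinearMap.id).symm.trans
        (LinearMap.toMatrix_id _),
      fun z => by
        have h := I.intertwine (.inr (.inl U)) z
        rw [hmaps'] at h
        exact h⟩
    h₁₁ := fun U z u u' => by
      have h := I.intertwine (.inr (.inr (.inl U))) z
      rw [hmaps'] at h
      exact block_of_incl (e U) (hincl U) h (.inl u) u'
    h₂₁ := fun U z v u => by
      have h := I.intertwine (.inr (.inr (.inl U))) z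
      rw [hmaps'] at h
      exact block_of_incl (e U) (hincl U) h (.inr v) u
    h₂₂ := fun U z v v' => by
      have h := I.intertwine (.inr (.inr (.inr U))) z
      rw [hmaps'] at h
      exact block_of_proj (e U) (hproj U) h v (.inr v')
    flat := fun U z hz => by
      rw [hact', show f (.inr (.inr (.inl U))) z = 0 from (pd.sepF U).ev_injective (funext fun j => by
        rw [map_zero, Pi.zero_apply]
        exact hKF z hz U j), map_zero]
    strict := fun U z hz => by
      rw [hact', show f (.inr (.inr (.inr U))) z = 0 from (pd.sepS U).ev_injective (funext fun j => by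
        rw [map_zero, Pi.zero_apply]
        exact (hπSg z hz).2 U j), map_zero]
    point := fun z hz => (hπSg z hz).1 ()
    classF := hclassF
    classS := fun t ht => loc.restrictS I.C PS MS (fun j => by
      obtain ⟨(_ | U), i⟩ := j
      · exact hwS
      · exact ((pd.sepS U).good i).2) πS hπSs hπSt t ht }⟩

end Setup

end FA.RT
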