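import Fermat.Agent.RT.Tower.PDefs

/-!
# A system which is not old at `p` is new

A point of the algebra of a level which does not come from the old part is a point of the algebra of
the quotient by the old part: the product of the annihilators of the two parts annihilates the level.
-/

set_option autoImplicit false
set_option maxHeartbeats 400000

noncomputable section

open IsLocalRing Matrix FA.Deform FA.TW FA.LocalDef

namespace FA.RT

local notation "GQ" => AlgebraicClosure ℚ ≃ₐ[ℚ] AlgebraicClosure ℚ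
local notation "M2" => Matrix (Fin 2) (Fin 2)

/-- A point whose kernel contains the kernel of a map descends to the range. -/
theorem exists_hom_range_of_ker_le {O P A : Type} [CommRing O] [CommRing P] [Algebra O P]
    [CommRing A] [Algebra O A] (φ : P →ₐ[O] A) (ψ : P →ₐ[O] O) (h : RingHom.ker φ ≤ RingHom.ker ψ) :
    ∃ χ : φ.range →ₐ[O] O, ∀ x, χ ⟨φ x, x, rfl⟩ = ψ x := by
  have hsurj := φ.rangeRestrict_surjective
  refine ⟨(Ideal.Quotient.liftₐ (RingHom.ker φ.rangeRestrict) ψ fun x hx =>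
    RingHom.mem_ker.1 (h (RingHom.mem_ker.2 (congrArg Subtype.val (RingHom.mem_ker.1 hx))))).comp
      (Ideal.quotientKerAlgEquivOfSurjective hsurj).symm.toAlgHom, fun x => ?_⟩
  have hsy : (Ideal.quotientKerAlgEquivOfSurjective hsurj).symm (φ.rangeRestrict x) =
      Ideal.Quotient.mk _ x :=
    (Ideal.quotientKerAlgEquivOfSurjective hsurj).injective (by
      rw [AlgEquiv.apply_symm_apply, Ideal.quotientKerAlgEquivOfSurjective_mk])
  rw [AlgHom.comp_apply, AlgEquiv.coe_toAlgHom,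
    show (⟨φ x, x, rfl⟩ : φ.range) = φ.rangeRestrict x from rfl, hsy]
  rfl

/-- Two module structures of a ring forming a tower over it are equal. -/
theorem smul_eq_of_tower {R M : Type} [CommRing R] [AddCommGroup M] (m₁ m₂ : Module R M)
    (h : @IsScalarTower R R M _ m₂.toSMul m₁.toSMul) (c : R) (z : M) :
    (letI := m₁; c • z) = (letI := m₂; c • z) := by
  have e := h.smul_assoc c 1 z
  rw [smul_eq_mul, mul_one] at e
  have h1 : (letI := m₂; (1 : R) • z) = z := @one_smul R M _ m₂.toMulAction z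
  exact (congrArg (fun y => (letI := m₁; c • y)) h1.symm).trans e.symm

namespace Setup

variable {O : Type} [CommRing O] [IsDomain O] [IsDiscreteValuationRing O]
  [IsAdicComplete (maximalIdeal O) O] {S : Setup O} {Q : Type} [DecidableEq Q] {emb : Q → ↥S.Sig}
  {bad : Finset ℕ}
  {AtP : ∀ (B : Type) [CommRing B] [IsLocalRing B] [Algebra O B], (GQ →* M2 B) → Prop}
  {base : BaseTower S Q emb bad AtP}
  {GoodF GoodS : ∀ (B : Type) [CommRing B] [IsLocalRing B] [Algebra O B], (GQ →* M2 B) → Prop}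

/-- **A system of a level which is not old at `p` is a system of the new part.** -/
theorem PBase.exists_new_point (pb : PBase base GoodF GoodS) (U : Finset Q)
    (χ : base.A U →ₐ[O] O)
    (hnew : ¬ ∃ χF : Algebra.adjoin O {a : pb.AF U | ∃ ℓ : ℕ, ℓ.Prime ∧ ℓ ∉ bad ∧ a = pb.TF U ℓ}
        →ₐ[O] O, ∀ (ℓ : ℕ) (hℓ : ℓ.Prime) (hb : ℓ ∉ bad),
          χF ⟨pb.TF U ℓ, Algebra.subset_adjoin ⟨ℓ, hℓ, hb, rfl⟩⟩ = χ (base.T U ℓ)) :
    ∃ χS : Algebra.adjoin O {a : pb.AS U | ∃ ℓ : ℕ, ℓ.Prime ∧ ℓ ∉ bad ∧ a = pb.TS U ℓ} →ₐ[O] O,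
      ∀ (ℓ : ℕ) (hℓ : ℓ.Prime) (hb : ℓ ∉ bad),
        χS ⟨pb.TS U ℓ, Algebra.subset_adjoin ⟨ℓ, hℓ, hb, rfl⟩⟩ = χ (base.T U ℓ) := by
  classical
  let G : Type := {ℓ : ℕ // ℓ.Prime ∧ ℓ ∉ bad}
  let φ : MvPolynomial G O →ₐ[O] base.A U := MvPolynomial.aeval fun ℓ => base.T U ℓ.1
  let φF : MvPolynomial G O →ₐ[O] pb.AF U := MvPolynomial.aeval fun ℓ => pb.TF U ℓ.1
  let φS : MvPolynomial G O →ₐ[O] pb.AS U := MvPolynomial.aeval fun ℓ => pb.TS U ℓ.1
  have hup : ∀ g a b, base.act U (φ g) (pb.upP U (a, b)) =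
      pb.upP U (pb.actF U (φF g) a, pb.actF U (φF g) b) := by
    intro g
    induction g using MvPolynomial.induction_on with
    | C c =>
      intro a b
      simp only [φ, φF, MvPolynomial.aeval_C, AlgHom.commutes, Module.algebraMap_end_apply]
      refine (smul_eq_of_tower (base.moduleO U) (base.moduleΛ U) (base.tower U) c _).trans ?_
      refine (LinearMap.map_smul (pb.upP U) c (a, b)).symm.trans
        (congrArg (pb.upP U) (Prod.ext ?_ ?_))
      exacts [(smul_eq_of_tower (pb.moduleOF U) (pb.moduleΛF U) (pb.towerF U) c a).symm,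
        (smul_eq_of_tower (pb.moduleOF U) (pb.moduleΛF U) (pb.towerF U) c b).symm]
    | add g g' hg hg' =>
      intro a b
      simp only [map_add, LinearMap.add_apply, hg, hg']
      rw [← map_add, Prod.mk_add_mk]
    | mul_X g ℓ hg =>
      intro a b
      simp only [map_mul, Module.End.mul_apply]
      rw [show φ (MvPolynomial.X ℓ) = base.T U ℓ.1 from MvPolynomial.aeval_X _ _,
        show φF (MvPolynomial.X ℓ) = pb.TF U ℓ.1 from MvPolynomial.aeval_X _ _,
        ← pb.upP_comm U ℓ.1 ℓ.2.1 ℓ.2.2, hg]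
  have hmk : ∀ g z, pb.actS U (φS g) (Submodule.Quotient.mk z) =
      Submodule.Quotient.mk (base.act U (φ g) z) := by
    intro g
    induction g using MvPolynomial.induction_on with
    | C c =>
      intro z
      simp only [φ, φS, MvPolynomial.aeval_C, AlgHom.commutes, Module.algebraMap_end_apply]
      rw [Submodule.Quotient.mk_smul]
    | add g g' hg hg' =>
      intro z
      simp only [map_add, LinearMap.add_apply, hg, hg']
      rw [Submodule.Quotient.mk_add]
    | mul_X g ℓ hg =>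
      intro z
      simp only [map_mul, Module.End.mul_apply]
      rw [show φS (MvPolynomial.X ℓ) = pb.TS U ℓ.1 from MvPolynomial.aeval_X _ _,
        show φ (MvPolynomial.X ℓ) = base.T U ℓ.1 from MvPolynomial.aeval_X _ _,
        pb.actS_mk U ℓ.1 ℓ.2.1 ℓ.2.2, hg]
  have hle : RingHom.ker φF * RingHom.ker φS ≤ RingHom.ker (χ.comp φ) := by
    refine Ideal.mul_le.2 fun g hg f hf => ?_
    rw [RingHom.mem_ker] at hg hf ⊢
    have h0 : φ (g * f) = 0 := by
      refine base.act_injective U ?_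
      refine LinearMap.ext fun z => ?_
      obtain ⟨⟨a, b⟩, hab⟩ : base.act U (φ f) z ∈ LinearMap.range (pb.upP U) := by
        rw [← Submodule.Quotient.mk_eq_zero, ← hmk, hf, map_zero, LinearMap.zero_apply]
      rw [map_mul, map_mul, Module.End.mul_apply, ← hab, hup, hg, map_zero, map_zero,
        LinearMap.zero_apply, LinearMap.zero_apply, LinearMap.zero_apply, Prod.mk_zero_zero,
        map_zero]
    rw [AlgHom.comp_apply, h0, map_zero]
  have : (RingHom.ker (χ.comp φ)).IsPrime := RingHom.ker_isPrime _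
  rcases Ideal.IsPrime.mul_le ‹(RingHom.ker (χ.comp φ)).IsPrime› |>.1 hle with h | h
  · refine absurd ?_ hnew
    obtain ⟨χF, hχF⟩ := exists_hom_range_of_ker_le φF (χ.comp φ) h
    have hN : Algebra.adjoin O {a : pb.AF U | ∃ ℓ : ℕ, ℓ.Prime ∧ ℓ ∉ bad ∧ a = pb.TF U ℓ} ≤
        φF.range := Algebra.adjoin_le (by
      rintro _ ⟨ℓ, hℓ, hb, rfl⟩
      exact ⟨MvPolynomial.X ⟨ℓ, hℓ, hb⟩, MvPolynomial.aeval_X _ _⟩)
    refine ⟨χF.comp (Subalgebra.inclusion hN), fun ℓ hℓ hb => ?_⟩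
    have hv : χ.comp φ (MvPolynomial.X ⟨ℓ, hℓ, hb⟩) = χ (base.T U ℓ) :=
      congrArg (⇑χ) (MvPolynomial.aeval_X _ _)
    refine Eq.trans ?_ ((hχF (MvPolynomial.X ⟨ℓ, hℓ, hb⟩)).trans hv)
    have hx : φF (MvPolynomial.X ⟨ℓ, hℓ, hb⟩) = pb.TF U ℓ := MvPolynomial.aeval_X _ _
    rw [AlgHom.comp_apply]
    refine congrArg (⇑χF) ?_
    apply Subtype.ext
    rw [Subalgebra.coe_inclusion]
    exact hx.symm
  · obtain ⟨χS, hχS⟩ := exists_hom_range_of_ker_le φS (χ.comp φ) h
    have hN : Algebra.adjoin O {a : pb.AS U | ∃ ℓ : ℕ, ℓ.Prime ∧ ℓ ∉ bad ∧ a = pb.TS U ℓ} ≤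
        φS.range := Algebra.adjoin_le (by
      rintro _ ⟨ℓ, hℓ, hb, rfl⟩
      exact ⟨MvPolynomial.X ⟨ℓ, hℓ, hb⟩, MvPolynomial.aeval_X _ _⟩)
    refine ⟨χS.comp (Subalgebra.inclusion hN), fun ℓ hℓ hb => ?_⟩
    have hv : χ.comp φ (MvPolynomial.X ⟨ℓ, hℓ, hb⟩) = χ (base.T U ℓ) :=
      congrArg (⇑χ) (MvPolynomial.aeval_X _ _)
    refine Eq.trans ?_ ((hχS (MvPolynomial.X ⟨ℓ, hℓ, hb⟩)).trans hv)
    have hx : φS (MvPolynomial.X ⟨ℓ, hℓ, hb⟩) = pb.TS U ℓ := MvPolynomial.aeval_X _ _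
    rw [AlgHom.comp_apply]
    refine congrArg (⇑χS) ?_
    apply Subtype.ext
    rw [Subalgebra.coe_inclusion]
    exact hx.symm

end Setup

end FA.RT
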